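import Mathlib.NumberTheory.ModularForms.CongruenceSubgroups
import Mathlib.NumberTheory.Modular
import Mathlib.LinearAlgebra.Matrix.FixedDetMatrices
import Mathlib.GroupTheory.GroupAction.Quotient

/-!
# The coset space SL(2,ℤ)/Γ₀(N): elliptic fixed points and cusps
-/

set_option autoImplicit false

noncomputable section

namespace Fermat.Agent.Period

open CongruenceSubgroup ModularGroup
open scoped MatrixGroups

/-- The coset space. -/
abbrev Coset (N : ℕ) : Type := SL(2, ℤ) ⧸ Gamma0 N

/-- The base coset. -/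
def baseCoset (N : ℕ) : Coset N := ((1 : SL(2, ℤ)) : Coset N)

/-- The order six element `S * T`. -/
def ellU : SL(2, ℤ) := S * T

lemma coe_ellU : (ellU : Matrix (Fin 2) (Fin 2) ℤ) = !![0, -1; 1, 1] := by
  rw [ellU, Matrix.SpecialLinearGroup.coe_mul, coe_S, coe_T]
  ext i j; fin_cases i <;> fin_cases j <;> simp [Matrix.mul_apply, Fin.sum_univ_two]

lemma S_mul_S : S * S = -1 := by
  apply Subtype.ext
  rw [Matrix.SpecialLinearGroup.coe_mul, coe_S, Matrix.SpecialLinearGroup.coe_neg,
    Matrix.SpecialLinearGroup.coe_one]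
  ext i j; fin_cases i <;> fin_cases j <;> simp [Matrix.mul_apply, Fin.sum_univ_two]

lemma ellU_cube : ellU * ellU * ellU = -1 := by
  apply Subtype.ext
  rw [Matrix.SpecialLinearGroup.coe_mul, Matrix.SpecialLinearGroup.coe_mul, coe_ellU,
    Matrix.SpecialLinearGroup.coe_neg, Matrix.SpecialLinearGroup.coe_one]
  ext i j; fin_cases i <;> fin_cases j <;> simp [Matrix.mul_apply, Fin.sum_univ_two]

lemma S_mul_ellU : S * ellU = -T := by
  rw [ellU, ← mul_assoc, S_mul_S, neg_one_mul]

variable {N : ℕ}

lemma neg_one_mem_Gamma0' : (-1 : SL(2, ℤ)) ∈ Gamma0 N := by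
  simp [Gamma0_mem]

lemma neg_smul_coset (g : SL(2, ℤ)) (q : Coset N) : (-g) • q = g • q := by
  induction q using QuotientGroup.induction_on with
  | _ x =>
    rw [MulAction.Quotient.smul_mk, MulAction.Quotient.smul_mk, QuotientGroup.eq]
    have : ((-g) * x)⁻¹ * (g * x) = -1 := by
      rw [neg_mul, show -(g * x) = (-1 : SL(2, ℤ)) * (g * x) from (neg_one_mul _).symm,
        mul_inv_rev, mul_assoc, show (-1 : SL(2, ℤ))⁻¹ = -1 from ?_]
      · rw [← mul_assoc, mul_neg, mul_one, neg_mul, inv_mul_cancel]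
      · exact inv_eq_of_mul_eq_one_right (by simp)
    simp only [smul_eq_mul]
    rw [this]
    exact neg_one_mem_Gamma0'

lemma S_smul_S (q : Coset N) : S • S • q = q := by
  rw [← mul_smul, S_mul_S, neg_smul_coset, one_smul]

lemma ellU_smul_cube (q : Coset N) : ellU • ellU • ellU • q = q := by
  rw [← mul_smul, ← mul_smul, ellU_cube, neg_smul_coset, one_smul]

lemma S_smul_ellU (q : Coset N) : S • ellU • q = T • q := by
  rw [← mul_smul, S_mul_ellU, neg_smul_coset]

lemma T_pow_smul (q : Coset N) : T ^ N • q = q := by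
  induction q using QuotientGroup.induction_on with
  | _ x =>
    rw [MulAction.Quotient.smul_mk, QuotientGroup.eq]
    have hT : T ^ (N : ℤ) ∈ Gamma N := by
      rw [Gamma_mem, coe_T_zpow]
      simp
    have h := (Gamma_normal N).conj_mem _ ((Gamma N).inv_mem hT) x⁻¹
    have h' : (T ^ N • x)⁻¹ * x ∈ Gamma N := by
      convert h using 1
      rw [inv_inv, smul_eq_mul, zpow_natCast, mul_inv_rev]
    refine (Gamma1_in_Gamma0 N) ?_
    rw [Gamma_mem] at h'
    rw [Gamma1_mem]
    exact ⟨h'.1, h'.2.2.2, h'.2.2.1⟩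

instance instFiniteCoset [NeZero N] : Finite (Coset N) := inferInstance

/-- Fixed cosets of `g`. -/
def fixCard (N : ℕ) (g : SL(2, ℤ)) : ℕ := Nat.card {q : Coset N // g • q = q}

/-- Orbits of translation on cosets, i.e. cusps. -/
abbrev CuspSet (N : ℕ) : Type :=
  MulAction.orbitRel.Quotient (Subgroup.zpowers (T : SL(2, ℤ))) (Coset N)

/-- The cusp attached to a coset. -/
def toCusp (q : Coset N) : CuspSet N := Quotient.mk'' q

lemma toCusp_surjective : Function.Surjective (toCusp (N := N)) := Quotient.mk''_surjective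

lemma toCusp_T_smul (q : Coset N) : toCusp (T • q) = toCusp q :=
  Quotient.sound' ⟨⟨T, Subgroup.mem_zpowers _⟩, rfl⟩

lemma eq_of_T_invariant {α : Type*} {lam : Coset N → α} (h : ∀ q, lam (T • q) = lam q)
    {p q : Coset N} (hpq : toCusp p = toCusp q) : lam p = lam q := by
  obtain ⟨⟨g, hg⟩, hgq⟩ := Quotient.exact' hpq
  obtain ⟨n, rfl⟩ := Subgroup.mem_zpowers_iff.mp hg
  change T ^ n • q = p at hgq
  subst hgq
  clear hpq hg
  induction n with
  | zero => simp
  | succ i hi =>
    rw [add_comm, zpow_add, zpow_one, mul_smul, h]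
    exact hi
  | pred i hi =>
    rw [← hi, ← h (T ^ (-(i : ℤ) - 1) • q), ← mul_smul, ← zpow_one_add]
    congr 2
    group

/-- A function invariant under `S` and `T` on the cosets is constant. -/
lemma eq_base_of_invariant {α : Type*} {lam : Coset N → α}
    (hS : ∀ q, lam (S • q) = lam q) (hT : ∀ q, lam (T • q) = lam q) (q : Coset N) :
    lam q = lam (baseCoset N) := by
  have key : ∀ g : SL(2, ℤ), ∀ p : Coset N, lam (g • p) = lam p := by
    intro g
    have hg : g ∈ Subgroup.closure ({S, T} : Set SL(2, ℤ)) := by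
      rw [SpecialLinearGroup.SL2Z_generators]; exact Subgroup.mem_top g
    induction hg using Subgroup.closure_induction with
    | mem x hx =>
      rcases hx with rfl | hx
      · exact hS
      · rw [Set.mem_singleton_iff] at hx; subst hx; exact hT
    | one => simp
    | mul x y _ _ hx hy => intro p; rw [mul_smul, hx, hy]
    | inv x _ hx => intro p; rw [← hx (x⁻¹ • p), smul_inv_smul]
  induction q using QuotientGroup.induction_on with
  | _ x =>
    rw [← key x (baseCoset N)]
    congr 1
    simp [baseCoset, MulAction.Quotient.smul_mk]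

end Fermat.Agent.Period
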