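import Fermat.Agent.Period.LevelOne
import Mathlib.NumberTheory.Modular
import Mathlib.NumberTheory.ModularForms.ProperlyDiscontinuous
import Mathlib.Analysis.Complex.OpenMapping
import Mathlib.Analysis.Normed.Module.Connected
import Mathlib.Analysis.Calculus.InverseFunctionTheorem.Deriv
import Mathlib.LinearAlgebra.Complex.FiniteDimensional

/-!
# The j-function separates SL(2,ℤ)-orbits

Main results: `jFun_smul`, `jFun_eq_iff`, `smul_eq_self_of_generic`,
`exists_smul_eq_of_E4_eq_zero`, `E4_ρ`, `E6_I`.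
-/

set_option autoImplicit false

noncomputable section

namespace Fermat.Agent.Period

open UpperHalfPlane Filter Topology ModularGroup EisensteinSeries ModularForm
open scoped MatrixGroups ModularForm Real Manifold Modular

local notation "Δ" => ModularForm.discriminant

lemma levelOne_smul {k : ℤ} (f : ModularForm 𝒮ℒ k) (γ : SL(2, ℤ)) (z : ℍ) :
    f (γ • z) = (denom γ z) ^ k * f z := by
  have h := congrFun (slash_SL_levelOne f γ) z
  rw [ModularForm.SL_slash_apply, zpow_neg] at h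
  have hd : (denom γ z) ^ k ≠ 0 := zpow_ne_zero _ (denom_ne_zero _ _)
  field_simp at h
  rw [h]

lemma jFun_smul (γ : SL(2, ℤ)) (z : ℍ) : jFun (γ • z) = jFun z := by
  have hΔ : Δ (γ • z) = (denom γ z) ^ (12 : ℤ) * Δ z := by
    have := levelOne_smul (ModularFormClass.modularForm CuspForm.discriminant) γ z
    simpa using this
  rw [jFun, jFun, hΔ, levelOne_smul E₄ γ z]
  have hd : (denom γ z) ≠ 0 := denom_ne_zero _ _
  have := discriminant_ne_zero z
  field_simp

lemma continuous_jFun : Continuous jFun := by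
  have h : ∀ z : ℍ, ContinuousAt jFun z := fun z => by
    have h1 := (hasDerivAt_jFun z).continuousAt
    have h2 : jFun = (jFun ∘ ofComplex) ∘ (fun w : ℍ => (w : ℂ)) :=
      funext fun w => by simp
    rw [h2]
    exact h1.comp continuous_coe.continuousAt
  exact continuous_iff_continuousAt.mpr h

lemma analyticOnNhd_jFun : AnalyticOnNhd ℂ (jFun ∘ ofComplex) upperHalfPlaneSet :=
  DifferentiableOn.analyticOnNhd
    (fun z hz => (hasDerivAt_jFun ⟨z, hz⟩).differentiableAt.differentiableWithinAt)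
    isOpen_upperHalfPlaneSet

lemma tendsto_norm_jFun : Tendsto (fun z : ℍ => ‖jFun z‖) atImInfty atTop := by
  have h0 : Tendsto (fun z : ℍ => ‖Δ z‖) atImInfty (𝓝[>] 0) :=
    tendsto_nhdsWithin_iff.mpr ⟨tendsto_zero_iff_norm_tendsto_zero.mp discriminant_isZeroAtImInfty,
      Eventually.of_forall fun z => by simp [discriminant_ne_zero z]⟩
  have h1 := h0.inv_tendsto_nhdsGT_zero
  have h2 : Tendsto (fun z : ℍ => ‖E₄ z ^ 3‖) atImInfty (𝓝 1) := by
    simpa using (tendsto_E4.pow 3).norm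
  refine (h2.pos_mul_atTop one_pos h1).congr fun z => ?_
  simp [jFun, div_eq_mul_inv]

lemma jFun_locally_injective {z : ℍ} (h4 : E₄ z ≠ 0) (h6 : E₆ z ≠ 0) :
    ∃ U ∈ 𝓝 z, Set.InjOn jFun U := by
  have hne : -(2 * π * Complex.I) * (E₄ z ^ 2 * E₆ z) / Δ z ≠ 0 :=
    div_ne_zero (mul_ne_zero (neg_ne_zero.mpr Complex.two_pi_I_ne_zero)
      (mul_ne_zero (pow_ne_zero _ h4) h6)) (discriminant_ne_zero z)
  have hd := hasDerivAt_jFun z
  have hs : HasStrictDerivAt (jFun ∘ ofComplex)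
      (-(2 * π * Complex.I) * (E₄ z ^ 2 * E₆ z) / Δ z) (z : ℂ) := by
    have := (analyticOnNhd_jFun z z.im_pos).hasStrictDerivAt
    rwa [hd.deriv] at this
  have hl := (hs.hasStrictFDerivAt_equiv hne).eventually_left_inverse
  have hl' := (continuous_coe.tendsto z).eventually hl
  obtain ⟨U, hU, hUi⟩ := hl'.exists_mem
  refine ⟨U, hU, fun a ha b hb hab => ?_⟩
  have ea := hUi a ha
  have eb := hUi b hb
  simp only [Function.comp_apply, ofComplex_apply] at ea eb
  apply UpperHalfPlane.ext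
  rw [← ea, ← eb, hab]

lemma isOpen_image_jFun {U : Set ℍ} (hU : IsOpen U) : IsOpen (jFun '' U) := by
  have hU' : IsOpen ((fun w : ℍ => (w : ℂ)) '' U) := isOpenEmbedding_coe.isOpenMap U hU
  have hsub : (fun w : ℍ => (w : ℂ)) '' U ⊆ upperHalfPlaneSet := by
    rintro _ ⟨w, -, rfl⟩; exact w.im_pos
  rcases analyticOnNhd_jFun.is_constant_or_isOpen
      (convex_halfSpace_im_gt 0).isPreconnected with ⟨c, hc⟩ | h
  · exfalso
    have h1 : ∀ z : ℍ, ‖jFun z‖ = ‖c‖ := fun z => by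
      have := hc z z.im_pos
      rw [Function.comp_apply, ofComplex_apply] at this
      rw [this]
    have h2 := tendsto_norm_jFun
    rw [funext h1] at h2
    obtain ⟨z, hz⟩ := (h2.eventually_gt_atTop ‖c‖).exists
    exact lt_irrefl _ hz
  · have := h _ hsub hU'
    rwa [← Set.image_comp, show (jFun ∘ ofComplex) ∘ (fun w : ℍ => (w : ℂ)) = jFun from
      funext fun w => by simp] at this

lemma smul_eq_self_of_generic {γ : SL(2, ℤ)} {z : ℍ} (h : γ • z = z) (h4 : E₄ z ≠ 0)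
    (h6 : E₆ z ≠ 0) : γ = 1 ∨ γ = -1 := by
  have e4 := levelOne_smul E₄ γ z
  have e6 := levelOne_smul E₆ γ z
  rw [h] at e4 e6
  have d4 : (denom γ z) ^ (4 : ℤ) = 1 := mul_right_cancel₀ h4 (by rw [one_mul]; exact e4.symm)
  have d6 : (denom γ z) ^ (6 : ℤ) = 1 := mul_right_cancel₀ h6 (by rw [one_mul]; exact e6.symm)
  have d2 : (denom γ z) ^ 2 = 1 := by
    rw [show (6 : ℤ) = 4 + 2 by norm_num, zpow_add₀ (denom_ne_zero _ _), d4, one_mul] at d6
    exact_mod_cast d6
  have hd : denom γ z = 1 ∨ denom γ z = -1 := by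
    have : (denom γ z - 1) * (denom γ z + 1) = 0 := by linear_combination d2
    rcases mul_eq_zero.mp this with e | e
    · exact Or.inl (sub_eq_zero.mp e)
    · exact Or.inr (eq_neg_of_add_eq_zero_left e)
  rw [ModularGroup.denom_apply] at hd
  have him : ((γ 1 0 : ℂ) * (z : ℂ) + (γ 1 1 : ℂ)).im = 0 := by
    rcases hd with e | e <;> simp [e]
  have hc : γ 1 0 = 0 := by
    simpa [z.im_pos.ne'] using him
  have hdd : γ 1 1 = 1 ∨ γ 1 1 = -1 := by
    rcases hd with e | e <;> [left; right] <;>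
      · rw [hc] at e
        simp only [Int.cast_zero, zero_mul, zero_add] at e
        exact_mod_cast e
  have hdet : γ 0 0 * γ 1 1 - γ 0 1 * γ 1 0 = 1 := by
    rw [← Matrix.det_fin_two (γ : Matrix (Fin 2) (Fin 2) ℤ)]; exact γ.det_coe
  have hb : γ 0 1 = 0 := by
    have h' := congrArg (fun w : ℍ => (w : ℂ)) h
    simp only [coe_specialLinearGroup_apply] at h'
    rw [hc, mul_zero, sub_zero] at hdet
    rcases hdd with e | e
    · have ha : γ 0 0 = 1 := by rw [e, mul_one] at hdet; exact hdet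
      simpa [hc, e, ha] using h'
    · have ha : γ 0 0 = -1 := by rw [e] at hdet; linarith
      simpa [hc, e, ha, neg_div, div_neg] using h'
  rw [hc, mul_zero, sub_zero] at hdet
  rcases hdd with e | e
  · left
    have ha : γ 0 0 = 1 := by rw [e, mul_one] at hdet; exact hdet
    apply Subtype.ext; ext i j; fin_cases i <;> fin_cases j <;> simp [hc, hb, ha, e]
  · right
    have ha : γ 0 0 = -1 := by rw [e] at hdet; linarith
    apply Subtype.ext; ext i j; fin_cases i <;> fin_cases j <;> simp [hc, hb, ha, e]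

/-- The set of values attained on two inequivalent points. -/
private def doubleValues : Set ℂ :=
  {c | ∃ a b : ℍ, jFun a = c ∧ jFun b = c ∧ ∀ γ : SL(2, ℤ), γ • a ≠ b}

private lemma exists_separated {a b : ℍ} (h : ∀ γ : SL(2, ℤ), γ • a ≠ b) :
    ∃ U V : Set ℍ, IsOpen U ∧ IsOpen V ∧ a ∈ U ∧ b ∈ V ∧
      ∀ x ∈ U, ∀ γ : SL(2, ℤ), γ • x ∉ V := by
  let p : ℍ → MulAction.orbitRel.Quotient 𝒮ℒ ℍ := Quotient.mk''
  have hp : Continuous p := continuous_quotient_mk'
  have hne : p a ≠ p b := by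
    intro e
    obtain ⟨⟨g, γ, rfl⟩, hg⟩ := Quotient.exact' e.symm
    exact h γ hg
  obtain ⟨U, V, hU, hV, haU, hbV, hd⟩ := t2_separation hne
  refine ⟨p ⁻¹' U, p ⁻¹' V, hU.preimage hp, hV.preimage hp, haU, hbV, fun x hx γ hγ => ?_⟩
  have e : p (γ • x) = p x :=
    Quotient.sound' ⟨⟨_, γ, rfl⟩, rfl⟩
  exact Set.disjoint_left.mp hd hx (by rw [Set.mem_preimage, e] at hγ; exact hγ)

private lemma isOpen_doubleValues : IsOpen doubleValues := by
  rw [isOpen_iff_mem_nhds]
  rintro c ⟨a, b, ha, hb, hab⟩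
  obtain ⟨U, V, hU, hV, haU, hbV, hd⟩ := exists_separated hab
  have h1 : jFun '' U ∩ jFun '' V ∈ 𝓝 c :=
    ((isOpen_image_jFun hU).inter (isOpen_image_jFun hV)).mem_nhds
      ⟨⟨a, haU, ha⟩, ⟨b, hbV, hb⟩⟩
  refine mem_of_superset h1 ?_
  rintro x ⟨⟨u, hu, rfl⟩, ⟨v, hv, hv'⟩⟩
  exact ⟨u, v, rfl, hv', fun γ e => hd u hu γ (e ▸ hv)⟩

lemma exists_smul_fd_jFun (a : ℍ) : ∃ γ : SL(2, ℤ), γ • a ∈ 𝒟 ∧ jFun (γ • a) = jFun a := by
  obtain ⟨g, hg⟩ := exists_smul_mem_fd a
  exact ⟨g, hg, jFun_smul g a⟩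

private lemma doubleValues_closed_rel :
    closure doubleValues ∩ ({0, 1728} : Set ℂ)ᶜ ⊆ doubleValues := by
  rintro c ⟨hc, hc'⟩
  obtain ⟨u, hu, hlim⟩ := mem_closure_iff_seq_limit.mp hc
  choose a b ha hb hab using hu
  choose ga hga hga' using fun n => exists_smul_fd_jFun (a n)
  choose gb hgb hgb' using fun n => exists_smul_fd_jFun (b n)
  obtain ⟨R, hR⟩ := hlim.norm.bddAbove_range
  obtain ⟨Y, hY⟩ := atImInfty_mem _ |>.mp (tendsto_norm_jFun.eventually_gt_atTop R)
  have hmem : ∀ {w : ℍ}, w ∈ 𝒟 → ‖jFun w‖ ≤ R → w ∈ truncatedFundamentalDomain Y := by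
    intro w hw hwR
    refine ⟨hw, le_of_lt ?_⟩
    by_contra hlt
    exact absurd (hY w (not_lt.mp hlt)) (not_lt.mpr hwR)
  have hK := isCompact_truncatedFundamentalDomain Y
  obtain ⟨a', -, φ, hφ, hφa⟩ := hK.tendsto_subseq (x := fun n => ga n • a n)
    (fun n => hmem (hga n) (by rw [hga', ha]; exact hR ⟨n, rfl⟩))
  obtain ⟨b', -, ψ, hψ, hψb⟩ := hK.tendsto_subseq (x := fun n => gb (φ n) • b (φ n))
    (fun n => hmem (hgb _) (by rw [hgb', hb]; exact hR ⟨_, rfl⟩))
  have hja : jFun a' = c := by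
    refine tendsto_nhds_unique ((continuous_jFun.tendsto _).comp hφa) ?_
    simpa only [Function.comp_def, hga', ha] using hlim.comp hφ.tendsto_atTop
  have hjb : jFun b' = c := by
    refine tendsto_nhds_unique ((continuous_jFun.tendsto _).comp hψb) ?_
    simpa only [Function.comp_def, hgb', hb] using hlim.comp (hφ.tendsto_atTop.comp hψ.tendsto_atTop)
  refine ⟨a', b', hja, hjb, fun γ hγ => ?_⟩
  simp only [Set.mem_compl_iff, Set.mem_insert_iff, Set.mem_singleton_iff, not_or] at hc'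
  have hj : jFun a' * Δ a' = E₄ a' ^ 3 := by
    rw [jFun, div_mul_cancel₀ _ (discriminant_ne_zero a')]
  have h4 : E₄ a' ≠ 0 := fun e => by
    apply hc'.1
    rw [← hja]; simp [jFun, e]
  have h6 : E₆ a' ≠ 0 := fun e => by
    apply hc'.2
    have h' := E4_cube_sub_E6_sq a'
    rw [e, ← hj, hja] at h'
    exact mul_right_cancel₀ (discriminant_ne_zero a') (by linear_combination h')
  obtain ⟨U, hU, hinj⟩ := jFun_locally_injective h4 h6
  have hta : Tendsto (fun n => ga (φ (ψ n)) • a (φ (ψ n))) atTop (𝓝 a') :=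
    hφa.comp hψ.tendsto_atTop
  have htb : Tendsto (fun n => γ⁻¹ • gb (φ (ψ n)) • b (φ (ψ n))) atTop (𝓝 a') := by
    have hcont : Continuous (fun w : ℍ => γ⁻¹ • w) :=
      (mdifferentiable_smul (g := ((γ⁻¹ : SL(2, ℤ)) : GL (Fin 2) ℝ)) (by simp)).continuous
    have := (hcont.tendsto _).comp hψb
    rwa [← hγ, inv_smul_smul] at this
  obtain ⟨n, hn1, hn2⟩ := ((hta.eventually_mem hU).and (htb.eventually_mem hU)).exists
  have e := hinj hn1 hn2 (by rw [hga', jFun_smul, hgb', ha, hb])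
  refine hab (φ (ψ n)) ((gb (φ (ψ n)))⁻¹ * γ * ga (φ (ψ n))) ?_
  rw [mul_smul, mul_smul, e, smul_inv_smul, inv_smul_smul]

private lemma exists_not_doubleValues :
    ∃ c : ℂ, c ∉ ({0, 1728} : Set ℂ) ∧ c ∉ doubleValues := by
  set D' := cuspFunction 1 (CuspForm.discriminant : ℍ → ℂ) with hD'
  set E' := cuspFunction 1 (E₄ : ℍ → ℂ) with hE'
  have haD : AnalyticAt ℂ D' 0 :=
    ModularFormClass.analyticAt_cuspFunction_zero _ one_pos one_mem_strictPeriods_SL
  have haE : AnalyticAt ℂ E' 0 :=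
    ModularFormClass.analyticAt_cuspFunction_zero _ one_pos one_mem_strictPeriods_SL
  have hD0 : D' 0 = 0 :=
    IsZeroAtImInfty.cuspFunction_apply_zero discriminant_isZeroAtImInfty one_pos
  have hE0 : E' 0 = 1 := by
    rw [← E_qExpansion_coeff_zero (by norm_num : 3 ≤ 4) (⟨2, rfl⟩ : Even 4), hE']
    simp [qExpansion_coeff]
  have hD1 : deriv D' 0 = 1 := by
    have := discriminant_qExpansion_coeff_one
    rw [qExpansion_coeff] at this
    simpa [hD'] using this
  set G := fun q => D' q / E' q ^ 3 with hG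
  have haG : AnalyticAt ℂ G 0 := haD.div (haE.pow 3) (by simp [hE0])
  have hG' : HasDerivAt G 1 0 := by
    refine ((haD.differentiableAt.hasDerivAt).div ((haE.differentiableAt.hasDerivAt).pow 3)
      (by simp [hE0])).congr_deriv ?_
    simp [hD0, hE0, hD1]
  have hsG : HasStrictDerivAt G 1 0 := by
    have := haG.hasStrictDerivAt
    rwa [hG'.deriv] at this
  have hl := (hsG.hasStrictFDerivAt_equiv one_ne_zero).eventually_left_inverse
  have hl' := (qParam_tendsto_atImInfty one_pos).eventually hl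
  obtain ⟨Y, hY⟩ := atImInfty_mem _ |>.mp hl'
  obtain ⟨R, hR⟩ := ((isCompact_truncatedFundamentalDomain Y).image
    continuous_jFun.norm).bddAbove
  refine ⟨((max R 1728 + 1 : ℝ) : ℂ), ?_, ?_⟩
  · have h1 : (1728 : ℝ) < max R 1728 + 1 := lt_of_le_of_lt (le_max_right _ _) (lt_add_one _)
    simp only [Set.mem_insert_iff, Set.mem_singleton_iff, not_or]
    refine ⟨?_, ?_⟩ <;> · norm_cast; linarith
  · rintro ⟨a, b, ha, hb, hab⟩
    obtain ⟨g, hg, hg'⟩ := exists_smul_fd_jFun a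
    obtain ⟨g', hgb, hgb'⟩ := exists_smul_fd_jFun b
    have hbig : ∀ w : ℍ, w ∈ 𝒟 → jFun w = ((max R 1728 + 1 : ℝ) : ℂ) → Y ≤ w.im := by
      intro w hw he
      by_contra hlt
      have := hR ⟨w, ⟨hw, le_of_lt (not_le.mp hlt)⟩, rfl⟩
      simp only [he, Complex.norm_real, Real.norm_eq_abs] at this
      rw [abs_of_pos (by positivity)] at this
      linarith [le_max_left R 1728]
    have key : ∀ w : ℍ, G (Function.Periodic.qParam 1 w) = (jFun w)⁻¹ := by
      intro w
      have e1 := SlashInvariantFormClass.eq_cuspFunction CuspForm.discriminant w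
        one_mem_strictPeriods_SL one_ne_zero
      have e2 := SlashInvariantFormClass.eq_cuspFunction E₄ w one_mem_strictPeriods_SL one_ne_zero
      simp only [hG, hD', hE']
      rw [e1, e2]
      simp [jFun]
    have e1 := hY _ (hbig _ hg (hg'.trans ha))
    have e2 := hY _ (hbig _ hgb (hgb'.trans hb))
    simp only [Set.mem_ofPred_eq, key, hg', hgb', ha, hb] at e1 e2
    have hq := e1.symm.trans e2
    simp only [Function.Periodic.qParam, Complex.ofReal_one, div_one] at hq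
    obtain ⟨n, hn⟩ := Complex.exp_eq_exp_iff_exists_int.mp hq
    refine hab (g'⁻¹ * T ^ (-n) * g) ?_
    rw [mul_smul, mul_smul]
    rw [show T ^ (-n) • g • a = g' • b from ?_, inv_smul_smul]
    apply UpperHalfPlane.ext
    rw [coe_T_zpow_smul_eq]
    have h2 : (2 * π * Complex.I) * ((g • a : ℍ) : ℂ)
        = (2 * π * Complex.I) * (((g' • b : ℍ) : ℂ) + n) := by linear_combination hn
    have h3 := mul_left_cancel₀ Complex.two_pi_I_ne_zero h2
    push_cast
    linear_combination h3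

theorem jFun_eq_iff {a b : ℍ} : jFun a = jFun b ↔ ∃ γ : SL(2, ℤ), γ • a = b := by
  refine ⟨fun h => ?_, fun ⟨γ, hγ⟩ => hγ ▸ (jFun_smul γ a).symm⟩
  by_contra hab
  push Not at hab
  have hmem : jFun a ∈ doubleValues := ⟨a, b, rfl, h.symm, hab⟩
  have hsub : ∀ c ∈ doubleValues, c ∈ ({0, 1728} : Set ℂ) := by
    intro c hc
    by_contra hc'
    have hconn := ((Set.toFinite ({0, 1728} : Set ℂ)).countable.isConnected_compl_of_one_lt_rank
      (by rw [Complex.rank_real_complex]; exact Nat.one_lt_ofNat)).isPreconnected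
    obtain ⟨c₀, h0, h0'⟩ := exists_not_doubleValues
    exact h0' (hconn.subset_of_closure_inter_subset isOpen_doubleValues ⟨c, hc', hc⟩
      doubleValues_closed_rel h0)
  have hfin : doubleValues.Finite := (Set.toFinite ({0, 1728} : Set ℂ)).subset hsub
  have h1 := hfin.countable.dense_compl (𝕜 := ℂ)
  obtain ⟨x, hx, hx'⟩ := h1.exists_mem_open isOpen_doubleValues ⟨_, hmem⟩
  exact hx hx'

lemma ellU_smul_ρ : ((S * T : SL(2, ℤ)) • ρ) = ρ := by
  rw [mul_smul, modular_T_smul, modular_S_smul]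
  apply UpperHalfPlane.ext
  simp only [coe_vadd, Complex.ofReal_one]
  have hρ : ((ρ : ℂ)) ^ 2 = -(ρ : ℂ) - 1 := ρ_sq
  have hne : -((1 : ℂ) + ρ) ≠ 0 := by
    intro h
    have : (ρ : ℂ) = -1 := by linear_combination -h
    exact ne_intCast ρ (-1) (by simpa using this)
  exact inv_eq_of_mul_eq_one_right (by linear_combination -hρ)

lemma E6_I : E₆ UpperHalfPlane.I = 0 := by
  have h := levelOne_smul E₆ S UpperHalfPlane.I
  have hS : (S : SL(2, ℤ)) • UpperHalfPlane.I = UpperHalfPlane.I := by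
    rw [modular_S_smul]
    apply UpperHalfPlane.ext
    simp [Complex.inv_I]
  rw [hS, denom_S] at h
  have hI : (UpperHalfPlane.I : ℂ) ^ (6 : ℤ) = -1 := by
    rw [UpperHalfPlane.coe_I]
    rw [show (6 : ℤ) = ((6 : ℕ) : ℤ) from rfl, zpow_natCast]
    linear_combination (Complex.I ^ 4 - Complex.I ^ 2 + 1) * Complex.I_sq
  rw [hI] at h
  linear_combination h / 2

lemma E4_ρ : E₄ ρ = 0 := by
  have h := levelOne_smul E₄ (S * T) ρ
  rw [ellU_smul_ρ] at h
  have hd : denom (S * T : SL(2, ℤ)) ρ = (ρ : ℂ) + 1 := by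
    rw [ModularGroup.denom_apply]
    simp [Matrix.SpecialLinearGroup.coe_mul, coe_S, coe_T, Matrix.mul_apply, Fin.sum_univ_two]
  rw [hd] at h
  simp only [zpow_ofNat] at h
  have hρ : ((ρ : ℂ)) ^ 2 = -(ρ : ℂ) - 1 := ρ_sq
  have h1 : ((ρ : ℂ) + 2) * E₄ ρ = 0 := by
    linear_combination h + ((ρ : ℂ) ^ 2 + 3 * ρ + 2) * E₄ ρ * hρ
  refine (mul_eq_zero.mp h1).resolve_left fun e => ?_
  exact ne_intCast ρ (-2) (by simpa using eq_neg_of_add_eq_zero_left e)

theorem exists_smul_eq_of_E4_eq_zero {z : ℍ} (h : E₄ z = 0) : ∃ γ : SL(2, ℤ), γ • ρ = z :=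
  jFun_eq_iff.mp (by simp [jFun, h, E4_ρ])

theorem exists_smul_eq_of_E6_eq_zero {z : ℍ} (h : E₆ z = 0) :
    ∃ γ : SL(2, ℤ), γ • UpperHalfPlane.I = z := by
  refine jFun_eq_iff.mp ?_
  have key : ∀ w : ℍ, E₆ w = 0 → jFun w = 1728 := fun w hw => by
    have h' := E4_cube_sub_E6_sq w
    rw [hw] at h'
    rw [jFun, div_eq_iff (discriminant_ne_zero w)]
    linear_combination h'
  rw [key _ h, key _ E6_I]

end Fermat.Agent.Period
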