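import Fermat.Prelude.Def_ModularCurve_PeriodHomPair
import Mathlib.NumberTheory.ModularForms.QExpansion
import Mathlib.NumberTheory.ModularForms.Cusps
import Mathlib.Analysis.Complex.HasPrimitives
import Mathlib.Analysis.Complex.RemovableSingularity
import Mathlib.Analysis.Calculus.MeanValue
import Mathlib.NumberTheory.ModularForms.CongruenceSubgroups

/-!
# Primitives of weight two cusp forms on Γ₀(N)

Main results: `exists_hasEquivariantPrimitive`, `hasEquivariantPrimitive_unique`,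
`periodMap_apply`, `existsPeriodMapLinear`, `IsPrim.comp_smul`, `IsPrim.eq_add_const`.
-/

set_option autoImplicit false

noncomputable section

namespace Fermat.Agent.Period

open UpperHalfPlane CongruenceSubgroup Filter Topology ModularGroup
open scoped MatrixGroups ModularForm Real Manifold

/-- `G` is a primitive of `f` on the upper half plane. -/
def IsPrim (G : ℍ → ℂ) (f : ℍ → ℂ) : Prop :=
  ∀ τ : ℍ, HasDerivAt (G ∘ ofComplex) (f τ) ↑τ

lemma IsPrim.add {G H f g : ℍ → ℂ} (hG : IsPrim G f) (hH : IsPrim H g) :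
    IsPrim (G + H) (f + g) := fun τ => (hG τ).add (hH τ)

lemma IsPrim.sub {G H f g : ℍ → ℂ} (hG : IsPrim G f) (hH : IsPrim H g) :
    IsPrim (G - H) (f - g) := fun τ => (hG τ).sub (hH τ)

lemma IsPrim.const_mul {G f : ℍ → ℂ} (hG : IsPrim G f) (c : ℂ) :
    IsPrim (fun τ => c * G τ) (fun τ => c * f τ) := fun τ => (hG τ).const_mul c

lemma IsPrim.eq_add_const {G H f : ℍ → ℂ} (hG : IsPrim G f) (hH : IsPrim H f) :
    ∃ c : ℂ, ∀ τ : ℍ, G τ = H τ + c := by
  have h0 : ∀ z ∈ upperHalfPlaneSet,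
      HasDerivAt ((G - H) ∘ ofComplex) 0 z := by
    intro z hz
    have := (hG.sub hH) ⟨z, hz⟩
    simpa using this
  obtain ⟨a, ha⟩ := isOpen_upperHalfPlaneSet.exists_is_const_of_deriv_eq_zero
    (convex_halfSpace_im_gt 0).isPreconnected
    (fun z hz => (h0 z hz).differentiableAt.differentiableWithinAt)
    (fun z hz => (h0 z hz).deriv)
  refine ⟨a, fun τ => ?_⟩
  have := ha τ τ.im_pos
  simp only [Function.comp_apply, ofComplex_apply, Pi.sub_apply] at this
  linear_combination this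

lemma IsPrim.comp_smul {G f : ℍ → ℂ} (hG : IsPrim G f) (δ : SL(2, ℤ)) :
    IsPrim (fun τ => G (δ • τ)) (f ∣[(2 : ℤ)] δ) := by
  intro τ
  have hd : ((δ : GL (Fin 2) ℝ)).val.det = 1 := by
    rw [← Matrix.GeneralLinearGroup.val_det_apply]; simp
  have hg : 0 < ((δ : GL (Fin 2) ℝ)).val.det := by rw [hd]; exact one_pos
  have h1 := (hasStrictDerivAt_smul hg τ).hasDerivAt
  have h2 := hG (δ • τ)
  have hpt : ((δ • τ : ℍ) : ℂ) = ↑((δ : GL (Fin 2) ℝ) • ofComplex (τ : ℂ)) := by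
    rw [ofComplex_apply]; rfl
  rw [hpt] at h2
  have h3 := h2.comp (τ : ℂ) h1
  have heq : (G ∘ ofComplex) ∘ (fun z : ℂ => (↑((δ : GL (Fin 2) ℝ) • ofComplex z) : ℂ))
      = (fun τ => G (δ • τ)) ∘ ofComplex := by
    funext z
    simp only [Function.comp_apply, ofComplex_apply]
    rfl
  rw [heq] at h3
  refine h3.congr_deriv ?_
  rw [ModularForm.SL_slash_apply, hd]
  simp [zpow_neg, div_eq_mul_inv, zpow_ofNat]

lemma T_pow_conj_mem_Gamma0 (N : ℕ) (δ : SL(2, ℤ)) :
    δ * T ^ (N : ℤ) * δ⁻¹ ∈ Gamma0 N := by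
  have hT : T ^ (N : ℤ) ∈ Gamma N := by
    rw [Gamma_mem]
    rw [coe_T_zpow]
    simp
  exact (Gamma1_in_Gamma0 N) ((Gamma_normal N).conj_mem _ hT δ |> fun h => by
    rw [Gamma1_mem]
    rw [Gamma_mem] at h
    exact ⟨h.1, h.2.2.2, h.2.2.1⟩)

variable {N : ℕ}

lemma slash_Gamma0 {k : ℤ} {F : Type*} [FunLike F ℍ ℂ]
    [SlashInvariantFormClass F ((Gamma0 N : Subgroup SL(2, ℤ)) : Subgroup (GL (Fin 2) ℝ)) k]
    (f : F) {γ : SL(2, ℤ)} (hγ : γ ∈ Gamma0 N) : (f : ℍ → ℂ) ∣[k] γ = f := by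
  rw [ModularForm.SL_slash]
  exact SlashInvariantFormClass.slash_action_eq f _ (Subgroup.mem_map.mpr ⟨γ, hγ, rfl⟩)

/-- `T ^ n` acts as translation by `n` on slashes. -/
lemma slash_T_zpow_apply (f : ℍ → ℂ) (k n : ℤ) (τ : ℍ) :
    (f ∣[k] (T ^ n)) τ = f ((n : ℝ) +ᵥ τ) := by
  rw [ModularForm.SL_slash_apply, modular_T_zpow_smul, ModularGroup.denom_apply, coe_T_zpow]
  simp

lemma periodic_comp_ofComplex_of_slash_T {g : ℍ → ℂ} {k : ℤ} {n : ℤ}
    (h : g ∣[k] (T ^ n) = g) : Function.Periodic (g ∘ ofComplex) ((n : ℝ) : ℂ) := by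
  intro w
  by_cases hw : 0 < w.im
  · have hw' : 0 < (w + ((n : ℝ) : ℂ)).im := by simpa using hw
    simp only [Function.comp_apply, ofComplex_apply_of_im_pos hw',
      ofComplex_apply_of_im_pos hw]
    have := congrFun h ⟨w, hw⟩
    rw [slash_T_zpow_apply] at this
    rw [← this]
    congr 1
    ext
    simp [add_comm]
  · have hw' : (w + ((n : ℝ) : ℂ)).im ≤ 0 := by simpa using hw
    simp only [Function.comp_apply]
    rw [ofComplex_apply_eq_of_im_nonpos hw' (le_of_not_gt hw)]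

section CuspForms

variable [NeZero N] (f : CuspForm (Gamma0 N) 2)

omit [NeZero N] in
lemma slash_periodic (δ : SL(2, ℤ)) :
    Function.Periodic (((f : ℍ → ℂ) ∣[(2 : ℤ)] δ) ∘ ofComplex) ((N : ℝ) : ℂ) := by
  have h : ((f : ℍ → ℂ) ∣[(2 : ℤ)] δ) ∣[(2 : ℤ)] (T ^ (N : ℤ))
      = (f : ℍ → ℂ) ∣[(2 : ℤ)] δ := by
    rw [← SlashAction.slash_mul]
    have : δ * T ^ (N : ℤ) = (δ * T ^ (N : ℤ) * δ⁻¹) * δ := by group
    rw [this, SlashAction.slash_mul, slash_Gamma0 f (T_pow_conj_mem_Gamma0 N δ)]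
  simpa using periodic_comp_ofComplex_of_slash_T h

lemma exists_primitive_slash (δ : SL(2, ℤ)) :
    ∃ G : ℍ → ℂ, IsPrim G ((f : ℍ → ℂ) ∣[(2 : ℤ)] δ) ∧ Tendsto G atImInfty (𝓝 0) := by
  set g := (f : ℍ → ℂ) ∣[(2 : ℤ)] δ with hg
  have hN : (0 : ℝ) < N := by exact_mod_cast Nat.pos_of_ne_zero (NeZero.ne N)
  have hz : IsZeroAtImInfty g := CuspFormClass.zero_at_infty_slash f δ
  have hmd : MDifferentiable 𝓘(ℂ) 𝓘(ℂ) g := by
    rw [hg, ModularForm.SL_slash]
    exact (CuspFormClass.holo f).slash _ _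
  have hper := slash_periodic f δ
  have hdiff : DifferentiableOn ℂ (cuspFunction (N : ℝ) g) (Metric.ball 0 1) :=
    differentiableOn_cuspFunction_ball hN hper hmd hz.isBoundedAtImInfty
  have h0 : cuspFunction (N : ℝ) g 0 = 0 :=
    UpperHalfPlane.IsZeroAtImInfty.cuspFunction_apply_zero hz hN
  have hball : Metric.ball (0 : ℂ) 1 ∈ 𝓝 (0 : ℂ) := Metric.ball_mem_nhds 0 one_pos
  obtain ⟨H, hH0, hH⟩ := (((Complex.differentiableOn_dslope hball).mpr hdiff).isExactOn_ball
    ).with_val_at 0 0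
  refine ⟨fun τ => (N : ℂ) / (2 * π * Complex.I) * H (Function.Periodic.qParam (N : ℝ) τ),
    fun τ => ?_, ?_⟩
  · have hq : Function.Periodic.qParam (N : ℝ) τ ∈ Metric.ball (0 : ℂ) 1 := by
      rw [mem_ball_zero_iff]
      exact Function.Periodic.norm_qParam_lt_one hN τ.im_pos
    have hqd : HasDerivAt (Function.Periodic.qParam (N : ℝ))
        (Function.Periodic.qParam (N : ℝ) τ * (2 * π * Complex.I / ((N : ℝ) : ℂ))) (τ : ℂ) := by
      simpa only [id_eq, mul_one, Function.Periodic.qParam] using!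
        (((hasDerivAt_id (τ : ℂ)).const_mul (2 * π * Complex.I)).div_const ((N : ℝ) : ℂ)).cexp
    have hc := ((hH _ hq).comp (τ : ℂ) hqd).const_mul ((N : ℂ) / (2 * π * Complex.I))
    have hev : ((fun τ : ℍ => (N : ℂ) / (2 * π * Complex.I)
        * H (Function.Periodic.qParam (N : ℝ) τ)) ∘ ofComplex)
        =ᶠ[𝓝 (τ : ℂ)] fun z => (N : ℂ) / (2 * π * Complex.I)
        * H (Function.Periodic.qParam (N : ℝ) z) := by
      filter_upwards [isOpen_upperHalfPlaneSet.mem_nhds τ.im_pos] with z hz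
      simp [Function.comp_apply, ofComplex_apply_of_im_pos hz]
    refine (hc.congr_of_eventuallyEq hev).congr_deriv ?_
    have hgv : cuspFunction (N : ℝ) g (Function.Periodic.qParam (N : ℝ) τ) = g τ :=
      eq_cuspFunction τ hN.ne' hper
    have hq0 : Function.Periodic.qParam (N : ℝ) τ ≠ 0 := Function.Periodic.qParam_ne_zero _
    have hds : dslope (cuspFunction (N : ℝ) g) 0 (Function.Periodic.qParam (N : ℝ) τ)
        * Function.Periodic.qParam (N : ℝ) τ = g τ := by
      rw [dslope_of_ne _ hq0, slope_def_field, h0, hgv]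
      field_simp
      simp
    have hN' : (N : ℂ) ≠ 0 := Nat.cast_ne_zero.mpr (NeZero.ne N)
    rw [← hds]
    push_cast
    field_simp
  · have hHc : ContinuousAt H 0 := (hH 0 (Metric.mem_ball_self one_pos)).continuousAt
    have h1 : Tendsto (fun τ : ℍ => H (Function.Periodic.qParam (N : ℝ) τ)) atImInfty (𝓝 0) := by
      have := hHc.tendsto.comp (qParam_tendsto_atImInfty hN)
      rwa [hH0] at this
    simpa using h1.const_mul ((N : ℂ) / (2 * π * Complex.I))

theorem exists_hasEquivariantPrimitive :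
    ∃ F : ℍ → ℂ, ModularCurve.HasEquivariantPrimitive N f F := by
  obtain ⟨F, hF, hF0⟩ := exists_primitive_slash f 1
  rw [SlashAction.slash_one] at hF
  refine ⟨F, hF, hF0, fun γ => ?_, fun δ => ?_⟩
  · have h1 := hF.comp_smul (γ : SL(2, ℤ))
    rw [slash_Gamma0 f γ.2] at h1
    obtain ⟨c, hc⟩ := h1.eq_add_const hF
    exact ⟨c, fun z => by rw [hc z]; ring⟩
  · obtain ⟨G, hG, hG0⟩ := exists_primitive_slash f δ
    obtain ⟨c, hc⟩ := (hF.comp_smul δ).eq_add_const hG
    refine ⟨c, ?_⟩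
    have : (fun w : ℍ => F (δ • w)) = fun w => G w + c := funext hc
    rw [this]
    simpa using hG0.add_const c

omit [NeZero N] in
theorem hasEquivariantPrimitive_unique {F G : ℍ → ℂ}
    (hF : ModularCurve.HasEquivariantPrimitive N f F)
    (hG : ModularCurve.HasEquivariantPrimitive N f G) : F = G := by
  obtain ⟨c, hc⟩ := IsPrim.eq_add_const (f := (f : ℍ → ℂ)) hF.1 hG.1
  have h1 : Tendsto F atImInfty (𝓝 (0 + c)) := by
    have := hG.2.1.add_const c
    rw [← funext hc] at this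
    exact this
  have := tendsto_nhds_unique h1 hF.2.1
  funext τ
  rw [hc τ]
  linear_combination this

omit [NeZero N] in
theorem periodMap_eq {F : ℍ → ℂ} (hF : ModularCurve.HasEquivariantPrimitive N f F) :
    ModularCurve.periodMap N f = hF.2.2.1.periodHom := by
  obtain ⟨F₀, h₀, h⟩ := ModularCurve.periodMap_def N f hF
  obtain rfl := hasEquivariantPrimitive_unique f h₀ hF
  exact h

omit [NeZero N] in
theorem periodMap_apply {F : ℍ → ℂ} (hF : ModularCurve.HasEquivariantPrimitive N f F)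
    (γ : Gamma0 N) (z : ℍ) :
    ModularCurve.periodMap N f (Additive.ofMul γ) = F ((γ : SL(2, ℤ)) • z) - F z := by
  rw [periodMap_eq f hF]
  exact (hF.2.2.1.sub_eq_period γ z).symm

omit [NeZero N] in
theorem hasEquivariantPrimitive_add {f g : CuspForm (Gamma0 N) 2} {F G : ℍ → ℂ}
    (hF : ModularCurve.HasEquivariantPrimitive N f F)
    (hG : ModularCurve.HasEquivariantPrimitive N g G) :
    ModularCurve.HasEquivariantPrimitive N (f + g) (F + G) := by
  refine ⟨fun τ => ?_, by simpa [← Pi.add_def] using hF.2.1.add hG.2.1, fun γ => ?_, fun δ => ?_⟩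
  · exact (hF.1 τ).add (hG.1 τ)
  · obtain ⟨c, hc⟩ := hF.2.2.1 γ
    obtain ⟨d, hd⟩ := hG.2.2.1 γ
    exact ⟨c + d, fun z => by simp only [Pi.add_apply, ← hc z, ← hd z]; ring⟩
  · obtain ⟨L, hL⟩ := hF.2.2.2 δ
    obtain ⟨M, hM⟩ := hG.2.2.2 δ
    exact ⟨L + M, hL.add hM⟩

omit [NeZero N] in
theorem hasEquivariantPrimitive_smul {f : CuspForm (Gamma0 N) 2} {F : ℍ → ℂ} (c : ℂ)
    (hF : ModularCurve.HasEquivariantPrimitive N f F) :
    ModularCurve.HasEquivariantPrimitive N (c • f) (fun z => c * F z) := by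
  refine ⟨fun τ => ?_, by simpa using hF.2.1.const_mul c, fun γ => ?_, fun δ => ?_⟩
  · exact (hF.1 τ).const_mul c
  · obtain ⟨d, hd⟩ := hF.2.2.1 γ
    exact ⟨c * d, fun z => by rw [← hd z]; ring⟩
  · obtain ⟨L, hL⟩ := hF.2.2.2 δ
    exact ⟨c * L, hL.const_mul c⟩

theorem existsPeriodMapLinear (N : ℕ) [NeZero N] : ModularCurve.ExistsPeriodMapLinear N := by
  refine ⟨{ toFun := ModularCurve.periodMap N, map_add' := ?_, map_smul' := ?_ },
    fun f => rfl⟩
  · intro f g
    obtain ⟨F, hF⟩ := exists_hasEquivariantPrimitive f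
    obtain ⟨G, hG⟩ := exists_hasEquivariantPrimitive g
    refine AddMonoidHom.ext fun x => ?_
    obtain ⟨γ, rfl⟩ := Additive.ofMul.surjective x
    rw [AddMonoidHom.add_apply, periodMap_apply _ hF γ I, periodMap_apply _ hG γ I,
      periodMap_apply _ (hasEquivariantPrimitive_add hF hG) γ I]
    simp only [Pi.add_apply]
    ring
  · intro c f
    obtain ⟨F, hF⟩ := exists_hasEquivariantPrimitive f
    refine AddMonoidHom.ext fun x => ?_
    obtain ⟨γ, rfl⟩ := Additive.ofMul.surjective x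
    rw [RingHom.id_apply, AddMonoidHom.smul_apply, periodMap_apply _ hF γ I,
      periodMap_apply _ (hasEquivariantPrimitive_smul c hF) γ I, smul_eq_mul]
    ring

end CuspForms

end Fermat.Agent.Period
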