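import Fermat.Agent.Period.Primitive
import Mathlib.NumberTheory.Modular
import Mathlib.Analysis.Complex.AbsMax
import Mathlib.Analysis.SpecialFunctions.Complex.Analytic

/-!
# Periods: parabolic elements, maximum principle, injectivity of the period pair

Main results: `periodHom_isParabolic`, `periodHomPair_injective`,
`range_periodHomPair_le`, `eq_const_of_re_invariant`.
-/

set_option autoImplicit false

noncomputable section

namespace Fermat.Agent.Period

open UpperHalfPlane CongruenceSubgroup Filter Topology ModularGroup ModularCurve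
open scoped MatrixGroups ModularForm Real Manifold ComplexConjugate Modular

/-- An element of `SL(2,ℤ)` with `trace ^ 2 = 4` is conjugate to an upper triangular one. -/
lemma exists_conj_upper_of_trace_sq (γ : SL(2, ℤ))
    (h : (γ : Matrix (Fin 2) (Fin 2) ℤ).trace ^ 2 = 4) :
    ∃ δ : SL(2, ℤ), (δ⁻¹ * γ * δ) 1 0 = 0 := by
  by_cases hc : γ 1 0 = 0
  · exact ⟨1, by simpa using hc⟩
  · have hdet : γ 0 0 * γ 1 1 - γ 0 1 * γ 1 0 = 1 := by
      rw [← Matrix.det_fin_two (γ : Matrix (Fin 2) (Fin 2) ℤ)]; exact γ.det_coe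
    rw [Matrix.trace_fin_two] at h
    obtain ⟨g, p, q, hg, hco, hp, hq⟩ := Int.exists_gcd_one'
      (m := γ 0 0 - γ 1 1) (n := 2 * γ 1 0)
      (Int.gcd_pos_of_ne_zero_right _ (mul_ne_zero two_ne_zero hc))
    obtain ⟨δ, h0, h1⟩ : ∃ δ : SL(2, ℤ), δ 0 0 = p ∧ δ 1 0 = q := by
      obtain ⟨u, v, huv⟩ := (Int.isCoprime_iff_gcd_eq_one.mpr hco : IsCoprime p q)
      refine ⟨⟨!![p, -v; q, u], by rw [Matrix.det_fin_two_of]; linarith⟩, rfl, rfl⟩
    refine ⟨δ, ?_⟩
    have key : q * (γ 0 0 * p + γ 0 1 * q) - p * (γ 1 0 * p + γ 1 1 * q) = 0 := by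
      have hgz : (g : ℤ) ≠ 0 := by exact_mod_cast hg.ne'
      have hsq : ((g : ℤ) ^ 2) ≠ 0 := pow_ne_zero _ hgz
      refine mul_left_cancel₀ hsq ?_
      rw [mul_zero]
      have e1 : (g : ℤ) ^ 2 * (q * (γ 0 0 * p + γ 0 1 * q) - p * (γ 1 0 * p + γ 1 1 * q))
          = (q * g) * (γ 0 0 * (p * g) + γ 0 1 * (q * g))
            - (p * g) * (γ 1 0 * (p * g) + γ 1 1 * (q * g)) := by ring
      rw [e1, ← hp, ← hq]
      linear_combination (γ 1 0) * h - 4 * (γ 1 0) * hdet
    simp [Matrix.SpecialLinearGroup.coe_inv, Matrix.adjugate_fin_two, Matrix.mul_apply,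
      Fin.sum_univ_two, Matrix.vecMul, dotProduct, h0, h1]
    linarith [key]

lemma im_smul_of_upper {g : SL(2, ℤ)} (hg : g 1 0 = 0) (w : ℍ) : (g • w).im = w.im := by
  rw [ModularGroup.im_smul_eq_div_normSq, ModularGroup.denom_apply, hg]
  have hdet : g 0 0 * g 1 1 - g 0 1 * g 1 0 = 1 := by
    rw [← Matrix.det_fin_two (g : Matrix (Fin 2) (Fin 2) ℤ)]; exact g.det_coe
  rw [hg, mul_zero, sub_zero] at hdet
  have hu : g 1 1 = 1 ∨ g 1 1 = -1 := by
    rcases Int.eq_one_or_neg_one_of_mul_eq_one (by rw [mul_comm]; exact hdet) with h | h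
    · exact Or.inl h
    · exact Or.inr h
  rcases hu with h | h <;> simp [h]

lemma tendsto_smul_atImInfty_of_upper {g : SL(2, ℤ)} (hg : g 1 0 = 0) :
    Tendsto (fun w : ℍ => g • w) atImInfty atImInfty := by
  rw [atImInfty, tendsto_comap_iff]
  have : UpperHalfPlane.im ∘ (fun w : ℍ => g • w) = UpperHalfPlane.im :=
    funext fun w => im_smul_of_upper hg w
  rw [this]
  exact tendsto_comap

lemma im_J_smul (w : ℍ) : (J • w).im = w.im := by
  rw [← UpperHalfPlane.coe_im, coe_J_smul]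
  simp

lemma tendsto_J_smul_atImInfty : Tendsto (fun w : ℍ => J • w) atImInfty atImInfty := by
  rw [atImInfty, tendsto_comap_iff]
  have : UpperHalfPlane.im ∘ (fun w : ℍ => J • w) = UpperHalfPlane.im :=
    funext fun w => im_J_smul w
  rw [this]
  exact tendsto_comap

/-- Conjugation by `J` realises `jConjSL`. -/
lemma J_smul_smul (γ : SL(2, ℤ)) (z : ℍ) :
    J • (γ • z) = Period.jConjSL γ • (J • z) := by
  rw [ModularGroup.sl_moeb, ModularGroup.sl_moeb, ← mul_smul, ← mul_smul]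
  congr 1
  apply Units.ext
  ext i j
  fin_cases i <;> fin_cases j <;> simp [Matrix.mul_apply, Fin.sum_univ_two]

lemma IsPrim.mdifferentiable {G f : ℍ → ℂ} (hG : IsPrim G f) :
    MDifferentiable 𝓘(ℂ) 𝓘(ℂ) G := by
  rw [mdifferentiable_iff]
  intro z hz
  exact (hG ⟨z, hz⟩).differentiableAt.differentiableWithinAt

lemma IsPrim.eq_zero_of_const {G f : ℍ → ℂ} (hG : IsPrim G f)
    (h : ∀ z w : ℍ, G z = G w) : f = 0 := by
  funext τ
  have h1 : HasDerivAt (G ∘ ofComplex) (0 : ℂ) (τ : ℂ) := by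
    have : (G ∘ ofComplex) = fun _ : ℂ => G τ := funext fun z => h _ _
    rw [this]
    exact hasDerivAt_const _ _
  exact (hG τ).unique h1

/-- Real part maximum principle. -/
lemma eq_const_of_re_le {φ : ℂ → ℂ} {U : Set ℂ} (ho : IsOpen U) (hp : IsPreconnected U)
    (hd : DifferentiableOn ℂ φ U) {c : ℂ} (hc : c ∈ U)
    (h : ∀ z ∈ U, (φ z).re ≤ (φ c).re) : ∀ z ∈ U, φ z = φ c := by
  have hm : IsMaxOn (norm ∘ fun z => Complex.exp (φ z)) U c := by
    intro z hz
    simp only [Set.mem_ofPred_eq, Function.comp_apply, Complex.norm_exp]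
    exact Real.exp_le_exp.mpr (h z hz)
  have he := Complex.eqOn_of_isPreconnected_of_isMaxOn_norm hp ho hd.cexp hc hm
  intro z hz
  refine ho.is_const_of_deriv_eq_zero hp hd (fun x hx => ?_) hz hc
  have h1 : HasDerivAt (fun z => Complex.exp (φ z)) (Complex.exp (φ x) * deriv φ x) x :=
    ((hd x hx).differentiableAt (ho.mem_nhds hx)).hasDerivAt.cexp
  have h2 : HasDerivAt (fun z => Complex.exp (φ z)) 0 x := by
    refine (hasDerivAt_const x (Complex.exp (φ c))).congr_of_eventuallyEq ?_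
    filter_upwards [ho.mem_nhds hx] with y hy
    exact he hy
  simpa [Complex.exp_ne_zero] using h1.unique h2

variable {N : ℕ}

lemma equivariant_periodic_of_upper {Φ : ℍ → ℂ}
    (hΦ : Period.IsEquivariantPrimitive (Gamma0 N) Φ) (γ : Gamma0 N) (δ : SL(2, ℤ))
    (hγ : (δ⁻¹ * (γ : SL(2, ℤ)) * δ) 1 0 = 0)
    (hlim : ∃ L : ℂ, Tendsto (fun w : ℍ => Φ (δ • w)) atImInfty (𝓝 L)) :
    hΦ.period γ = 0 := by
  obtain ⟨L, hL⟩ := hlim
  have h1 : Tendsto (fun w : ℍ => Φ (δ • ((δ⁻¹ * (γ : SL(2, ℤ)) * δ) • w)) - Φ (δ • w))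
      atImInfty (𝓝 (L - L)) :=
    (hL.comp (tendsto_smul_atImInfty_of_upper hγ)).sub hL
  have h2 : ∀ w : ℍ, Φ (δ • ((δ⁻¹ * (γ : SL(2, ℤ)) * δ) • w)) - Φ (δ • w) = hΦ.period γ := by
    intro w
    rw [← hΦ.sub_eq_period γ (δ • w), ← mul_smul, ← mul_smul]
    congr 3
    group
  rw [sub_self, funext h2] at h1
  exact tendsto_nhds_unique tendsto_const_nhds h1

lemma periodHom_isParabolic {F : ℍ → ℂ} {f : CuspForm (Gamma0 N) 2}
    (hF : HasEquivariantPrimitive N f F) :
    Period.IsParabolicHom (Gamma0 N) hF.2.2.1.periodHom := by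
  intro γ hγ
  obtain ⟨δ, hδ⟩ := exists_conj_upper_of_trace_sq (γ : SL(2, ℤ)) hγ
  rw [Period.IsEquivariantPrimitive.periodHom_apply]
  exact equivariant_periodic_of_upper hF.2.2.1 γ δ hδ (hF.2.2.2 δ)

variable [NeZero N]

/-- A holomorphic function on `ℍ` whose real part is `Γ₀(N)`-invariant and which has limits at
all cusps is constant. -/
theorem eq_const_of_re_invariant {Φ : ℍ → ℂ} (hd : MDifferentiable 𝓘(ℂ) 𝓘(ℂ) Φ)
    (hΦ : Period.IsEquivariantPrimitive (Gamma0 N) Φ)
    (hre : ∀ γ : Gamma0 N, ∀ z : ℍ, (Φ ((γ : SL(2, ℤ)) • z)).re = (Φ z).re)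
    (hlim : ∀ δ : SL(2, ℤ), ∃ L : ℂ, Tendsto (fun w : ℍ => Φ (δ • w)) atImInfty (𝓝 L)) :
    ∀ z w : ℍ, Φ z = Φ w := by
  classical
  -- finitely many cusps representatives
  let δ : SL(2, ℤ) ⧸ Gamma0 N → SL(2, ℤ) := fun q => q.out⁻¹
  have : Fintype (SL(2, ℤ) ⧸ Gamma0 N) := Fintype.ofFinite _
  have hred : ∀ z : ℍ, ∃ q, ∃ w ∈ 𝒟, (Φ z).re = (Φ (δ q • w)).re := by
    intro z
    obtain ⟨g, hg⟩ := exists_smul_mem_fd z
    obtain ⟨γ, hγ⟩ := QuotientGroup.mk_out_eq_mul (Gamma0 N) g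
    refine ⟨(g : SL(2, ℤ) ⧸ Gamma0 N), g • z, hg, ?_⟩
    have : δ (g : SL(2, ℤ) ⧸ Gamma0 N) • g • z
        = (((γ⁻¹ : Gamma0 N)) : SL(2, ℤ)) • z := by
      simp only [δ, hγ, ← mul_smul, Subgroup.coe_inv]
      congr 1
      group
    rw [this, hre]
  choose L hL using hlim
  obtain ⟨q₀, -, hq₀⟩ := Finset.exists_max_image (Finset.univ : Finset (SL(2, ℤ) ⧸ Gamma0 N))
    (fun q => (L (δ q)).re) ⟨((1 : SL(2, ℤ)) : SL(2, ℤ) ⧸ Gamma0 N), Finset.mem_univ _⟩
  set M := (L (δ q₀)).re with hM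
  have hcont : Continuous Φ := hd.continuous
  have hdiff : DifferentiableOn ℂ (Φ ∘ ofComplex) upperHalfPlaneSet := mdifferentiable_iff.mp hd
  have hconst : ∀ {z₀ : ℍ}, (∀ z, (Φ z).re ≤ (Φ z₀).re) → ∀ z w : ℍ, Φ z = Φ w := by
    intro z₀ hz₀ z w
    have h := eq_const_of_re_le isOpen_upperHalfPlaneSet (convex_halfSpace_im_gt 0).isPreconnected
      hdiff z₀.im_pos (fun x _ => by simpa using hz₀ (ofComplex x))
    have h1 := h z z.im_pos
    have h2 := h w w.im_pos
    simp only [Function.comp_apply, ofComplex_apply] at h1 h2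
    rw [h1, h2]
  by_cases hex : ∃ z, M < (Φ z).re
  · obtain ⟨z₁, hz₁⟩ := hex
    have hev : ∀ q, ∃ Y : ℝ, ∀ w : ℍ, Y ≤ w.im → (Φ (δ q • w)).re < (Φ z₁).re := by
      intro q
      have h1 : Tendsto (fun w : ℍ => (Φ (δ q • w)).re) atImInfty (𝓝 (L (δ q)).re) :=
        (Complex.continuous_re.tendsto _).comp (hL (δ q))
      have h2 : (L (δ q)).re < (Φ z₁).re :=
        lt_of_le_of_lt (hq₀ q (Finset.mem_univ q)) hz₁
      obtain ⟨Y, hY⟩ := atImInfty_mem _ |>.mp (h1.eventually_lt_const h2)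
      exact ⟨Y, hY⟩
    choose Y hY using hev
    obtain ⟨Y₀, hY₀⟩ := (Finset.univ.image Y).bddAbove
    let K : Set ℍ := ⋃ q, (fun w => δ q • w) '' truncatedFundamentalDomain Y₀
    have hK : IsCompact K := isCompact_iUnion fun q =>
      (isCompact_truncatedFundamentalDomain Y₀).image
        (mdifferentiable_smul (g := (δ q : GL (Fin 2) ℝ)) (by simp)).continuous
    have hout : ∀ z, (Φ z₁).re ≤ (Φ z).re → ∃ x ∈ K, (Φ z).re = (Φ x).re := by
      intro z hz
      obtain ⟨q, w, hw, hzw⟩ := hred z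
      refine ⟨δ q • w, Set.mem_iUnion.mpr ⟨q, w, ⟨hw, ?_⟩, rfl⟩, hzw⟩
      by_contra hlt
      have := hY q w ((hY₀ (by simp)).trans (le_of_lt (not_le.mp hlt)))
      linarith
    obtain ⟨x₁, hx₁, hx₁'⟩ := hout z₁ le_rfl
    obtain ⟨x₀, -, hx₀⟩ := hK.exists_isMaxOn ⟨x₁, hx₁⟩
      (Complex.continuous_re.comp hcont).continuousOn
    refine hconst (z₀ := x₀) fun z => ?_
    rcases le_total (Φ z₁).re (Φ z).re with h | h
    · obtain ⟨x, hx, hxe⟩ := hout z h
      exact hxe.le.trans (hx₀ hx)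
    · exact h.trans (hx₁'.le.trans (hx₀ hx₁))
  · push Not at hex
    set g : ℍ → ℂ := fun w => Φ (δ q₀ • w) with hg
    have hN : (0 : ℝ) < N := by exact_mod_cast Nat.pos_of_ne_zero (NeZero.ne N)
    have hgd : MDifferentiable 𝓘(ℂ) 𝓘(ℂ) g :=
      hd.comp (mdifferentiable_smul (g := (δ q₀ : GL (Fin 2) ℝ)) (by simp))
    have hsl : g ∣[(0 : ℤ)] (T ^ (N : ℤ)) = g := by
      funext w
      rw [ModularForm.SL_slash_apply]
      have hmem := T_pow_conj_mem_Gamma0 N (δ q₀)
      have hup : ((δ q₀)⁻¹ * (δ q₀ * T ^ (N : ℤ) * (δ q₀)⁻¹) * δ q₀) 1 0 = 0 := by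
        rw [show (δ q₀)⁻¹ * (δ q₀ * T ^ (N : ℤ) * (δ q₀)⁻¹) * δ q₀ = T ^ (N : ℤ) by group,
          coe_T_zpow]
        simp
      have h0 := equivariant_periodic_of_upper hΦ ⟨_, hmem⟩ (δ q₀) hup ⟨_, hL _⟩
      have h1 := hΦ.sub_eq_period ⟨_, hmem⟩ (δ q₀ • w)
      rw [h0, sub_eq_zero] at h1
      simp only [hg, neg_zero, zpow_zero, mul_one, ← mul_smul]
      rw [← h1, ← mul_smul]
      congr 2
      group
    have hper : Function.Periodic (g ∘ ofComplex) ((N : ℝ) : ℂ) := by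
      simpa using periodic_comp_ofComplex_of_slash_T hsl
    have hbd : IsBoundedAtImInfty g := (hL (δ q₀)).isBigO_one ℝ
    have hdc := differentiableOn_cuspFunction_ball hN hper hgd hbd
    have han := analyticAt_cuspFunction_zero hN hper hgd hbd
    have h0 : cuspFunction (N : ℝ) g 0 = L (δ q₀) := by
      rw [UpperHalfPlane.cuspFunction_apply_zero hN han hper]
      exact (hL (δ q₀)).limUnder_eq
    have hcc : ∀ z ∈ Metric.ball (0 : ℂ) 1,
        cuspFunction (N : ℝ) g z = cuspFunction (N : ℝ) g 0 := by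
      refine eq_const_of_re_le Metric.isOpen_ball (convex_ball _ _).isPreconnected hdc
        (Metric.mem_ball_self one_pos) fun q hq => ?_
      rcases eq_or_ne q 0 with rfl | hq0
      · exact le_rfl
      · rw [h0, cuspFunction, Function.Periodic.cuspFunction_eq_of_nonzero _ _ hq0]
        exact hex _
    intro z w
    have hg0 : ∀ x : ℍ, g x = cuspFunction (N : ℝ) g 0 := fun x => by
      rw [← eq_cuspFunction x hN.ne' hper]
      exact hcc _ (mem_ball_zero_iff.mpr (Function.Periodic.norm_qParam_lt_one hN x.im_pos))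
    have h2 := (hg0 ((δ q₀)⁻¹ • z)).trans (hg0 ((δ q₀)⁻¹ • w)).symm
    simpa [hg] using h2

lemma periodHomPair_apply (f g : CuspForm (Gamma0 N) 2) (γ : Gamma0 N) :
    periodHomPair N (f, g) (Additive.ofMul γ)
      = periodMap N f (Additive.ofMul γ)
        + periodMap N f (Additive.ofMul (Period.jConjGamma0 N γ))
        + (periodMap N g (Additive.ofMul γ)
        - periodMap N g (Additive.ofMul (Period.jConjGamma0 N γ))) := by
  obtain ⟨pml, hpml, h⟩ := periodHomPair_def N (existsPeriodMapLinear N)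
  simp [h, hpml, Period.charInvolution]

theorem periodHomPair_injective : Function.Injective (periodHomPair N) := by
  rw [← LinearMap.ker_eq_bot, LinearMap.ker_eq_bot']
  rintro ⟨f, g⟩ h0
  obtain ⟨F, hF⟩ := exists_hasEquivariantPrimitive f
  obtain ⟨G, hG⟩ := exists_hasEquivariantPrimitive g
  set U : ℍ → ℂ := F + G with hU
  set V : ℍ → ℂ := F - G with hV
  have hpU : IsPrim U (f + g : ℍ → ℂ) := IsPrim.add hF.1 hG.1
  have hpV : IsPrim V (f - g : ℍ → ℂ) := IsPrim.sub hF.1 hG.1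
  have hH : ∀ (γ : Gamma0 N) (z : ℍ),
      U ((γ : SL(2, ℤ)) • z) + V (J • ((γ : SL(2, ℤ)) • z)) = U z + V (J • z) := by
    intro γ z
    have h := congrArg (fun φ : Additive (Gamma0 N) →+ ℂ => φ (Additive.ofMul γ)) h0
    simp only [periodHomPair_apply, AddMonoidHom.zero_apply] at h
    rw [periodMap_apply f hF γ z, periodMap_apply g hG γ z,
      periodMap_apply f hF _ (J • z), periodMap_apply g hG _ (J • z),
      Period.jConjGamma0_coe, ← J_smul_smul] at h
    simp only [hU, hV, Pi.add_apply, Pi.sub_apply]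
    linear_combination h
  have hW : MDifferentiable 𝓘(ℂ) 𝓘(ℂ) (fun z : ℍ => conj (V (J • z))) := by
    have hfun : V ∣[(0 : ℤ)] J = fun z : ℍ => conj (V (J • z)) := by
      funext z
      simp [ModularForm.slash_apply]
    rw [← hfun]
    exact hpV.mdifferentiable.slash _ _
  have key : ∀ c : ℂ, ∀ z w : ℍ,
      c * U z + conj c * conj (V (J • z)) = c * U w + conj c * conj (V (J • w)) := by
    intro c
    refine eq_const_of_re_invariant (N := N)
      (Φ := fun z => c * U z + conj c * conj (V (J • z))) ?_ ?_ ?_ ?_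
    · exact (mdifferentiable_const.mul hpU.mdifferentiable).add (mdifferentiable_const.mul hW)
    · intro γ
      obtain ⟨a, ha⟩ := hF.2.2.1 γ
      obtain ⟨b, hb⟩ := hG.2.2.1 γ
      obtain ⟨a', ha'⟩ := hF.2.2.1 (Period.jConjGamma0 N γ)
      obtain ⟨b', hb'⟩ := hG.2.2.1 (Period.jConjGamma0 N γ)
      refine ⟨c * (a + b) + conj c * conj (a' - b'), fun z => ?_⟩
      dsimp only
      rw [J_smul_smul, ← ha z, ← hb z, ← ha' (J • z), ← hb' (J • z),
        Period.jConjGamma0_coe]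
      simp only [hU, hV, Pi.add_apply, Pi.sub_apply, map_sub]
      ring
    · intro γ z
      have h := congrArg (fun x : ℂ => (c * x).re) (hH γ z)
      simp only [mul_add, Complex.add_re] at h
      simp only [Complex.add_re, ← map_mul, Complex.conj_re]
      exact h
    · intro δ
      obtain ⟨a, ha⟩ := hF.2.2.2 δ
      obtain ⟨b, hb⟩ := hG.2.2.2 δ
      obtain ⟨a', ha'⟩ := hF.2.2.2 (Period.jConjSL δ)
      obtain ⟨b', hb'⟩ := hG.2.2.2 (Period.jConjSL δ)
      refine ⟨c * (a + b) + conj c * conj (a' - b'), ?_⟩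
      have h2 : Tendsto (fun w : ℍ => V (J • (δ • w))) atImInfty (𝓝 (a' - b')) := by
        have := (ha'.sub hb').comp tendsto_J_smul_atImInfty
        simpa only [Function.comp_def, J_smul_smul, hV, Pi.sub_apply] using this
      exact ((ha.add hb).const_mul c).add
        (((Complex.continuous_conj.tendsto _).comp h2).const_mul (conj c))
  have hUc : ∀ z w, U z = U w := fun z w => by
    have h1 := key 1 z w
    have h2 := key Complex.I z w
    simp only [map_one, one_mul, Complex.conj_I] at h1 h2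
    have h3 : Complex.I * (2 * U z) = Complex.I * (2 * U w) := by
      linear_combination Complex.I * h1 + h2
    simpa using mul_left_cancel₀ Complex.I_ne_zero h3
  have hVc : ∀ z w, V z = V w := fun z w => by
    have h1 := key 1 (J • z) (J • w)
    have hJJ : ∀ x : ℍ, J • J • x = x := fun x => by
      rw [← mul_smul, ← sq, J_sq, one_smul]
    simp only [map_one, one_mul, hJJ, hUc (J • z) (J • w), add_right_inj] at h1
    exact star_injective h1
  have e1 := hpU.eq_zero_of_const hUc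
  have e2 := hpV.eq_zero_of_const hVc
  refine Prod.ext ?_ ?_ <;> refine DFunLike.ext _ _ fun τ => ?_
  · have u1 := congrFun e1 τ
    have u2 := congrFun e2 τ
    simp only [Pi.add_apply, Pi.sub_apply, Pi.zero_apply] at u1 u2
    show f τ = 0
    linear_combination (u1 + u2) / 2
  · have u1 := congrFun e1 τ
    have u2 := congrFun e2 τ
    simp only [Pi.add_apply, Pi.sub_apply, Pi.zero_apply] at u1 u2
    show g τ = 0
    linear_combination (u1 - u2) / 2

theorem range_periodHomPair_le :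
    LinearMap.range (periodHomPair N) ≤ Period.parabolicHoms ℂ (Gamma0 N) ℂ := by
  obtain ⟨pml, hpml, h⟩ := periodHomPair_def N (existsPeriodMapLinear N)
  have hP : ∀ f, pml f ∈ Period.parabolicHoms ℂ (Gamma0 N) ℂ := fun f => by
    obtain ⟨F, hF⟩ := exists_hasEquivariantPrimitive f
    rw [hpml, periodMap_eq f hF]
    exact periodHom_isParabolic hF
  rintro _ ⟨⟨f, g⟩, rfl⟩
  rw [h, LinearMap.coprod_apply]
  refine Submodule.add_mem _ ?_ ?_
  · exact Submodule.add_mem _ (hP f) (Period.charInvolution_mem_parabolicHoms N ℂ ℂ (hP f))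
  · exact Submodule.sub_mem _ (hP g) (Period.charInvolution_mem_parabolicHoms N ℂ ℂ (hP g))

end Fermat.Agent.Period
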