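import Fermat.Agent.Period.Coset
import Fermat.Prelude.Def_ModularCurve_PeriodMap
import Mathlib.LinearAlgebra.Trace
import Mathlib.LinearAlgebra.StdBasis
import Mathlib.LinearAlgebra.FiniteDimensional.Lemmas
import Mathlib.LinearAlgebra.Dual.Lemmas
import Mathlib.Analysis.Complex.Basic

/-!
# The dimension of parabolic homomorphisms on Γ₀(N)

Shapiro cocycles on `SL(2,ℤ)/Γ₀(N)`: `parabolicHoms_finiteDimensional`, `parabolicHoms_finrank_le`.
-/

set_option autoImplicit false

noncomputable section

namespace Fermat.Agent.Period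

open CongruenceSubgroup ModularGroup ModularCurve.Period
open scoped MatrixGroups

variable (N : ℕ)

local notation "Fn" => (Coset N → ℂ)

/-- Precomposition with the action of `g`. -/
def pre (g : SL(2, ℤ)) : Fn →ₗ[ℂ] Fn :=
  LinearMap.funLeft ℂ ℂ (fun q : Coset N => g • q)

variable {N}

@[simp] lemma pre_apply (g : SL(2, ℤ)) (f : Coset N → ℂ) (q : Coset N) :
    pre N g f q = f (g • q) := rfl

lemma trace_pre [NeZero N] (g : SL(2, ℤ)) :
    LinearMap.trace ℂ (Coset N → ℂ) (pre N g) = (fixCard N g : ℂ) := by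
  classical
  have : Fintype (Coset N) := Fintype.ofFinite _
  rw [LinearMap.trace_eq_matrix_trace ℂ (Pi.basisFun ℂ (Coset N)), Matrix.trace]
  simp only [Matrix.diag_apply, LinearMap.toMatrix_apply, Pi.basisFun_apply, Pi.basisFun_repr,
    pre_apply, Pi.single_apply]
  rw [Finset.sum_boole, fixCard, Nat.card_eq_fintype_card, Fintype.card_subtype]

variable (N)

/-- Functions anti-invariant under `S`. -/
def antiS : Submodule ℂ Fn := LinearMap.ker (LinearMap.id + pre N S)

/-- Functions whose sum over each `ellU` triangle vanishes. -/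
def triU : Submodule ℂ Fn :=
  LinearMap.ker (LinearMap.id + pre N ellU + pre N ellU ∘ₗ pre N ellU)

/-- Functions invariant under `T`. -/
def invT : Submodule ℂ Fn := LinearMap.ker (pre N T - LinearMap.id)

variable {N}

lemma mem_antiS {a : Coset N → ℂ} : a ∈ antiS N ↔ ∀ q, a q + a (S • q) = 0 := by
  simp [antiS, funext_iff]

lemma mem_triU {b : Coset N → ℂ} :
    b ∈ triU N ↔ ∀ q, b q + b (ellU • q) + b (ellU • ellU • q) = 0 := by
  simp [triU, funext_iff]

lemma mem_invT {l : Coset N → ℂ} : l ∈ invT N ↔ ∀ q, l (T • q) = l q := by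
  simp [invT, funext_iff, sub_eq_zero]

lemma fixCard_ellU_sq : fixCard N (ellU * ellU) = fixCard N ellU := by
  refine Nat.card_congr (Equiv.subtypeEquivRight fun q => ?_)
  constructor
  · intro h
    have h3 := ellU_smul_cube q
    rw [← mul_smul ellU ellU q, h] at h3
    exact h3
  · intro h
    rw [mul_smul, h, h]

lemma fixCard_one : fixCard N (1 : SL(2, ℤ)) = Nat.card (Coset N) :=
  Nat.card_congr ((Equiv.subtypeUnivEquiv fun q => one_smul _ q))

section Dim

variable [NeZero N]

lemma finrank_antiS :
    2 * Module.finrank ℂ (antiS N) + fixCard N S = Nat.card (Coset N) := by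
  have hP : LinearMap.IsProj (antiS N) ((2⁻¹ : ℂ) • (LinearMap.id - pre N S)) := by
    constructor
    · intro x
      rw [mem_antiS]
      intro q
      simp [S_smul_S]
      ring
    · intro x hx
      rw [mem_antiS] at hx
      funext q
      have := hx q
      simp
      linear_combination (-(2 : ℂ)⁻¹) * this
  have : Fintype (Coset N) := Fintype.ofFinite _
  have h := hP.trace
  rw [map_smul, map_sub, trace_pre, LinearMap.trace_id, Module.finrank_fintype_fun_eq_card,
    smul_eq_mul] at h
  rw [Nat.card_eq_fintype_card]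
  have h2 : (2 : ℂ) * (Module.finrank ℂ (antiS N) : ℂ) + (fixCard N S : ℂ)
      = (Fintype.card (Coset N) : ℂ) := by
    rw [← h]; ring
  exact_mod_cast h2

omit [NeZero N] in
lemma pre_comp (g h : SL(2, ℤ)) : pre N g ∘ₗ pre N h = pre N (h * g) := by
  ext f q
  simp [mul_smul]

lemma finrank_triU :
    3 * Module.finrank ℂ (triU N) + 2 * fixCard N ellU = 2 * Nat.card (Coset N) := by
  have hP : LinearMap.IsProj (triU N) (LinearMap.id -
      (3⁻¹ : ℂ) • (LinearMap.id + pre N ellU + pre N ellU ∘ₗ pre N ellU)) := by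
    constructor
    · intro x
      rw [mem_triU]
      intro q
      simp [ellU_smul_cube]
      ring
    · intro x hx
      rw [mem_triU] at hx
      funext q
      have := hx q
      simp
      linear_combination (3 : ℂ)⁻¹ * this
  have : Fintype (Coset N) := Fintype.ofFinite _
  have h := hP.trace
  rw [map_sub, map_smul, map_add, map_add, pre_comp, trace_pre, trace_pre, fixCard_ellU_sq,
    LinearMap.trace_id, Module.finrank_fintype_fun_eq_card, smul_eq_mul] at h
  rw [Nat.card_eq_fintype_card]
  have h2 : (3 : ℂ) * (Module.finrank ℂ (triU N) : ℂ) + 2 * (fixCard N ellU : ℂ)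
      = 2 * (Fintype.card (Coset N) : ℂ) := by
    rw [← h]; ring
  exact_mod_cast h2

lemma finrank_invT : Module.finrank ℂ (invT N) = Nat.card (CuspSet N) := by
  have hr : LinearMap.range (LinearMap.funLeft ℂ ℂ (toCusp (N := N))) = invT N := by
    apply le_antisymm
    · rintro _ ⟨x, rfl⟩
      rw [mem_invT]
      intro q
      simp [LinearMap.funLeft_apply, toCusp_T_smul]
    · intro l hl
      rw [mem_invT] at hl
      refine ⟨fun o => l (Function.surjInv toCusp_surjective o), funext fun q => ?_⟩
      exact eq_of_T_invariant hl (Function.surjInv_eq toCusp_surjective _)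
  have : Fintype (CuspSet N) := Fintype.ofFinite _
  rw [← hr, LinearMap.finrank_range_of_inj
    (LinearMap.funLeft_injective_of_surjective ℂ ℂ _ toCusp_surjective),
    Module.finrank_fintype_fun_eq_card, Nat.card_eq_fintype_card]

end Dim

section CuspSums

variable (N)

/-- Sum along translations of the value on `T` determined by the values `(a, b)` on `(S, ellU)`. -/
def cuspSum : antiS N × triU N →ₗ[ℂ] Fn :=
  (∑ j ∈ Finset.range N, pre N (T ^ j)) ∘ₗ
    LinearMap.coprod (pre N ellU ∘ₗ (antiS N).subtype) (triU N).subtype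

variable {N}

lemma cuspSum_apply (x : antiS N × triU N) (q : Coset N) :
    cuspSum N x q = ∑ j ∈ Finset.range N,
      ((x.1 : Coset N → ℂ) (ellU • T ^ j • q) + (x.2 : Coset N → ℂ) (T ^ j • q)) := by
  simp [cuspSum]

lemma cuspSum_rank [NeZero N] :
    Nat.card (CuspSet N) ≤ Module.finrank ℂ (LinearMap.range (cuspSum N)) + 1 := by
  classical
  have : Fintype (Coset N) := Fintype.ofFinite _
  set L := cuspSum N
  -- pairing of invariant functions with the image
  let Ψ : invT N →ₗ[ℂ] (LinearMap.range L →ₗ[ℂ] ℂ) :=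
    { toFun := fun l =>
        { toFun := fun y => ∑ q, (l : Coset N → ℂ) q * (y : Coset N → ℂ) q
          map_add' := fun y y' => by simp [mul_add, Finset.sum_add_distrib]
          map_smul' := fun c y => by
            simp [Finset.mul_sum, mul_left_comm] }
      map_add' := fun l l' => by ext y; simp [add_mul, Finset.sum_add_distrib]
      map_smul' := fun c l => by
        ext y; simp [Finset.mul_sum, mul_assoc] }
  have hker : Module.finrank ℂ (LinearMap.ker Ψ) ≤ 1 := by
    let ev : LinearMap.ker Ψ →ₗ[ℂ] ℂ :=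
      (LinearMap.proj (baseCoset N)) ∘ₗ (invT N).subtype ∘ₗ (LinearMap.ker Ψ).subtype
    have hev : Function.Injective ev := by
      rw [injective_iff_map_eq_zero]
      rintro ⟨⟨l, hlT⟩, hl⟩ h0
      have hlT' := mem_invT.mp hlT
      have hshift : ∀ (f : Coset N → ℂ) (j : ℕ),
          ∑ q, l q * f (T ^ j • q) = ∑ q, l q * f q := by
        intro f j
        have hl' : ∀ q, l (T ^ j • q) = l q := by
          intro q
          induction j with
          | zero => simp
          | succ i hi => rw [pow_succ', mul_smul, hlT', hi]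
        conv_rhs => rw [← Equiv.sum_comp (MulAction.toPerm (T ^ j))]
        simp [hl']
      have hmain : ∀ (x : antiS N × triU N),
          ∑ q, l q * ((x.1 : Coset N → ℂ) (ellU • q) + (x.2 : Coset N → ℂ) q) = 0 := by
        intro x
        have h := LinearMap.congr_fun (LinearMap.mem_ker.mp hl)
          (⟨L x, LinearMap.mem_range_self _ x⟩ : LinearMap.range L)
        change ∑ q, l q * (L x) q = 0 at h
        simp only [L, cuspSum_apply, Finset.mul_sum] at h
        rw [Finset.sum_comm] at h
        simp only [hshift (fun q => (x.1 : Coset N → ℂ) (ellU • q) + (x.2 : Coset N → ℂ) q)] at h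
        rw [Finset.sum_const, Finset.card_range, nsmul_eq_mul] at h
        exact (mul_eq_zero.mp h).resolve_left (Nat.cast_ne_zero.mpr (NeZero.ne N))
      have hU : ∀ q, l (ellU • q) = l q := by
        intro p
        let f : Coset N → ℂ := fun q => if q = ellU • p then 1 else 0
        have hb : (fun q => f (ellU • q) - f q) ∈ triU N := by
          rw [mem_triU]; intro q; simp [ellU_smul_cube]
        have h := hmain (0, ⟨_, hb⟩)
        simp [f, smul_left_cancel_iff, mul_sub, Finset.sum_sub_distrib] at h
        linear_combination -h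
      have hS : ∀ q, l (S • q) = l q := by
        intro p
        let f : Coset N → ℂ := fun q => if q = p then 1 else 0
        have ha : (fun q => f (S • q) - f q) ∈ antiS N := by
          rw [mem_antiS]; intro q; simp [S_smul_S]
        have h := hmain (⟨_, ha⟩, 0)
        simp only [ZeroMemClass.coe_zero, Pi.zero_apply, add_zero] at h
        have h' : ∑ q, l q * (f (S • q) - f q) = 0 := by
          rw [← Equiv.sum_comp (MulAction.toPerm (ellU : SL(2, ℤ)))
            (fun q => l q * (f (S • q) - f q))]
          simpa [hU] using h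
        have hS' : ∀ q, (S • q = p) ↔ q = S • p := fun q =>
          ⟨fun e => by rw [← e, S_smul_S], fun e => by rw [e, S_smul_S]⟩
        simp [f, hS', mul_sub, Finset.sum_sub_distrib] at h'
        linear_combination h'
      have hc := eq_base_of_invariant hS hlT'
      have h0' : l (baseCoset N) = 0 := h0
      ext q
      simp [hc q, h0']
    calc Module.finrank ℂ (LinearMap.ker Ψ) ≤ Module.finrank ℂ ℂ :=
          LinearMap.finrank_le_finrank_of_injective hev
      _ = 1 := Module.finrank_self ℂ
  have h1 := LinearMap.finrank_range_add_finrank_ker Ψ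
  have h2 : Module.finrank ℂ (LinearMap.range Ψ) ≤ Module.finrank ℂ (LinearMap.range L) := by
    refine (Submodule.finrank_le _).trans ?_
    rw [Module.finrank_linearMap, Module.finrank_self, mul_one]
  rw [← finrank_invT]
  omega

end CuspSums

section Shapiro

/-- The element of `Γ₀(N)` comparing the two lifts of `σ • q`. -/
def liftGamma0 (σ : SL(2, ℤ)) (q : Coset N) : Gamma0 N :=
  ⟨(σ • q).out⁻¹ * σ * q.out, by
    rw [mul_assoc, ← QuotientGroup.eq, QuotientGroup.out_eq']
    conv_lhs => rw [← QuotientGroup.out_eq' q]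
    rfl⟩

/-- The Shapiro cocycle of a homomorphism. -/
def shapiro (σ : SL(2, ℤ)) : (Additive (Gamma0 N) →+ ℂ) →ₗ[ℂ] (Coset N → ℂ) where
  toFun φ q := φ (Additive.ofMul (liftGamma0 σ q))
  map_add' _ _ := rfl
  map_smul' _ _ := rfl

lemma shapiro_apply (σ : SL(2, ℤ)) (φ : Additive (Gamma0 N) →+ ℂ) (q : Coset N) :
    shapiro σ φ q = φ (Additive.ofMul (liftGamma0 σ q)) := rfl

lemma shapiro_mul (φ : Additive (Gamma0 N) →+ ℂ) (σ τ : SL(2, ℤ)) (q : Coset N) :
    shapiro (σ * τ) φ q = shapiro σ φ (τ • q) + shapiro τ φ q := by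
  simp only [shapiro_apply, ← map_add, ← ofMul_mul]
  congr 2
  apply Subtype.ext
  simp only [liftGamma0, Subgroup.coe_mul, mul_smul]
  group

lemma shapiro_one (φ : Additive (Gamma0 N) →+ ℂ) (q : Coset N) :
    shapiro (1 : SL(2, ℤ)) φ q = 0 := by
  have h := shapiro_mul φ 1 1 q
  rw [one_smul, one_mul] at h
  linear_combination -h

lemma coe_liftGamma0_of_fix {σ : SL(2, ℤ)} {q : Coset N} (h : σ • q = q) :
    (liftGamma0 σ q : SL(2, ℤ)) = q.out⁻¹ * σ * q.out := by
  simp [liftGamma0, h]

lemma shapiro_neg_one (φ : Additive (Gamma0 N) →+ ℂ) (q : Coset N) :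
    shapiro (-1 : SL(2, ℤ)) φ q = 0 := by
  have h := shapiro_mul φ (-1) (-1) q
  rw [neg_smul_coset, one_smul, show (-1 : SL(2, ℤ)) * -1 = 1 by simp, shapiro_one] at h
  linear_combination -(1 / 2 : ℂ) * h

lemma shapiro_T (φ : Additive (Gamma0 N) →+ ℂ) (q : Coset N) :
    shapiro T φ q = shapiro S φ (ellU • q) + shapiro ellU φ q := by
  rw [show (T : SL(2, ℤ)) = -1 * (S * ellU) by rw [S_mul_ellU, neg_one_mul, neg_neg],
    shapiro_mul, shapiro_mul, shapiro_neg_one, zero_add]

lemma shapiro_T_pow (φ : Additive (Gamma0 N) →+ ℂ) (n : ℕ) (q : Coset N) :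
    shapiro (T ^ n) φ q = ∑ j ∈ Finset.range n, shapiro T φ (T ^ j • q) := by
  induction n with
  | zero => simpa using shapiro_one φ q
  | succ i hi => rw [Finset.sum_range_succ, ← hi, pow_succ', shapiro_mul, add_comm]

lemma shapiro_T_pow_parabolic {φ : Additive (Gamma0 N) →+ ℂ}
    (hφ : φ ∈ parabolicHoms ℂ (Gamma0 N) ℂ) (q : Coset N) : shapiro (T ^ N) φ q = 0 := by
  rw [shapiro_apply]
  refine hφ _ ?_
  rw [coe_liftGamma0_of_fix (T_pow_smul q), Matrix.SpecialLinearGroup.coe_mul,
    Matrix.trace_mul_comm, ← Matrix.SpecialLinearGroup.coe_mul, ← mul_assoc,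
    mul_inv_cancel, one_mul, ← zpow_natCast, coe_T_zpow]
  simp [Matrix.trace_fin_two]

lemma shapiro_mem_antiS (φ : Additive (Gamma0 N) →+ ℂ) : shapiro S φ ∈ antiS N := by
  rw [mem_antiS]
  intro q
  have h := shapiro_mul φ S S q
  rw [S_mul_S, shapiro_neg_one] at h
  linear_combination -h

lemma shapiro_mem_triU (φ : Additive (Gamma0 N) →+ ℂ) : shapiro ellU φ ∈ triU N := by
  rw [mem_triU]
  intro q
  have h := shapiro_mul φ (ellU * ellU) ellU q
  rw [ellU_cube, shapiro_neg_one, shapiro_mul] at h
  linear_combination -h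

variable (N)

/-- Coboundary of a function at `σ`. -/
def coboundary (σ : SL(2, ℤ)) : (Coset N → ℂ) →ₗ[ℂ] (Coset N → ℂ) := pre N σ - LinearMap.id

/-- The map to pairs of values at the two torsion generators. -/
def cocyclePair :
    parabolicHoms ℂ (Gamma0 N) ℂ × (Coset N → ℂ) →ₗ[ℂ] antiS N × triU N :=
  LinearMap.prod
    (LinearMap.codRestrict (antiS N)
      (LinearMap.coprod (shapiro S ∘ₗ (parabolicHoms ℂ (Gamma0 N) ℂ).subtype) (coboundary N S))
      (fun x => by
        rw [LinearMap.coprod_apply]
        refine Submodule.add_mem _ (shapiro_mem_antiS _) ?_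
        rw [mem_antiS]; intro q; simp [coboundary, S_smul_S]))
    (LinearMap.codRestrict (triU N)
      (LinearMap.coprod (shapiro ellU ∘ₗ (parabolicHoms ℂ (Gamma0 N) ℂ).subtype)
        (coboundary N ellU))
      (fun x => by
        rw [LinearMap.coprod_apply]
        refine Submodule.add_mem _ (shapiro_mem_triU _) ?_
        rw [mem_triU]; intro q; simp [coboundary, ellU_smul_cube]))

variable {N}

lemma range_cocyclePair_le : LinearMap.range (cocyclePair N) ≤ LinearMap.ker (cuspSum N) := by
  rintro _ ⟨⟨⟨φ, hφ⟩, h⟩, rfl⟩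
  rw [LinearMap.mem_ker]
  funext q
  have h1 : ∀ j : ℕ, shapiro S φ (ellU • T ^ j • q) + (h (S • ellU • T ^ j • q)
        - h (ellU • T ^ j • q))
      + (shapiro ellU φ (T ^ j • q) + (h (ellU • T ^ j • q) - h (T ^ j • q)))
      = shapiro T φ (T ^ j • q) + (h (T ^ (j + 1) • q) - h (T ^ j • q)) := by
    intro j
    rw [shapiro_T, S_smul_ellU, pow_succ', mul_smul]
    ring
  rw [cuspSum_apply]
  change ∑ j ∈ Finset.range N,
      (shapiro S φ (ellU • T ^ j • q) + (h (S • ellU • T ^ j • q) - h (ellU • T ^ j • q))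
      + (shapiro ellU φ (T ^ j • q) + (h (ellU • T ^ j • q) - h (T ^ j • q)))) = 0
  simp only [h1]
  rw [Finset.sum_add_distrib, ← shapiro_T_pow, shapiro_T_pow_parabolic hφ,
    Finset.sum_range_sub (fun j => h (T ^ j • q)), T_pow_smul, pow_zero, one_smul]
  ring

lemma cocyclePair_eq_zero {x : parabolicHoms ℂ (Gamma0 N) ℂ × (Coset N → ℂ)}
    (hx : cocyclePair N x = 0) : x.1 = 0 ∧ ∀ q, x.2 q = x.2 (baseCoset N) := by
  obtain ⟨⟨φ, hφ⟩, h⟩ := x
  have hS : ∀ q, shapiro S φ q + (h (S • q) - h q) = 0 := fun q => by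
    have := congrArg (fun y : antiS N × triU N => (y.1 : Coset N → ℂ) q) hx
    simpa [cocyclePair, coboundary] using this
  have hU : ∀ q, shapiro ellU φ q + (h (ellU • q) - h q) = 0 := fun q => by
    have := congrArg (fun y : antiS N × triU N => (y.2 : Coset N → ℂ) q) hx
    simpa [cocyclePair, coboundary] using this
  have hT : ∀ q, shapiro T φ q + (h (T • q) - h q) = 0 := fun q => by
    rw [shapiro_T, ← S_smul_ellU]
    linear_combination hS (ellU • q) + hU q
  have hall : ∀ σ : SL(2, ℤ), ∀ q, shapiro σ φ q + (h (σ • q) - h q) = 0 := by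
    intro σ
    have hg : σ ∈ Subgroup.closure ({S, T} : Set SL(2, ℤ)) := by
      rw [SpecialLinearGroup.SL2Z_generators]; exact Subgroup.mem_top σ
    induction hg using Subgroup.closure_induction with
    | mem y hy =>
      rcases hy with rfl | hy
      · exact hS
      · rw [Set.mem_singleton_iff] at hy; subst hy; exact hT
    | one => intro q; simp [shapiro_one]
    | mul a b _ _ ha hb =>
      intro q
      rw [shapiro_mul, mul_smul]
      linear_combination ha (b • q) + hb q
    | inv a _ ha =>
      intro q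
      have h1 := shapiro_mul φ a a⁻¹ q
      rw [mul_inv_cancel, shapiro_one] at h1
      have h2 := ha (a⁻¹ • q)
      rw [smul_inv_smul] at h2
      linear_combination -h1 - h2
  have hzero : φ = 0 := by
    refine AddMonoidHom.ext fun y => ?_
    obtain ⟨γ, rfl⟩ := Additive.ofMul.surjective y
    have hb : (γ : SL(2, ℤ)) • baseCoset N = baseCoset N := by
      rw [baseCoset, MulAction.Quotient.smul_mk, QuotientGroup.eq]
      simp
    have h1 := hall γ (baseCoset N)
    rw [hb, sub_self, add_zero, shapiro_apply] at h1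
    have hs : (baseCoset N).out ∈ Gamma0 N := by
      have := QuotientGroup.out_eq' (baseCoset N)
      rw [baseCoset, QuotientGroup.eq, mul_one, Subgroup.inv_mem_iff] at this
      exact this
    have hl : liftGamma0 (γ : SL(2, ℤ)) (baseCoset N) = ⟨_, hs⟩⁻¹ * γ * ⟨_, hs⟩ :=
      Subtype.ext (by simpa using coe_liftGamma0_of_fix hb)
    rw [hl, ofMul_mul, ofMul_mul, ofMul_inv, map_add, map_add, map_neg] at h1
    rw [AddMonoidHom.zero_apply]
    linear_combination h1
  subst hzero
  refine ⟨rfl, fun q => eq_base_of_invariant (fun p => ?_) (fun p => ?_) q⟩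
  · simpa [shapiro_apply, sub_eq_zero] using hall S p
  · simpa [shapiro_apply, sub_eq_zero] using hall T p

theorem parabolicHoms_finiteDimensional [NeZero N] :
    FiniteDimensional ℂ (parabolicHoms ℂ (Gamma0 N) ℂ) := by
  have : Function.Injective (cocyclePair N ∘ₗ LinearMap.inl ℂ _ (Coset N → ℂ)) := by
    rw [injective_iff_map_eq_zero]
    intro φ h
    exact (cocyclePair_eq_zero (x := (φ, 0)) h).1
  exact FiniteDimensional.of_injective _ this

/-- The upper bound `dim ≤ 2g`, in terms of the coset space. -/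
theorem parabolicHoms_finrank_le [NeZero N] :
    6 * Module.finrank ℂ (parabolicHoms ℂ (Gamma0 N) ℂ) + 3 * fixCard N S + 4 * fixCard N ellU
        + 6 * Nat.card (CuspSet N)
      ≤ Nat.card (Coset N) + 12 := by
  have := parabolicHoms_finiteDimensional (N := N)
  have : Fintype (Coset N) := Fintype.ofFinite _
  have h1 := LinearMap.finrank_range_add_finrank_ker (cocyclePair N)
  have h2 := Submodule.finrank_mono (range_cocyclePair_le (N := N))
  have h3 := LinearMap.finrank_range_add_finrank_ker (cuspSum N)
  have h4 := cuspSum_rank (N := N)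
  have h5 : Module.finrank ℂ (LinearMap.ker (cocyclePair N)) ≤ 1 := by
    let ev : LinearMap.ker (cocyclePair N) →ₗ[ℂ] ℂ :=
      LinearMap.proj (baseCoset N) ∘ₗ LinearMap.snd ℂ _ _ ∘ₗ
        (LinearMap.ker (cocyclePair N)).subtype
    have hev : Function.Injective ev := by
      rw [injective_iff_map_eq_zero]
      rintro ⟨⟨φ, h⟩, hx⟩ h0
      obtain ⟨e1, e2⟩ := cocyclePair_eq_zero (LinearMap.mem_ker.mp hx)
      have h0' : h (baseCoset N) = 0 := h0
      apply Subtype.ext
      refine Prod.ext e1 (funext fun q => ?_)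
      simpa [h0'] using e2 q
    exact (LinearMap.finrank_le_finrank_of_injective hev).trans (Module.finrank_self ℂ).le
  have h6 := finrank_antiS (N := N)
  have h7 := finrank_triU (N := N)
  rw [Module.finrank_prod, Module.finrank_fintype_fun_eq_card, ← Nat.card_eq_fintype_card] at h1
  rw [Module.finrank_prod] at h3
  omega

end Shapiro

end Fermat.Agent.Period
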