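import Fermat.Agent.Period.Coset
import Fermat.Prelude.Def_ModularCurve_GenusNumerics
import Mathlib.Data.Nat.Totient
import Mathlib.Data.Finset.NatDivisors
import Mathlib.Data.Nat.Factorization.Induction
import Mathlib.Data.ZMod.Basic

/-!
# Index, elliptic fixed points and cusps of Γ₀(N)

Main results: `card_coset`, `fixCard_S`, `fixCard_ellU`, `card_cuspSet`, `index_Gamma0`.
-/

set_option autoImplicit false

noncomputable section

namespace Fermat.Agent.Period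

open CongruenceSubgroup ModularGroup
open scoped MatrixGroups

variable {N : ℕ}

/-- The coset attached to the bottom row of `g`. -/
def cosetOf (N : ℕ) (g : SL(2, ℤ)) : Coset N := ((g⁻¹ : SL(2, ℤ)) : Coset N)

lemma cosetOf_surjective : Function.Surjective (cosetOf N) := fun q => by
  induction q using QuotientGroup.induction_on with
  | _ x => exact ⟨x⁻¹, by rw [cosetOf, inv_inv]⟩

lemma cosetOf_eq_iff {g h : SL(2, ℤ)} :
    cosetOf N g = cosetOf N h ↔ ((g 1 0 * h 1 1 - g 1 1 * h 1 0 : ℤ) : ZMod N) = 0 := by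
  rw [cosetOf, cosetOf, QuotientGroup.eq, inv_inv, Gamma0_mem,
    show (g * h⁻¹) 1 0 = g 1 0 * h 1 1 - g 1 1 * h 1 0 from ?_]
  simp [Matrix.SpecialLinearGroup.coe_inv, Matrix.adjugate_fin_two, Matrix.mul_apply,
    Fin.sum_univ_two]
  ring

lemma cosetOf_eq_iff_dvd {g h : SL(2, ℤ)} :
    cosetOf N g = cosetOf N h ↔ (N : ℤ) ∣ g 1 0 * h 1 1 - g 1 1 * h 1 0 := by
  rw [cosetOf_eq_iff, ZMod.intCast_zmod_eq_zero_iff_dvd]

lemma smul_cosetOf (γ g : SL(2, ℤ)) : γ • cosetOf N g = cosetOf N (g * γ⁻¹) := by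
  rw [cosetOf, cosetOf, MulAction.Quotient.smul_mk, mul_inv_rev, inv_inv]
  rfl

lemma exists_bottom_row (c d : ℤ) (h : IsCoprime c d) :
    ∃ g : SL(2, ℤ), g 1 0 = c ∧ g 1 1 = d := by
  obtain ⟨u, v, huv⟩ := h
  exact ⟨⟨!![v, -u; c, d], by rw [Matrix.det_fin_two_of]; linarith⟩, rfl, rfl⟩

lemma bottom_row_coprime (g : SL(2, ℤ)) : ∃ u v : ℤ, u * g 1 0 + v * g 1 1 = 1 := by
  refine ⟨-g 0 1, g 0 0, ?_⟩
  have := g.det_coe
  rw [Matrix.det_fin_two] at this
  linarith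

section Elliptic

lemma smul_eq_self_iff (γ g : SL(2, ℤ)) :
    γ • cosetOf N g = cosetOf N g ↔ (((g * γ⁻¹ * g⁻¹) 1 0 : ℤ) : ZMod N) = 0 := by
  rw [smul_cosetOf, cosetOf, cosetOf, QuotientGroup.eq, inv_inv, Gamma0_mem]

lemma S_fix_iff (g : SL(2, ℤ)) :
    S • cosetOf N g = cosetOf N g ↔ ((g 1 0 : ℤ) : ZMod N) ^ 2 + ((g 1 1 : ℤ) : ZMod N) ^ 2 = 0 := by
  rw [smul_eq_self_iff, show (g * S⁻¹ * g⁻¹) 1 0 = -(g 1 0 ^ 2 + g 1 1 ^ 2) from ?_]
  · push_cast
    exact neg_eq_zero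
  simp [Matrix.SpecialLinearGroup.coe_inv, coe_S, Matrix.adjugate_fin_two, Matrix.mul_apply,
    Fin.sum_univ_two]
  ring

lemma ellU_fix_iff (g : SL(2, ℤ)) :
    ellU • cosetOf N g = cosetOf N g ↔ ((g 1 1 : ℤ) : ZMod N) ^ 2
      - ((g 1 0 : ℤ) : ZMod N) * ((g 1 1 : ℤ) : ZMod N) + ((g 1 0 : ℤ) : ZMod N) ^ 2 = 0 := by
  rw [smul_eq_self_iff,
    show (g * ellU⁻¹ * g⁻¹) 1 0 = -(g 1 1 ^ 2 - g 1 0 * g 1 1 + g 1 0 ^ 2) from ?_]
  · push_cast
    exact neg_eq_zero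
  simp [Matrix.SpecialLinearGroup.coe_inv, coe_ellU, Matrix.adjugate_fin_two, Matrix.mul_apply,
    Fin.sum_univ_two]
  ring

/-- Representative with bottom row `(1, x)`. -/
def rowOne (x : ℤ) : SL(2, ℤ) := ⟨!![0, -1; 1, x], by rw [Matrix.det_fin_two_of]; ring⟩

@[simp] lemma rowOne_10 (x : ℤ) : rowOne x 1 0 = 1 := rfl
@[simp] lemma rowOne_11 (x : ℤ) : rowOne x 1 1 = x := rfl

lemma rowOne_injective [NeZero N] {x y : ZMod N}
    (h : cosetOf N (rowOne x.val) = cosetOf N (rowOne y.val)) : x = y := by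
  rw [cosetOf_eq_iff] at h
  simp at h
  exact (sub_eq_zero.mp h).symm

theorem fixCard_S [NeZero N] : fixCard N S = ModularCurve.nuTwo N := by
  symm
  refine Nat.card_congr (Equiv.ofBijective
    (fun x : {x : ZMod N // x ^ 2 + 1 = 0} =>
      (⟨cosetOf N (rowOne x.1.val), by
        rw [S_fix_iff]; simp; linear_combination x.2⟩ : {q : Coset N // S • q = q}))
    ⟨?_, ?_⟩)
  · intro x y h
    exact Subtype.ext (rowOne_injective (congrArg Subtype.val h))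
  · rintro ⟨q, hq⟩
    obtain ⟨g, rfl⟩ := cosetOf_surjective q
    rw [S_fix_iff] at hq
    obtain ⟨u, v, huv⟩ := bottom_row_coprime g
    set c : ZMod N := ((g 1 0 : ℤ) : ZMod N)
    set d : ZMod N := ((g 1 1 : ℤ) : ZMod N)
    have h1 : (u : ZMod N) * c + (v : ZMod N) * d = 1 := by
      simpa [c, d] using congrArg (fun t : ℤ => (t : ZMod N)) huv
    set c' : ZMod N := (u : ZMod N) ^ 2 * c + 2 * (u : ZMod N) * (v : ZMod N) * d
      - (v : ZMod N) ^ 2 * c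
    have hc : c * c' = 1 := by
      simp only [c']
      linear_combination ((u : ZMod N) * c + (v : ZMod N) * d + 1) * h1 - (v : ZMod N) ^ 2 * hq
    refine ⟨⟨d * c', ?_⟩, ?_⟩
    · linear_combination c' ^ 2 * hq - (c * c' + 1) * hc
    · apply Subtype.ext
      show cosetOf N (rowOne _) = cosetOf N g
      rw [cosetOf_eq_iff]
      simp
      linear_combination -d * hc

theorem fixCard_ellU [NeZero N] : fixCard N ellU = ModularCurve.nuThree N := by
  symm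
  refine Nat.card_congr (Equiv.ofBijective
    (fun x : {x : ZMod N // x ^ 2 + x + 1 = 0} =>
      (⟨cosetOf N (rowOne (-x.1).val), by
        rw [ellU_fix_iff]; simp; linear_combination x.2⟩ : {q : Coset N // ellU • q = q}))
    ⟨?_, ?_⟩)
  · intro x y h
    exact Subtype.ext (neg_inj.mp (rowOne_injective (congrArg Subtype.val h)))
  · rintro ⟨q, hq⟩
    obtain ⟨g, rfl⟩ := cosetOf_surjective q
    rw [ellU_fix_iff] at hq
    obtain ⟨u, v, huv⟩ := bottom_row_coprime g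
    set c : ZMod N := ((g 1 0 : ℤ) : ZMod N)
    set d : ZMod N := ((g 1 1 : ℤ) : ZMod N)
    have h1 : (u : ZMod N) * c + (v : ZMod N) * d = 1 := by
      simpa [c, d] using congrArg (fun t : ℤ => (t : ZMod N)) huv
    set c' : ZMod N := (u : ZMod N) ^ 2 * c + 2 * (u : ZMod N) * (v : ZMod N) * d
      + (v : ZMod N) ^ 2 * (d - c)
    have hc : c * c' = 1 := by
      simp only [c']
      linear_combination ((u : ZMod N) * c + (v : ZMod N) * d + 1) * h1 - (v : ZMod N) ^ 2 * hq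
    refine ⟨⟨-(d * c'), ?_⟩, ?_⟩
    · linear_combination c' ^ 2 * hq + (d * c' - c * c' - 1) * hc
    · apply Subtype.ext
      show cosetOf N (rowOne _) = cosetOf N g
      rw [cosetOf_eq_iff]
      simp
      linear_combination -d * hc

end Elliptic

section Classification

/-- Shift `a` by a multiple of `b` to make it prime to `n`. -/
lemma exists_coprime_shift {a b n : ℕ} (hn : n ≠ 0) (h : Nat.Coprime a (Nat.gcd n b)) :
    ∃ k, Nat.Coprime (a + k * b) n := by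
  refine ⟨∏ p ∈ n.primeFactors.filter (fun p => ¬p ∣ a), p, ?_⟩
  set k := ∏ p ∈ n.primeFactors.filter (fun p => ¬p ∣ a), p
  refine Nat.coprime_of_dvd fun p hp hpl hpn => ?_
  have hpmem : p ∈ n.primeFactors := Nat.mem_primeFactors.mpr ⟨hp, hpn, hn⟩
  by_cases hpa : p ∣ a
  · have hkb : p ∣ k * b := (Nat.dvd_add_right hpa).mp hpl
    rcases hp.dvd_mul.mp hkb with hk | hb
    · obtain ⟨q, hq, hpq⟩ := (hp.prime.dvd_finsetProd_iff _).mp hk
      obtain ⟨hq1, hq2⟩ := Finset.mem_filter.mp hq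
      have : p = q := (Nat.prime_dvd_prime_iff_eq hp (Nat.prime_of_mem_primeFactors hq1)).mp hpq
      exact hq2 (this ▸ hpa)
    · exact hp.one_lt.ne' (Nat.dvd_one.mp (h ▸ Nat.dvd_gcd hpa (Nat.dvd_gcd hpn hb)))
  · have hk : p ∣ k := Finset.dvd_prod_of_mem _ (Finset.mem_filter.mpr ⟨hpmem, hpa⟩)
    exact hpa ((Nat.dvd_add_left (hk.mul_right b)).mp hpl)

variable (N)

/-- Residues modulo `N / e` prime to `gcd (e, N / e)`. -/
def rowIndex : Type :=
  Σ e : N.divisors, {x : Fin (N / (e : ℕ)) // Nat.Coprime x (Nat.gcd e (N / (e : ℕ)))}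

/-- Residues modulo `gcd (e, N / e)` prime to it. -/
def cuspIndex : Type :=
  Σ e : N.divisors, {y : Fin (Nat.gcd (e : ℕ) (N / (e : ℕ))) //
    Nat.Coprime y (Nat.gcd e (N / (e : ℕ)))}

variable {N}

lemma exists_row_lift {e x : ℕ} (he : e ≠ 0) (hx : Nat.Coprime x (Nat.gcd e (N / e))) :
    ∃ g : SL(2, ℤ), g 1 0 = e ∧ ((N / e : ℕ) : ℤ) ∣ g 1 1 - x := by
  obtain ⟨k, hk⟩ := exists_coprime_shift (b := N / e) he hx
  obtain ⟨g, h1, h2⟩ := exists_bottom_row (e : ℤ) ((x + k * (N / e) : ℕ) : ℤ)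
    (Int.isCoprime_iff_gcd_eq_one.mpr (by rw [Int.gcd_natCast_natCast]; exact hk.symm))
  refine ⟨g, h1, ⟨(k : ℤ), ?_⟩⟩
  rw [h2]; push_cast; ring

/-- The chosen representative attached to `(e, x)`. -/
def rowLift {e x : ℕ} (he : e ≠ 0) (hx : Nat.Coprime x (Nat.gcd e (N / e))) : SL(2, ℤ) :=
  (exists_row_lift he hx).choose

lemma rowLift_spec {e x : ℕ} (he : e ≠ 0) (hx : Nat.Coprime x (Nat.gcd e (N / e))) :
    rowLift he hx 1 0 = e ∧ ((N / e : ℕ) : ℤ) ∣ rowLift he hx 1 1 - x :=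
  (exists_row_lift he hx).choose_spec

lemma eq_of_coset_eq [NeZero N] {e e' : ℕ} (he : e ∣ N) (he' : e' ∣ N) {g h : SL(2, ℤ)}
    (hg : g 1 0 = e) (hh : h 1 0 = e') (heq : cosetOf N g = cosetOf N h) :
    e = e' ∧ ((N / e : ℕ) : ℤ) ∣ h 1 1 - g 1 1 := by
  rw [cosetOf_eq_iff_dvd, hg, hh] at heq
  obtain ⟨u, v, huv⟩ := bottom_row_coprime g
  obtain ⟨u', v', huv'⟩ := bottom_row_coprime h
  rw [hg] at huv
  rw [hh] at huv'
  have h1 : (e : ℤ) ∣ (e : ℤ) * h 1 1 - g 1 1 * e' := (Int.natCast_dvd_natCast.mpr he).trans heq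
  have h2 : (e' : ℤ) ∣ (e : ℤ) * h 1 1 - g 1 1 * e' := (Int.natCast_dvd_natCast.mpr he').trans heq
  have a1 : (e : ℤ) ∣ g 1 1 * e' := by
    simpa using (dvd_mul_right (e : ℤ) (h 1 1)).sub h1
  have a2 : (e' : ℤ) ∣ (e : ℤ) * h 1 1 := by
    simpa using h2.add (dvd_mul_left (e' : ℤ) (g 1 1))
  have b1 : IsCoprime (e : ℤ) (g 1 1) := ⟨u, v, huv⟩
  have b2 : IsCoprime (e' : ℤ) (h 1 1) := ⟨u', v', huv'⟩
  have e1 : e = e' := Nat.dvd_antisymm
    (Int.natCast_dvd_natCast.mp (b1.dvd_of_dvd_mul_left a1))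
    (Int.natCast_dvd_natCast.mp (b2.dvd_of_dvd_mul_right a2))
  subst e1
  refine ⟨rfl, ?_⟩
  have hN : (N : ℤ) = (e : ℤ) * ((N / e : ℕ) : ℤ) := by
    exact_mod_cast (Nat.mul_div_cancel' he).symm
  have he0 : (e : ℤ) ≠ 0 := by
    intro h0
    rw [h0, zero_mul] at hN
    exact NeZero.ne N (by exact_mod_cast hN)
  rw [hN, show (e : ℤ) * h 1 1 - g 1 1 * e = (e : ℤ) * (h 1 1 - g 1 1) by ring] at heq
  exact (mul_dvd_mul_iff_left he0).mp heq

lemma natCast_eq_of_dvd_sub {m x y : ℕ} (hx : x < m) (hy : y < m) (h : (m : ℤ) ∣ (y : ℤ) - x) :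
    x = y :=
  Nat.ModEq.eq_of_lt_of_lt (Nat.modEq_iff_dvd.mpr h) hx hy

/-- The parametrisation of cosets by their bottom rows. -/
def rowMap (p : rowIndex N) : Coset N :=
  cosetOf N (rowLift (Nat.pos_of_mem_divisors p.1.2).ne' p.2.2)

lemma rowMap_injective [NeZero N] : Function.Injective (rowMap (N := N)) := by
  rintro ⟨⟨e, he⟩, ⟨x, hx⟩⟩ ⟨⟨e', he'⟩, ⟨x', hx'⟩⟩ h
  have s := rowLift_spec (Nat.pos_of_mem_divisors he).ne' hx
  have s' := rowLift_spec (Nat.pos_of_mem_divisors he').ne' hx'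
  obtain ⟨rfl, hd⟩ := eq_of_coset_eq (Nat.dvd_of_mem_divisors he) (Nat.dvd_of_mem_divisors he')
    s.1 s'.1 h
  have : (x : ℕ) = x' := natCast_eq_of_dvd_sub x.2 x'.2 (by
    exact ((s.2.add hd).sub s'.2).trans (dvd_of_eq (by ring)))
  obtain rfl : x = x' := Fin.ext this
  rfl

lemma rowMap_surjective [NeZero N] : Function.Surjective (rowMap (N := N)) := by
  intro q
  obtain ⟨g, rfl⟩ := cosetOf_surjective q
  set c := g 1 0 with hc
  set d := g 1 1 with hd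
  set e := Int.gcd c (N : ℤ) with he
  have hN : (N : ℤ) ≠ 0 := by exact_mod_cast NeZero.ne N
  have hepos : 0 < e := Int.gcd_pos_of_ne_zero_right _ hN
  have heN : e ∣ N := Int.natCast_dvd_natCast.mp (Int.gcd_dvd_right c (N : ℤ))
  set m := N / e with hm
  have hNm : (N : ℤ) = (e : ℤ) * (m : ℤ) := by
    exact_mod_cast (Nat.mul_div_cancel' heN).symm
  have hmpos : 0 < m := Nat.div_pos (Nat.le_of_dvd (Nat.pos_of_ne_zero (NeZero.ne N)) heN) hepos
  obtain ⟨c1, hc1⟩ : (e : ℤ) ∣ c := Int.gcd_dvd_left c (N : ℤ)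
  obtain ⟨s, t, hst⟩ : IsCoprime c1 (m : ℤ) := by
    refine Int.isCoprime_iff_gcd_eq_one.mpr ?_
    have : e * Int.gcd c1 (m : ℤ) = e * 1 := by
      rw [mul_one]
      have h0 : Int.gcd c (N : ℤ) = e := he.symm
      rwa [hc1, hNm, Int.gcd_mul_left, Int.natAbs_natCast] at h0
    exact Nat.eq_of_mul_eq_mul_left hepos this
  obtain ⟨u, v, huv⟩ := bottom_row_coprime g
  have hmz : (m : ℤ) ≠ 0 := by exact_mod_cast hmpos.ne'
  set x := ((d * s) % (m : ℤ)).toNat with hx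
  have hxz : (x : ℤ) = (d * s) % (m : ℤ) :=
    Int.toNat_of_nonneg (Int.emod_nonneg _ hmz)
  have hxlt : x < m := by
    have := Int.emod_lt_of_pos (d * s) (show (0 : ℤ) < m by exact_mod_cast hmpos)
    omega
  have hxc : Nat.Coprime x (Nat.gcd e m) := by
    have hg1 : ((Nat.gcd e m : ℕ) : ℤ) ∣ (m : ℤ) :=
      Int.natCast_dvd_natCast.mpr (Nat.gcd_dvd_right _ _)
    have hg2 : ((Nat.gcd e m : ℕ) : ℤ) ∣ c :=
      (Int.natCast_dvd_natCast.mpr (Nat.gcd_dvd_left _ _)).trans ⟨c1, hc1⟩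
    obtain ⟨a, ha⟩ := hg1
    obtain ⟨b, hb⟩ := hg2
    refine Nat.isCoprime_iff_coprime.mp ?_
    have hemod := Int.emod_add_mul_ediv (d * s) (m : ℤ)
    rw [← hxz] at hemod
    generalize d * s / (m : ℤ) = k at hemod
    refine ⟨c1 * v, u * b + v * d * t * a + c1 * v * a * k, ?_⟩
    rw [ha] at hst hemod
    linear_combination huv + (v * d) * hst + (c1 * v) * hemod - u * hb
  have hspec := rowLift_spec (N := N) (e := e) hepos.ne' hxc
  refine ⟨⟨⟨e, Nat.mem_divisors.mpr ⟨heN, NeZero.ne N⟩⟩, ⟨⟨x, hxlt⟩, hxc⟩⟩, ?_⟩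
  show cosetOf N (rowLift _ _) = cosetOf N g
  rw [cosetOf_eq_iff_dvd, hspec.1, ← hc, ← hd, hc1, hNm]
  obtain ⟨w, hw⟩ := hspec.2
  have hemod := Int.emod_add_mul_ediv (d * s) (m : ℤ)
  rw [← hxz] at hemod
  refine ⟨d * t - w * c1 + c1 * (d * s / (m : ℤ)), ?_⟩
  linear_combination (-(e : ℤ) * c1) * hw - (e : ℤ) * c1 * hemod + (-(e : ℤ) * d) * hst

lemma T_zpow_smul_cosetOf (n : ℤ) (g : SL(2, ℤ)) :
    T ^ (-n) • cosetOf N g = cosetOf N (g * T ^ n) := by
  rw [smul_cosetOf, zpow_neg, inv_inv]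

lemma T_zpow_row (n : ℤ) (g : SL(2, ℤ)) :
    (g * T ^ n) 1 0 = g 1 0 ∧ (g * T ^ n) 1 1 = n * g 1 0 + g 1 1 := by
  constructor <;>
    simp [Matrix.SpecialLinearGroup.coe_mul, coe_T_zpow, Matrix.mul_apply, Fin.sum_univ_two,
      mul_comm]

/-- The parametrisation of cusps. -/
def cuspMap [NeZero N] (p : cuspIndex N) : CuspSet N :=
  toCusp (rowMap ⟨p.1, ⟨⟨p.2.1, lt_of_lt_of_le p.2.1.2 (Nat.le_of_dvd
    (Nat.div_pos (Nat.divisor_le p.1.2) (Nat.pos_of_mem_divisors p.1.2))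
    (Nat.gcd_dvd_right _ _))⟩, p.2.2⟩⟩)

lemma cuspMap_injective [NeZero N] : Function.Injective (cuspMap (N := N)) := by
  rintro ⟨⟨e, he⟩, ⟨y, hy⟩⟩ ⟨⟨e', he'⟩, ⟨y', hy'⟩⟩ h
  obtain ⟨⟨γ, hγ⟩, heq⟩ := Quotient.exact' h
  obtain ⟨n, rfl⟩ := Subgroup.mem_zpowers_iff.mp hγ
  change T ^ n • rowMap _ = rowMap _ at heq
  simp only [rowMap] at heq
  rw [← neg_neg n, T_zpow_smul_cosetOf] at heq
  have s := rowLift_spec (Nat.pos_of_mem_divisors he).ne' hy
  have s' := rowLift_spec (Nat.pos_of_mem_divisors he').ne' hy'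
  have r := T_zpow_row (-n) (rowLift (Nat.pos_of_mem_divisors he').ne' hy')
  obtain ⟨e1, hd⟩ := eq_of_coset_eq (Nat.dvd_of_mem_divisors he') (Nat.dvd_of_mem_divisors he)
    (r.1.trans s'.1) s.1 heq
  subst e1
  rw [r.2, s'.1] at hd
  have hg1 : ((Nat.gcd e' (N / e') : ℕ) : ℤ) ∣ ((N / e' : ℕ) : ℤ) :=
    Int.natCast_dvd_natCast.mpr (Nat.gcd_dvd_right _ _)
  have hg2 : ((Nat.gcd e' (N / e') : ℕ) : ℤ) ∣ (e' : ℤ) :=
    Int.natCast_dvd_natCast.mpr (Nat.gcd_dvd_left _ _)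
  have : (y' : ℕ) = y := natCast_eq_of_dvd_sub y'.2 y.2 (by
    exact (((hg1.trans hd).sub (hg1.trans s.2)).add ((hg1.trans s'.2).add
      (hg2.mul_left (-n)))).trans (dvd_of_eq (by ring)))
  obtain rfl : y' = y := Fin.ext this
  rfl

lemma cuspMap_surjective [NeZero N] : Function.Surjective (cuspMap (N := N)) := by
  intro o
  obtain ⟨q, rfl⟩ := toCusp_surjective o
  obtain ⟨⟨⟨e, he⟩, ⟨⟨x, hxlt⟩, hx⟩⟩, rfl⟩ := rowMap_surjective q
  change Nat.Coprime x (Nat.gcd e (N / e)) at hx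
  have he0 := (Nat.pos_of_mem_divisors he).ne'
  have hgpos : 0 < Nat.gcd e (N / e) := Nat.gcd_pos_of_pos_left _ (Nat.pos_of_mem_divisors he)
  have hy : Nat.Coprime (x % Nat.gcd e (N / e)) (Nat.gcd e (N / e)) := by
    rw [Nat.Coprime, ← Nat.gcd_rec, Nat.gcd_comm]; exact hx
  refine ⟨⟨⟨e, he⟩, ⟨⟨_, Nat.mod_lt x hgpos⟩, hy⟩⟩, ?_⟩
  refine Quotient.sound' ?_
  have s := rowLift_spec he0 hx
  have s' := rowLift_spec he0 hy
  set y := x % Nat.gcd e (N / e) with hy'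
  have hbez := Nat.gcd_eq_gcd_ab e (N / e)
  have hxy : (x : ℤ) = (y : ℤ)
      + ((Nat.gcd e (N / e) : ℕ) : ℤ) * ((x / Nat.gcd e (N / e) : ℕ) : ℤ) := by
    exact_mod_cast (Nat.mod_add_div x _).symm
  set n := Nat.gcdA e (N / e) * ((x / Nat.gcd e (N / e) : ℕ) : ℤ) with hn
  refine ⟨⟨T ^ n, Subgroup.zpow_mem_zpowers T n⟩, ?_⟩
  change T ^ n • rowMap _ = rowMap _
  simp only [rowMap]
  rw [← neg_neg n, T_zpow_smul_cosetOf]
  obtain ⟨r1, r2⟩ := T_zpow_row (-n) (rowLift he0 hx)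
  rw [cosetOf_eq_iff_dvd, r1, r2, s.1, s'.1]
  have hN : (N : ℤ) = (e : ℤ) * ((N / e : ℕ) : ℤ) := by
    exact_mod_cast (Nat.mul_div_cancel' (Nat.dvd_of_mem_divisors he)).symm
  obtain ⟨w, hw⟩ := s.2
  obtain ⟨w', hw'⟩ := s'.2
  refine ⟨w' - w - Nat.gcdB e (N / e) * ((x / Nat.gcd e (N / e) : ℕ) : ℤ), ?_⟩
  rw [hN, hn]
  linear_combination (e : ℤ) * hw' - (e : ℤ) * hw - (e : ℤ) * hxy
    - (e : ℤ) * ((x / Nat.gcd e (N / e) : ℕ) : ℤ) * hbez

end Classification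

section Counting

lemma card_fin_coprime (m g : ℕ) (hg : g ∣ m) :
    Nat.card {x : Fin m // Nat.Coprime x g} = m / g * Nat.totient g := by
  obtain ⟨k, rfl⟩ := hg
  rcases Nat.eq_zero_or_pos g with rfl | hg
  · have : IsEmpty {x : Fin (0 * k) // Nat.Coprime x 0} :=
      ⟨fun x => absurd x.1.2 (by simp)⟩
    rw [Nat.card_eq_zero.mpr (Or.inl this)]
    simp
  rw [Nat.mul_div_cancel_left k hg, Nat.card_eq_fintype_card, Fintype.card_subtype]
  have : (Finset.univ.filter fun x : Fin (g * k) => Nat.Coprime x g).map Fin.valEmbedding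
      = (Finset.range (g * k)).filter fun x => Nat.Coprime x g := by
    ext x
    simp only [Finset.mem_map, Finset.mem_filter, Finset.mem_univ, true_and, Finset.mem_range,
      Fin.valEmbedding_apply]
    exact ⟨fun ⟨a, ha, e⟩ => e ▸ ⟨a.2, ha⟩, fun ⟨h1, h2⟩ => ⟨⟨x, h1⟩, h2, rfl⟩⟩
  rw [← Finset.card_map Fin.valEmbedding, this]
  clear this
  induction k with
  | zero => simp
  | succ k ih =>
    rw [mul_add, mul_one, Finset.range_eq_Ico,
      ← Finset.Ico_union_Ico_eq_Ico (Nat.zero_le (g * k)) (Nat.le_add_right _ _),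
      Finset.filter_union, Finset.card_union_of_disjoint, ← Finset.range_eq_Ico, ih]
    · simp only [Nat.coprime_comm (m := g)]
      rw [Nat.filter_coprime_Ico_eq_totient]
      ring
    · exact Finset.disjoint_filter_filter (Finset.Ico_disjoint_Ico_consecutive _ _ _)

lemma sum_divisors_mul_of_coprime {m n : ℕ} (hmn : m.Coprime n) (h : ℕ → ℕ → ℕ)
    (hh : ∀ e₁ f₁ e₂ f₂ : ℕ, e₁ * f₁ = m → e₂ * f₂ = n →
      h (e₁ * e₂) (f₁ * f₂) = h e₁ f₁ * h e₂ f₂) :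
    ∑ e ∈ (m * n).divisors, h e (m * n / e)
      = (∑ e ∈ m.divisors, h e (m / e)) * ∑ e ∈ n.divisors, h e (n / e) := by
  rw [hmn.divisors_mul, Finset.sum_map, Finset.sum_mul_sum, ← Finset.sum_product']
  refine (Finset.sum_attach (m.divisors ×ˢ n.divisors)
    (fun p => h (p.1 * p.2) (m * n / (p.1 * p.2)))).trans ?_
  refine Finset.sum_congr rfl fun p hp => ?_
  obtain ⟨h1, h2⟩ := Finset.mem_product.mp hp
  have d1 := Nat.dvd_of_mem_divisors h1
  have d2 := Nat.dvd_of_mem_divisors h2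
  rw [Nat.mul_div_mul_comm d1 d2]
  exact hh _ _ _ _ (Nat.mul_div_cancel' d1) (Nat.mul_div_cancel' d2)

/-- The count of rows with a given gcd. -/
def rowCount (e f : ℕ) : ℕ := f / Nat.gcd e f * Nat.totient (Nat.gcd e f)

lemma rowCount_mul {m n e₁ f₁ e₂ f₂ : ℕ} (hmn : m.Coprime n) (h1 : e₁ * f₁ = m)
    (h2 : e₂ * f₂ = n) : rowCount (e₁ * e₂) (f₁ * f₂) = rowCount e₁ f₁ * rowCount e₂ f₂ := by
  subst h1 h2
  obtain ⟨⟨hee, hef⟩, ⟨hfe, hff⟩⟩ :
      (Nat.Coprime e₁ e₂ ∧ Nat.Coprime e₁ f₂) ∧ (Nat.Coprime f₁ e₂ ∧ Nat.Coprime f₁ f₂) := by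
    rw [Nat.coprime_mul_iff_left, Nat.coprime_mul_iff_right, Nat.coprime_mul_iff_right] at hmn
    exact hmn
  have hg : Nat.gcd (e₁ * e₂) (f₁ * f₂) = Nat.gcd e₁ f₁ * Nat.gcd e₂ f₂ := by
    rw [Nat.Coprime.gcd_mul (e₁ * e₂) hff, Nat.Coprime.gcd_mul_right_cancel e₁ hfe.symm,
      Nat.Coprime.gcd_mul_left_cancel e₂ hef]
  rw [rowCount, hg, Nat.totient_mul ((hee.coprime_dvd_left (Nat.gcd_dvd_left _ _)).coprime_dvd_right
    (Nat.gcd_dvd_left _ _)), Nat.mul_div_mul_comm (Nat.gcd_dvd_right _ _) (Nat.gcd_dvd_right _ _),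
    rowCount, rowCount]
  ring

/-- The squarefree summand of `dedekindPsi`. -/
def psiTerm (e f : ℕ) : ℕ := if Squarefree e then f else 0

lemma psi_eq_sum (N : ℕ) :
    ModularCurve.dedekindPsi N = ∑ e ∈ N.divisors, psiTerm e (N / e) := by
  rw [ModularCurve.dedekindPsi, Finset.sum_filter]
  rfl

lemma sum_rowCount_eq_psi (N : ℕ) :
    ∑ e ∈ N.divisors, rowCount e (N / e) = ModularCurve.dedekindPsi N := by
  rw [psi_eq_sum]
  induction N using Nat.recOnPrimeCoprime with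
  | zero => simp
  | coprime a b _ _ hab ha hb =>
    rw [sum_divisors_mul_of_coprime hab rowCount (fun _ _ _ _ h1 h2 => rowCount_mul hab h1 h2),
      sum_divisors_mul_of_coprime hab psiTerm ?_, ha, hb]
    intro e₁ f₁ e₂ f₂ h1 h2
    subst h1 h2
    have hee : Nat.Coprime e₁ e₂ :=
      (hab.coprime_dvd_left (dvd_mul_right _ _)).coprime_dvd_right (dvd_mul_right _ _)
    simp only [psiTerm, Nat.squarefree_mul hee]
    split_ifs <;> simp_all
  | prime_pow p n hp =>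
    rw [Nat.sum_divisors_prime_pow hp, Nat.sum_divisors_prime_pow hp]
    rcases n with _ | n
    · simp [rowCount, psiTerm]
    have hps : ∀ i, i ∈ Finset.range (n + 1 + 1) →
        psiTerm (p ^ i) (p ^ (n + 1) / p ^ i) = if i ≤ 1 then p ^ (n + 1 - i) else 0 := by
      intro i hi
      rw [Finset.mem_range] at hi
      rw [Nat.pow_div (by omega) hp.pos, psiTerm]
      rcases i with _ | _ | i
      · simp
      · simp [hp.prime.squarefree]
      · have : ¬Squarefree (p ^ (i + 1 + 1)) := fun h => hp.prime.not_isUnit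
          (h p ⟨p ^ i, by ring⟩)
        simp [this]
    rw [Finset.sum_congr rfl hps]
    have hrhs : ∑ i ∈ Finset.range (n + 1 + 1), (if i ≤ 1 then p ^ (n + 1 - i) else 0)
        = p ^ (n + 1) + p ^ n := by
      rw [Finset.sum_range_succ', Finset.sum_range_succ']
      simp [add_comm]
    rw [hrhs, Finset.sum_range_succ]
    have hlast : rowCount (p ^ (n + 1)) (p ^ (n + 1) / p ^ (n + 1)) = 1 := by
      simp [rowCount, Nat.div_self (pow_pos hp.pos _)]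
    rw [hlast]
    have key : ∀ i, i ≤ n → ∑ j ∈ Finset.range (i + 1),
        rowCount (p ^ j) (p ^ (n + 1) / p ^ j) + p ^ (n - i) = p ^ (n + 1) + p ^ n := by
      intro i
      induction i with
      | zero => intro _; simp [rowCount]
      | succ i ih =>
        intro hi
        rw [Finset.sum_range_succ, ← ih (by omega)]
        obtain ⟨a, ha⟩ : ∃ a, n = i + 1 + a := ⟨n - (i + 1), by omega⟩
        subst ha
        rw [Nat.pow_div (by omega) hp.pos, show i + 1 + a + 1 - (i + 1) = a + 1 by omega,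
          show i + 1 + a - (i + 1) = a by omega, show i + 1 + a - i = a + 1 by omega]
        obtain ⟨b, hg, hb⟩ : ∃ b, Nat.gcd (p ^ (i + 1)) (p ^ (a + 1)) = p ^ (b + 1) ∧ b ≤ a := by
          rcases le_total i a with h | h
          · exact ⟨i, Nat.gcd_eq_left (pow_dvd_pow p (by omega)), h⟩
          · exact ⟨a, Nat.gcd_eq_right (pow_dvd_pow p (by omega)), le_rfl⟩
        obtain ⟨c, rfl⟩ : ∃ c, a = b + c := ⟨a - b, by omega⟩
        obtain ⟨q, rfl⟩ : ∃ q, p = q + 1 := ⟨p - 1, by have := hp.pos; omega⟩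
        rw [rowCount, hg, Nat.totient_prime_pow_succ hp,
          Nat.pow_div (by omega) hp.pos, show b + c + 1 - (b + 1) = c by omega,
          Nat.add_sub_cancel]
        ring
    have := key n le_rfl
    simpa using this

theorem card_coset [NeZero N] : Nat.card (Coset N) = ModularCurve.dedekindPsi N := by
  rw [← Nat.card_congr (Equiv.ofBijective _
    ⟨rowMap_injective (N := N), rowMap_surjective⟩), ← sum_rowCount_eq_psi, rowIndex,
    Nat.card_sigma, ← Finset.sum_coe_sort N.divisors]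
  exact Finset.sum_congr rfl fun e _ => card_fin_coprime _ _ (Nat.gcd_dvd_right _ _)

theorem card_cuspSet [NeZero N] : Nat.card (CuspSet N) = ModularCurve.cuspCount N := by
  rw [← Nat.card_congr (Equiv.ofBijective _
    ⟨cuspMap_injective (N := N), cuspMap_surjective⟩), ModularCurve.cuspCount, cuspIndex,
    Nat.card_sigma, ← Finset.sum_coe_sort N.divisors]
  refine Finset.sum_congr rfl fun e _ => ?_
  rw [card_fin_coprime _ _ dvd_rfl, Nat.div_self
    (Nat.gcd_pos_of_pos_left _ (Nat.pos_of_mem_divisors e.2)), one_mul]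

theorem index_Gamma0 [NeZero N] : (Gamma0 N).index = ModularCurve.dedekindPsi N :=
  card_coset

end Counting

end Fermat.Agent.Period
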