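import Fermat.Agent.Period.CuspDet

/-!
# The lower bound for weight two cusp forms

Main result: `cuspForm_two_finrank_ge`.
-/

set_option autoImplicit false

noncomputable section

namespace Fermat.Agent.Period

open UpperHalfPlane CongruenceSubgroup ModularGroup EisensteinSeries ModularForm Filter Topology
open scoped MatrixGroups ModularForm Real Manifold

variable {N : ℕ} [NeZero N]

lemma smul_inv_eq_self {α : Type*} [MulAction SL(2, ℤ) α] {σ : SL(2, ℤ)} {x : α} (h : σ • x = x) :
    σ⁻¹ • x = x := inv_smul_eq_iff.mpr h.symm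

omit [NeZero N] in
lemma fixCard_inv (σ : SL(2, ℤ)) : fixCard N σ⁻¹ = fixCard N σ :=
  Nat.card_congr (Equiv.subtypeEquivRight fun q =>
    ⟨fun h => by simpa using smul_inv_eq_self h, smul_inv_eq_self⟩)

lemma sum_sign :
    ∑ i : GenIdx N, (if Even (genWt i) then (1 : ℤ) else -1) = fixCard N S := by
  have hfix : (S : SL(2, ℤ)) • UpperHalfPlane.I = UpperHalfPlane.I := by
    rw [modular_S_smul]
    apply UpperHalfPlane.ext
    simp [Complex.inv_I]
  have h := sum_fixed_eq (N := N) hfix
  rw [denom_S, UpperHalfPlane.coe_I, Complex.I_sq] at h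
  have h' : ((∑ i : GenIdx N, (if Even (genWt i) then (1 : ℤ) else -1) : ℤ) : ℂ)
      = ((fixCard N S : ℤ) : ℂ) := by
    push_cast
    rw [← h]
    refine Finset.sum_congr rfl fun i _ => ?_
    rw [inv_neg, inv_one]
    by_cases he : Even (genWt i)
    · rw [if_pos he, he.neg_one_pow]
    · rw [if_neg he, (Nat.not_even_iff_odd.mp he).neg_one_pow]
  exact_mod_cast h'

omit [NeZero N] in
lemma rho_pow_mod (n : ℕ) : (ρ : ℂ) ^ n = (ρ : ℂ) ^ (n % 3) := by
  conv_lhs => rw [← Nat.div_add_mod n 3, pow_add, pow_mul, ρ_cube, one_pow, one_mul]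

lemma sum_cubic :
    (∑ i : GenIdx N, (if genWt i % 3 = 0 then (2 : ℤ) else -1) = 2 * (fixCard N ellU : ℤ)) ∧
    ∑ i : GenIdx N, (if genWt i % 3 = 0 then (0 : ℤ) else if genWt i % 3 = 1 then 1 else -1)
      = 0 := by
  have hfix : (ellU : SL(2, ℤ)) • ρ = ρ := ellU_smul_ρ
  have h3 := ρ_cube
  have h2 := ρ_sq
  have hρ0 : (ρ : ℂ) ≠ 0 := UpperHalfPlane.ne_zero _
  have hd : (denom (ellU : SL(2, ℤ)) ρ ^ 2)⁻¹ = (ρ : ℂ) ^ 2 := by
    rw [ModularGroup.denom_apply, coe_ellU]
    simp only [Matrix.of_apply, Matrix.cons_val', Matrix.cons_val_zero, Matrix.cons_val_one,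
      Matrix.cons_val_fin_one]
    push_cast
    refine inv_eq_of_mul_eq_one_right ?_
    linear_combination h3 + (ρ : ℂ) ^ 2 * h2
  have hd' : (denom (ellU⁻¹ : SL(2, ℤ)) ρ ^ 2)⁻¹ = (ρ : ℂ) := by
    rw [ModularGroup.denom_apply]
    simp [Matrix.SpecialLinearGroup.coe_inv, coe_ellU, Matrix.adjugate_fin_two]
    exact inv_eq_of_mul_eq_one_right (by linear_combination h3)
  have hA := sum_fixed_eq (N := N) hfix
  have hB := sum_fixed_eq (N := N) (smul_inv_eq_self hfix)
  rw [hd] at hA
  rw [hd', fixCard_inv] at hB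
  have hval : ∀ m : ℕ,
      ((ρ : ℂ) ^ 2) ^ m + (ρ : ℂ) ^ m = (((if m % 3 = 0 then (2 : ℤ) else -1) : ℤ) : ℂ) ∧
      (ρ : ℂ) ^ m - ((ρ : ℂ) ^ 2) ^ m
        = (((if m % 3 = 0 then (0 : ℤ) else if m % 3 = 1 then 1 else -1) : ℤ) : ℂ)
          * ((ρ : ℂ) - (ρ : ℂ) ^ 2) := by
    intro m
    rw [← pow_mul, rho_pow_mod (2 * m), rho_pow_mod m]
    rcases (by omega : m % 3 = 0 ∨ m % 3 = 1 ∨ m % 3 = 2) with e | e | e
    · rw [show 2 * m % 3 = 0 by omega, e]; norm_num
    · rw [show 2 * m % 3 = 2 by omega, e]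
      simp only [if_neg one_ne_zero, if_true]
      push_cast
      exact ⟨by linear_combination h2, by ring⟩
    · rw [show 2 * m % 3 = 1 by omega, e]
      norm_num
      linear_combination h2
  constructor
  · have h' : ((∑ i : GenIdx N, (if genWt i % 3 = 0 then (2 : ℤ) else -1) : ℤ) : ℂ)
        = ((2 * (fixCard N ellU : ℤ) : ℤ) : ℂ) := by
      rw [Int.cast_sum, ← Finset.sum_congr rfl fun i _ => (hval (genWt i)).1,
        Finset.sum_add_distrib, hA, hB]
      push_cast
      ring
    exact_mod_cast h'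
  · have hne : (ρ : ℂ) - (ρ : ℂ) ^ 2 ≠ 0 := by
      rw [show (ρ : ℂ) - (ρ : ℂ) ^ 2 = (ρ : ℂ) * (1 - ρ) by ring]
      refine mul_ne_zero hρ0 fun e => ?_
      exact UpperHalfPlane.ne_intCast ρ 1 (by simpa using (sub_eq_zero.mp e).symm)
    have h' : ((∑ i : GenIdx N,
        (if genWt i % 3 = 0 then (0 : ℤ) else if genWt i % 3 = 1 then 1 else -1) : ℤ) : ℂ)
        * ((ρ : ℂ) - (ρ : ℂ) ^ 2) = 0 := by
      rw [Int.cast_sum, Finset.sum_mul, ← Finset.sum_congr rfl fun i _ => (hval (genWt i)).2,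
        Finset.sum_sub_distrib, hA, hB, sub_self]
    exact_mod_cast (mul_eq_zero.mp h').resolve_right hne

/-- Lower bound for the number of generators of weight two. -/
lemma card_genWt_one_ge :
    7 * (Nat.card (Coset N) : ℤ) - 3 * fixCard N S - 4 * fixCard N ellU
        - 6 * ((Nat.card (Coset N) : ℤ) - Nat.card (CuspSet N))
      ≤ 12 * (Nat.card {i : GenIdx N // genWt i = 1} : ℤ) := by
  classical
  have hle : Nat.card (CuspSet N) ≤ Nat.card (Coset N) :=
    Nat.card_le_card_of_surjective _ toCusp_surjective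
  have hpt : ∀ m : ℕ, (7 : ℤ) - 3 * (if Even m then 1 else -1)
      - 2 * (if m % 3 = 0 then 2 else -1)
      + 2 * (if m % 3 = 0 then 0 else if m % 3 = 1 then 1 else -1) - 2 * (m : ℤ)
      ≤ 12 * (if m = 1 then 1 else 0) := by
    intro m
    simp only [Nat.even_iff]
    split_ifs <;> omega
  have hsum := Finset.sum_le_sum fun (i : GenIdx N) (_ : i ∈ Finset.univ) => hpt (genWt i)
  simp only [Finset.sum_sub_distrib, Finset.sum_add_distrib, ← Finset.mul_sum] at hsum
  rw [sum_sign, sum_cubic.1, sum_cubic.2, ← Nat.cast_sum, sum_genWt, Finset.sum_boole,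
    Finset.sum_const, Finset.card_univ, ← Nat.card_eq_fintype_card, card_genIdx,
    ← Fintype.card_subtype, ← Nat.card_eq_fintype_card] at hsum
  simp only [nsmul_eq_mul] at hsum
  push_cast [Nat.cast_sub hle] at hsum ⊢
  linarith

variable (N)

/-- A weight two form from a generator of half weight one. -/
def genTwo (i : {i : GenIdx N // genWt i = 1}) : evForms N 1 :=
  ⟨gen i.1, by have := gen_mem i.1; rwa [i.2] at this⟩

lemma linearIndependent_genTwo : LinearIndependent ℂ (genTwo N) := by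
  classical
  rw [linearIndependent_iff']
  intro s a hs i hi
  have h := gen_indep (K := 1) (s.map (Function.Embedding.subtype _))
    (fun j => fun _ => if hj : genWt j = 1 then a ⟨j, hj⟩ else 0) (fun j hj => by
      obtain ⟨j', -, rfl⟩ := Finset.mem_map.mp hj
      refine modFun_weight ?_ (const_mem_lev _)
      simp [j'.2]) (by
      have := congrArg Subtype.val hs
      rw [Submodule.coe_sum] at this
      rw [Finset.sum_map]
      refine Eq.trans (Finset.sum_congr rfl fun j _ => ?_) this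
      funext τ
      simp [genTwo, j.2]) i.1 (Finset.mem_map.mpr ⟨i, hi, rfl⟩)
  simpa [i.2] using congrFun h UpperHalfPlane.I

lemma span_genTwo : Submodule.span ℂ (Set.range (genTwo N)) = ⊤ := by
  classical
  rw [eq_top_iff]
  rintro ⟨f, hf⟩ -
  obtain ⟨s, P, hP, -, hsum⟩ := exists_sum_gen hf
  have hterm : ∀ i, P i * gen i = 0 ∨ ∃ h : genWt i = 1, ∃ c : ℂ, P i * gen i = c • gen i := by
    intro i
    rcases (by omega : genWt i = 1 ∨ genWt i = 0 ∨ 1 < genWt i) with e | e | e
    · obtain ⟨c, hc⟩ := lev_weight_zero (modFun_weight (by rw [e]; ring) (hP i))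
      exact Or.inr ⟨e, c, by rw [hc]; rfl⟩
    · exact Or.inl (by rw [lev_weight_two (modFun_weight (by rw [e]; ring) (hP i)), zero_mul])
    · exact Or.inl (by rw [modFun_eq_zero_of_neg (by omega) (hP i), zero_mul])
  have hmem : f ∈ (Submodule.span ℂ (Set.range (genTwo N))).map (evForms N 1).subtype := by
    rw [hsum]
    refine Submodule.sum_mem _ fun i _ => ?_
    rcases hterm i with e | ⟨h, c, e⟩
    · rw [e]; exact zero_mem _
    · rw [e]
      exact Submodule.smul_mem _ c ⟨genTwo N ⟨i, h⟩, Submodule.subset_span ⟨_, rfl⟩, rfl⟩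
  obtain ⟨g, hg, hgf⟩ := hmem
  have : g = ⟨f, hf⟩ := Subtype.ext hgf
  rwa [this] at hg

lemma finiteDimensional_evForms_one : FiniteDimensional ℂ (evForms N 1) :=
  Module.finite_def.mpr (span_genTwo N ▸ Submodule.fg_span (Set.finite_range _))

lemma finrank_evForms_one :
    Module.finrank ℂ (evForms N 1) = Nat.card {i : GenIdx N // genWt i = 1} := by
  classical
  rw [Module.finrank_eq_card_basis (Module.Basis.mk (linearIndependent_genTwo N)
    (span_genTwo N).ge), Nat.card_eq_fintype_card]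

variable {N}

omit [NeZero N] in
lemma slash_T_pow_periodic {k : ℤ} {f : ℍ → ℂ} (hf : f ∈ modFun (Gamma0 N) k) (q : Coset N) :
    Function.Periodic (branch k f q ∘ ofComplex) ((N : ℝ) : ℂ) := by
  have h : (branch k f q) ∣[k] (T ^ (N : ℤ)) = branch k f q := by
    rw [branch_slash hf, zpow_natCast, show ((T : SL(2, ℤ)) ^ N)⁻¹ • q = q from
      smul_inv_eq_self (T_pow_smul q)]
  simpa using periodic_comp_ofComplex_of_slash_T h

lemma exists_tendsto_branch {k : ℤ} {f : ℍ → ℂ} (hf : f ∈ modFun (Gamma0 N) k) (q : Coset N) :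
    ∃ L, Tendsto (branch k f q) atImInfty (𝓝 L) := by
  have hN : (0 : ℝ) < N := by exact_mod_cast Nat.pos_of_ne_zero (NeZero.ne N)
  have hd : MDifferentiable 𝓘(ℂ) 𝓘(ℂ) (branch k f q) := by
    rw [branch, ModularForm.SL_slash]; exact hf.1.slash _ _
  have han := analyticAt_cuspFunction_zero hN (slash_T_pow_periodic hf q) hd (hf.2.2 _)
  exact ⟨cuspFunction (N : ℝ) (branch k f q) 0,
    (han.continuousAt.tendsto.comp (qParam_tendsto_atImInfty hN)).congr fun τ =>
      eq_cuspFunction τ hN.ne' (slash_T_pow_periodic hf q)⟩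

variable (N)

/-- The constant term at a cusp of a weight two form. -/
def cuspValue : evForms N 1 →ₗ[ℂ] (CuspSet N → ℂ) where
  toFun f o := limUnder atImInfty (branch 2 (f : ℍ → ℂ) (cuspRep o))
  map_add' f g := funext fun o => by
    have hf := tendsto_nhds_limUnder (exists_tendsto_branch (k := 2) f.2 (cuspRep o))
    have hg := tendsto_nhds_limUnder (exists_tendsto_branch (k := 2) g.2 (cuspRep o))
    refine Tendsto.limUnder_eq ?_
    rw [Submodule.coe_add, branch, SlashAction.add_slash]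
    exact hf.add hg
  map_smul' c f := funext fun o => by
    have hf := tendsto_nhds_limUnder (exists_tendsto_branch (k := 2) f.2 (cuspRep o))
    refine Tendsto.limUnder_eq ?_
    rw [Submodule.coe_smul, branch, SL_smul_slash']
    exact hf.const_mul c

variable {N}

omit [NeZero N] in
lemma branch_T_pow_eq {k : ℤ} {f : ℍ → ℂ} (hf : f ∈ modFun (Gamma0 N) k) (j : ℕ) (q : Coset N)
    (τ : ℍ) : branch k f ((T : SL(2, ℤ)) ^ j • q) ((j : ℝ) +ᵥ τ) = branch k f q τ := by
  induction j generalizing τ with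
  | zero => simp
  | succ i hi =>
    rw [pow_succ', mul_smul, show (((i + 1 : ℕ) : ℝ) +ᵥ τ) = (1 : ℝ) +ᵥ ((i : ℝ) +ᵥ τ) by
      rw [vadd_vadd]; congr 1; push_cast; ring, branch_T_smul hf, hi]

lemma tendsto_branch_pair (f : evForms N 1) (x : CuspPair N) :
    Tendsto (branch 2 (f : ℍ → ℂ) (pairCoset x)) atImInfty (𝓝 (cuspValue N f x.1)) := by
  have hf := tendsto_nhds_limUnder (exists_tendsto_branch (k := 2) f.2 (cuspRep x.1))
  have hsh : Tendsto (fun τ : ℍ => (-((x.2 : ℕ) : ℝ)) +ᵥ τ) atImInfty atImInfty := by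
    rw [atImInfty, tendsto_comap_iff]
    have : UpperHalfPlane.im ∘ (fun τ : ℍ => (-((x.2 : ℕ) : ℝ)) +ᵥ τ) = UpperHalfPlane.im :=
      funext fun τ => vadd_im _ _
    rw [this]
    exact tendsto_comap
  refine (hf.comp hsh).congr fun τ => ?_
  have := branch_T_pow_eq (k := 2) f.2 (x.2 : ℕ) (cuspRep x.1) ((-((x.2 : ℕ) : ℝ)) +ᵥ τ)
  rw [Function.comp_apply, ← this]
  simp [pairCoset]

lemma sum_width_cuspValue (f : evForms N 1) :
    ∑ o : CuspSet N, (width o : ℂ) * cuspValue N f o = 0 := by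
  classical
  set g : ℍ → ℂ := ∑ x : CuspPair N, branch 2 (f : ℍ → ℂ) (pairCoset x) with hg
  have hg0 : g ∈ lev 2 := by
    refine ⟨?_, fun σ _ => ?_, fun σ => ?_⟩
    · rw [UpperHalfPlane.mdifferentiable_iff]
      intro z hz
      refine DifferentiableAt.differentiableWithinAt ?_
      simp only [hg, Function.comp_def, Finset.sum_apply]
      refine DifferentiableAt.fun_sum fun x _ => ?_
      have hb : MDifferentiable 𝓘(ℂ) 𝓘(ℂ) (branch 2 (f : ℍ → ℂ) (pairCoset x)) := by
        rw [branch, ModularForm.SL_slash]; exact f.2.1.slash _ _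
      exact UpperHalfPlane.mdifferentiableAt_iff.mp (hb ⟨z, hz⟩)
    · rw [hg, SlashAction.sum_slash, ← Equiv.sum_comp (pairPerm (N := N) σ⁻¹)
        (fun x => branch 2 (f : ℍ → ℂ) (pairCoset x))]
      exact Finset.sum_congr rfl fun x _ => by rw [branch_slash (k := 2) f.2, pairCoset_pairPerm]
    · rw [hg, SlashAction.sum_slash]
      refine Finset.sum_induction _ (fun t => IsBoundedAtImInfty t) (fun _ _ h1 h2 => h1.add h2)
        (Filter.const_boundedAtFilter _ (0 : ℂ)) fun x _ => ?_
      rw [branch_slash (k := 2) f.2]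
      exact f.2.2.2 _
  have h1 : Tendsto g atImInfty (𝓝 (∑ x : CuspPair N, cuspValue N f x.1)) := by
    rw [hg]
    have := tendsto_finsetSum Finset.univ fun x (_ : x ∈ Finset.univ) => tendsto_branch_pair f x
    simpa [Finset.sum_apply, ← funext_iff, Finset.sum_fn] using this
  rw [lev_weight_two hg0] at h1
  have h2 := tendsto_nhds_unique h1 (show Tendsto (0 : ℍ → ℂ) atImInfty (𝓝 0) from tendsto_const_nhds)
  rw [Fintype.sum_sigma] at h2
  simpa using h2

variable (N)

lemma finrank_range_cuspValue :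
    Module.finrank ℂ (LinearMap.range (cuspValue N)) + 1 ≤ Nat.card (CuspSet N) := by
  classical
  let lam : (CuspSet N → ℂ) →ₗ[ℂ] ℂ := ∑ o : CuspSet N, (width o : ℂ) • LinearMap.proj o
  have hlam : ∀ a, lam a = ∑ o : CuspSet N, (width o : ℂ) * a o := fun a => by simp [lam]
  have hle : LinearMap.range (cuspValue N) ≤ LinearMap.ker lam := by
    rintro _ ⟨f, rfl⟩
    rw [LinearMap.mem_ker, hlam]
    exact sum_width_cuspValue f
  have h1 := LinearMap.finrank_range_add_finrank_ker lam
  have h2 : 0 < Module.finrank ℂ (LinearMap.range lam) := by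
    refine Nat.pos_of_ne_zero fun h0 => ?_
    have h : LinearMap.range lam = ⊥ := Submodule.finrank_eq_zero.mp h0
    have : lam = 0 := LinearMap.range_eq_bot.mp h
    have h3 := LinearMap.congr_fun this (Pi.single (toCusp (baseCoset N)) 1)
    simp [hlam, Pi.single_apply, (width_pos (toCusp (baseCoset N))).ne'] at h3
  have h3 := Submodule.finrank_mono hle
  rw [Module.finrank_fintype_fun_eq_card, ← Nat.card_eq_fintype_card] at h1
  omega

/-- A form with vanishing constant terms as a cusp form. -/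
def toCuspForm : LinearMap.ker (cuspValue N) →ₗ[ℂ] CuspForm (Gamma0 N) 2 where
  toFun f :=
    { toFun := ((f : evForms N 1) : ℍ → ℂ)
      slash_action_eq' := fun A hA => by
        obtain ⟨γ, hγ, rfl⟩ := Subgroup.mem_map.mp hA
        exact (f : evForms N 1).2.2.1 γ hγ
      holo' := (f : evForms N 1).2.1
      zero_at_cusps' := fun hc => by
        rw [Subgroup.IsArithmetic.isCusp_iff_isCusp_SL2Z] at hc
        rw [OnePoint.isZeroAt_iff_forall_SL2Z hc]
        intro γ _
        obtain ⟨x, hx⟩ := pairCoset_bijective.2 (((γ⁻¹ : SL(2, ℤ))) : Coset N)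
        rw [slash_eq_branch (k := 2) (f : evForms N 1).2, ← hx]
        have := tendsto_branch_pair (f : evForms N 1) x
        rw [LinearMap.mem_ker.mp f.2] at this
        exact this }
  map_add' _ _ := rfl
  map_smul' _ _ := rfl

lemma toCuspForm_injective : Function.Injective (toCuspForm N) := fun _ _ h =>
  Subtype.ext (Subtype.ext (congrArg DFunLike.coe h))

/-- Cusp forms as elements of `evForms`. -/
def ofCuspForm : CuspForm (Gamma0 N) 2 →ₗ[ℂ] evForms N 1 where
  toFun f := ⟨(f : ℍ → ℂ), modFun_weight (by norm_num) (show (f : ℍ → ℂ) ∈ modFun (Gamma0 N) 2 from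
    ⟨CuspFormClass.holo f, fun γ hγ => slash_Gamma0 f hγ,
      fun δ => (CuspFormClass.zero_at_infty_slash f δ).isBoundedAtImInfty⟩)⟩
  map_add' _ _ := rfl
  map_smul' _ _ := rfl

lemma finiteDimensional_cuspForm : FiniteDimensional ℂ (CuspForm (Gamma0 N) 2) := by
  have := finiteDimensional_evForms_one N
  refine FiniteDimensional.of_injective (ofCuspForm N) fun f g h => ?_
  exact DFunLike.coe_injective (congrArg Subtype.val h)

/-- The lower bound `dim S₂(Γ₀(N)) ≥ g`. -/
theorem cuspForm_two_finrank_ge :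
    (Nat.card (Coset N) : ℤ) - 3 * fixCard N S - 4 * fixCard N ellU
        - 6 * Nat.card (CuspSet N) + 12
      ≤ 12 * (Module.finrank ℂ (CuspForm (Gamma0 N) 2) : ℤ) := by
  have := finiteDimensional_evForms_one N
  have := finiteDimensional_cuspForm N
  have h1 := LinearMap.finrank_range_add_finrank_ker (cuspValue N)
  have h2 := LinearMap.finrank_le_finrank_of_injective (toCuspForm_injective N)
  have h3 := finrank_range_cuspValue N
  have h4 := card_genWt_one_ge (N := N)
  rw [finrank_evForms_one] at h1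
  omega

end Fermat.Agent.Period
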