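import Fermat.Agent.Period.MaxPrinciple
import Fermat.Agent.Period.Cocycle
import Fermat.Agent.Period.CosetCount
import Fermat.Agent.Period.LowerBound

/-!
# Eichler–Shimura in weight two and the dimension of `S₂(Γ₀(N))`

Main results: `finrank_cuspForm_two` and `range_periodHomPair`.
-/

set_option autoImplicit false

noncomputable section

namespace Fermat.Agent.Period

open CongruenceSubgroup ModularGroup ModularCurve
open scoped MatrixGroups

variable (N : ℕ) [NeZero N]

lemma two_mul_finrank_le :
    2 * Module.finrank ℂ (CuspForm (Gamma0 N) 2)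
      ≤ Module.finrank ℂ (Period.parabolicHoms ℂ (Gamma0 N) ℂ) := by
  have := finiteDimensional_cuspForm N
  have := parabolicHoms_finiteDimensional (N := N)
  have h1 := LinearMap.finrank_range_of_inj (periodHomPair_injective (N := N))
  have h2 := Submodule.finrank_mono (range_periodHomPair_le (N := N))
  rw [Module.finrank_prod] at h1
  omega

/-- `12 dim S₂ = μ - 3 ν₂ - 4 ν₃ - 6 c + 12`. -/
theorem twelve_mul_finrank_cuspForm_two :
    12 * (Module.finrank ℂ (CuspForm (Gamma0 N) 2) : ℤ) = (dedekindPsi N : ℤ) - 3 * nuTwo N
      - 4 * nuThree N - 6 * cuspCount N + 12 := by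
  rw [← card_coset (N := N), ← fixCard_S (N := N), ← fixCard_ellU (N := N),
    ← card_cuspSet (N := N)]
  have h1 := two_mul_finrank_le N
  have h2 := parabolicHoms_finrank_le (N := N)
  have h3 := cuspForm_two_finrank_ge N
  omega

theorem finrank_cuspForm_two :
    (Module.finrank ℂ (CuspForm (Gamma0 N) 2) : ℚ) = genusFormula N := by
  have h : (12 : ℚ) * (Module.finrank ℂ (CuspForm (Gamma0 N) 2) : ℚ) = (dedekindPsi N : ℚ)
      - 3 * nuTwo N - 4 * nuThree N - 6 * cuspCount N + 12 := by
    exact_mod_cast twelve_mul_finrank_cuspForm_two N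
  rw [genusFormula]
  linarith

/-- `dim parabolicHoms = 2 dim S₂`. -/
theorem finrank_parabolicHoms :
    Module.finrank ℂ (Period.parabolicHoms ℂ (Gamma0 N) ℂ)
      = 2 * Module.finrank ℂ (CuspForm (Gamma0 N) 2) := by
  have h1 := two_mul_finrank_le N
  have h2 := parabolicHoms_finrank_le (N := N)
  have h3 := cuspForm_two_finrank_ge N
  omega

theorem range_periodHomPair :
    LinearMap.range (periodHomPair N) = Period.parabolicHoms ℂ (Gamma0 N) ℂ := by
  have := finiteDimensional_cuspForm N
  have := parabolicHoms_finiteDimensional (N := N)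
  refine Submodule.eq_of_le_of_finrank_le range_periodHomPair_le ?_
  rw [LinearMap.finrank_range_of_inj (periodHomPair_injective (N := N)), Module.finrank_prod,
    finrank_parabolicHoms]
  omega

end Fermat.Agent.Period
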