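import Mathlib.NumberTheory.ModularForms.LevelOne.GradedRing
import Mathlib.NumberTheory.ModularForms.LevelOne.DimensionFormula
import Mathlib.NumberTheory.ModularForms.Derivative
import Mathlib.NumberTheory.ModularForms.EisensteinSeries.E2.Summable
import Mathlib.NumberTheory.ModularForms.EisensteinSeries.E2.MDifferentiable

/-!
# Ramanujan identities for E₄, E₆ and basic facts on zeros

Main results: `serre_E4`, `serre_E6`, `E4_cube_sub_E6_sq`, `tendsto_E4`, `tendsto_E6`, `tendsto_E2`,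
`D_E4`, `D_E6`, `not_common_zero`, `hasDerivAt_jFun`.
-/

set_option autoImplicit false

noncomputable section

namespace Fermat.Agent.Period

open UpperHalfPlane Filter Topology ModularGroup EisensteinSeries ModularForm
open scoped MatrixGroups ModularForm Real Manifold Derivative

local notation "Δ" => ModularForm.discriminant

lemma tendsto_atImInfty_of_coeff_zero {k : ℤ} (f : ModularForm 𝒮ℒ k) :
    Tendsto (f : ℍ → ℂ) atImInfty (𝓝 ((qExpansion 1 (f : ℍ → ℂ)).coeff 0)) := by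
  have hper := SlashInvariantFormClass.periodic_comp_ofComplex (h := (1 : ℝ)) f
    one_mem_strictPeriods_SL
  have han := ModularFormClass.analyticAt_cuspFunction_zero f one_pos one_mem_strictPeriods_SL
  have h : cuspFunction 1 (f : ℍ → ℂ) 0 = (qExpansion 1 (f : ℍ → ℂ)).coeff 0 := by
    simp [qExpansion_coeff]
  rw [← h]
  refine (han.continuousAt.tendsto.comp (qParam_tendsto_atImInfty one_pos)).congr fun τ => ?_
  exact eq_cuspFunction τ one_ne_zero hper

lemma tendsto_E4 : Tendsto (E₄ : ℍ → ℂ) atImInfty (𝓝 1) := by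
  simpa [E_qExpansion_coeff_zero _ ⟨2, rfl⟩, -PowerSeries.coeff_zero_eq_constantCoeff]
    using tendsto_atImInfty_of_coeff_zero E₄

lemma tendsto_E6 : Tendsto (E₆ : ℍ → ℂ) atImInfty (𝓝 1) := by
  simpa [E_qExpansion_coeff_zero _ ⟨3, rfl⟩, -PowerSeries.coeff_zero_eq_constantCoeff]
    using tendsto_atImInfty_of_coeff_zero E₆

lemma E2_periodic : Function.Periodic (E2 ∘ ofComplex) ((1 : ℝ) : ℂ) := by
  intro w
  by_cases hw : 0 < w.im
  · have hw' : 0 < (w + ((1 : ℝ) : ℂ)).im := by simpa using hw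
    simp only [Function.comp_apply]
    rw [ofComplex_apply_of_im_pos hw', ofComplex_apply_of_im_pos hw]
    have h1 := hasSum_qExpansion_E2 (z := ⟨_, hw'⟩)
    have h2 := hasSum_qExpansion_E2 (z := ⟨_, hw⟩)
    have he : Complex.exp (2 * π * Complex.I * (w + ((1 : ℝ) : ℂ)))
        = Complex.exp (2 * π * Complex.I * w) := by
      simp [mul_add, Complex.exp_add]
    simp only [he] at h1
    exact h1.unique h2
  · have hw' : (w + ((1 : ℝ) : ℂ)).im ≤ 0 := by simpa using hw
    simp only [Function.comp_apply]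
    rw [ofComplex_apply_eq_of_im_nonpos hw' (le_of_not_gt hw)]

lemma tendsto_E2 : Tendsto E2 atImInfty (𝓝 1) := by
  have han := analyticAt_cuspFunction_zero one_pos E2_periodic E2_mdifferentiable
    isBoundedAtImInfty_E2
  have hps := hasFPowerSeriesOnBall_cuspFunction (f := E2)
    (c := fun m : ℕ => (if m = 0 then 1 else -24 * ArithmeticFunction.sigma 1 m : ℂ)) one_pos han
    (fun τ => by
      simpa only [Function.Periodic.qParam, Complex.ofReal_one, div_one]
        using hasSum_qExpansion_E2 (z := τ))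
  have h : cuspFunction 1 E2 0 = 1 := by
    have := hps.coeff_zero ![]
    simpa [FormalMultilinearSeries.ofScalars] using this.symm
  rw [← h]
  refine (han.continuousAt.tendsto.comp (qParam_tendsto_atImInfty one_pos)).congr fun τ => ?_
  exact eq_cuspFunction τ one_ne_zero E2_periodic

lemma tendsto_D {k : ℤ} (f : ModularForm 𝒮ℒ k) :
    Tendsto (D (f : ℍ → ℂ)) atImInfty (𝓝 0) := by
  set G := cuspFunction 1 (f : ℍ → ℂ) with hG
  have han : AnalyticAt ℂ G 0 :=
    ModularFormClass.analyticAt_cuspFunction_zero f one_pos one_mem_strictPeriods_SL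
  have hD : ∀ τ : ℍ, D (f : ℍ → ℂ) τ
      = deriv G (Function.Periodic.qParam 1 τ) * Function.Periodic.qParam 1 τ := by
    intro τ
    have hq : HasDerivAt (Function.Periodic.qParam 1)
        (Function.Periodic.qParam 1 τ * (2 * π * Complex.I)) (τ : ℂ) := by
      have hqe : Function.Periodic.qParam 1 = fun x : ℂ => Complex.exp (2 * π * Complex.I * x) :=
        funext fun x => by simp [Function.Periodic.qParam]
      rw [hqe]
      simpa only [id_eq, mul_one] using
        ((hasDerivAt_id (τ : ℂ)).const_mul (2 * π * Complex.I)).cexp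
    have hGd : DifferentiableAt ℂ G (Function.Periodic.qParam 1 τ) :=
      ModularFormClass.differentiableAt_cuspFunction f one_pos one_mem_strictPeriods_SL
        (Function.Periodic.norm_qParam_lt_one one_pos τ.im_pos)
    have hev : ((f : ℍ → ℂ) ∘ ofComplex) =ᶠ[𝓝 (τ : ℂ)] G ∘ Function.Periodic.qParam 1 := by
      filter_upwards [isOpen_upperHalfPlaneSet.mem_nhds τ.im_pos] with z hz
      simp only [Function.comp_apply, ofComplex_apply_of_im_pos hz]
      exact (SlashInvariantFormClass.eq_cuspFunction f ⟨z, hz⟩ one_mem_strictPeriods_SL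
        one_ne_zero).symm
    have h := (hGd.hasDerivAt.comp (τ : ℂ) hq).congr_of_eventuallyEq hev
    rw [Derivative.normalizedDerivOfComplex, h.deriv]
    have : (2 * π * Complex.I : ℂ) ≠ 0 := Complex.two_pi_I_ne_zero
    field_simp
  rw [funext hD]
  have h1 : Tendsto (fun τ : ℍ => deriv G (Function.Periodic.qParam 1 τ)) atImInfty
      (𝓝 (deriv G 0)) := han.deriv.continuousAt.tendsto.comp (qParam_tendsto_atImInfty one_pos)
  simpa using h1.mul (qParam_tendsto_atImInfty one_pos)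

lemma slash_SL_levelOne {k : ℤ} (f : ModularForm 𝒮ℒ k) (γ : SL(2, ℤ)) :
    (f : ℍ → ℂ) ∣[k] γ = f := by
  rw [ModularForm.SL_slash]
  exact SlashInvariantFormClass.slash_action_eq f _ ⟨γ, rfl⟩

lemma tendsto_serre {k : ℤ} (f : ModularForm 𝒮ℒ k) {a : ℂ}
    (hf : Tendsto (f : ℍ → ℂ) atImInfty (𝓝 a)) :
    Tendsto (Derivative.serreDerivative k f) atImInfty (𝓝 (-((k : ℂ) / 12) * a)) := by
  have h := (tendsto_D f).sub (((tendsto_E2.const_mul ((k : ℂ) * 12⁻¹))).mul hf)
  rw [show -((k : ℂ) / 12) * a = 0 - (k : ℂ) * 12⁻¹ * 1 * a by ring]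
  exact h

/-- The Serre derivative as a modular form. -/
def serreForm {k : ℤ} (f : ModularForm 𝒮ℒ k) : ModularForm 𝒮ℒ (k + 2) where
  toFun := Derivative.serreDerivative k f
  slash_action_eq' A hA := by
    obtain ⟨A, rfl⟩ := hA
    show Derivative.serreDerivative k f ∣[k + 2] A = _
    exact Derivative.serreDerivative_slash_invariant (ModularFormClass.holo f)
      (slash_SL_levelOne f A)
  holo' := Derivative.serreDerivative_mdifferentiable _ (ModularFormClass.holo f)
  bdd_at_cusps' hc := by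
    rw [Subgroup.IsArithmetic.isCusp_iff_isCusp_SL2Z] at hc
    rw [OnePoint.isBoundedAt_iff_forall_SL2Z hc]
    intro γ _
    rw [Derivative.serreDerivative_slash_invariant (ModularFormClass.holo f)
      (slash_SL_levelOne f γ)]
    exact (tendsto_serre f (tendsto_atImInfty_of_coeff_zero f)).isBigO_one ℝ

lemma exists_const_mul {k : ℕ} (hk : Module.rank ℂ (ModularForm 𝒮ℒ (k : ℤ)) = 1)
    (E F : ModularForm 𝒮ℒ (k : ℤ)) (hE : E ≠ 0) : ∃ c : ℂ, ∀ z, F z = c * E z := by
  obtain ⟨c, hc⟩ := (finrank_eq_one_iff_of_nonzero' E hE).mp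
    (Module.rank_eq_one_iff_finrank_eq_one.mp hk) F
  exact ⟨c, fun z => by rw [← hc]; rfl⟩

lemma serre_eq_const_mul {k : ℤ} {n : ℕ} (f : ModularForm 𝒮ℒ k) (hkn : k + 2 = n)
    (hk : Module.rank ℂ (ModularForm 𝒮ℒ (n : ℤ)) = 1) (E : ModularForm 𝒮ℒ (n : ℤ))
    {a : ℂ} (hf : Tendsto (f : ℍ → ℂ) atImInfty (𝓝 a))
    (hE : Tendsto (E : ℍ → ℂ) atImInfty (𝓝 1)) (z : ℍ) :
    Derivative.serreDerivative k f z = -((k : ℂ) / 12) * a * E z := by
  have hE0 : E ≠ 0 := by
    intro h
    rw [h] at hE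
    exact zero_ne_one (tendsto_nhds_unique tendsto_const_nhds hE)
  obtain ⟨c, hc⟩ := exists_const_mul hk E (ModularForm.mcast hkn (serreForm f)) hE0
  have hc' : ∀ z, Derivative.serreDerivative k f z = c * E z := hc
  have h1 := tendsto_serre f hf
  rw [funext hc'] at h1
  have := tendsto_nhds_unique (hE.const_mul c) h1
  rw [hc' z, ← this, mul_one]

theorem serre_E4 (z : ℍ) : Derivative.serreDerivative 4 E₄ z = -(1 / 3 : ℂ) * E₆ z := by
  have h := serre_eq_const_mul (n := 6) E₄ (by norm_num)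
    levelOne_weight_six_rank_one E₆ tendsto_E4 tendsto_E6 z
  norm_num at h ⊢
  exact h

theorem serre_E6 (z : ℍ) : Derivative.serreDerivative 6 E₆ z = -(1 / 2 : ℂ) * E₄ z ^ 2 := by
  have hr : Module.rank ℂ (ModularForm 𝒮ℒ ((8 : ℕ) : ℤ)) = 1 := by
    rw [dimension_level_one 8 ⟨4, rfl⟩]
    norm_num [Nat.ModEq]
  have hE : Tendsto (ModularForm.mcast (by norm_num) (E₄.mul E₄) : ModularForm 𝒮ℒ ((8 : ℕ) : ℤ))
      atImInfty (𝓝 1) := by
    simpa using! tendsto_E4.mul tendsto_E4
  have h := serre_eq_const_mul (n := 8) E₆ (by norm_num) hr _ tendsto_E6 hE z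
  simp only [ModularForm.coe_mcast, ModularForm.coe_mul, Pi.mul_apply] at h
  norm_num at h ⊢
  rw [h]
  ring

lemma D_E4 (z : ℍ) : D (E₄ : ℍ → ℂ) z = (1 / 3 : ℂ) * (E2 z * E₄ z - E₆ z) := by
  have h := serre_E4 z
  simp only [Derivative.serreDerivative_apply] at h
  linear_combination h

lemma D_E6 (z : ℍ) : D (E₆ : ℍ → ℂ) z = (1 / 2 : ℂ) * (E2 z * E₆ z - E₄ z ^ 2) := by
  have h := serre_E6 z
  simp only [Derivative.serreDerivative_apply] at h
  linear_combination h

lemma E4_cube_sub_E6_sq (z : ℍ) : E₄ z ^ 3 - E₆ z ^ 2 = 1728 * Δ z := by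
  rw [discriminant_eq_E₄_cube_sub_E₆_sq]
  ring

lemma not_common_zero (z : ℍ) (h4 : E₄ z = 0) : E₆ z ≠ 0 := by
  intro h6
  have := E4_cube_sub_E6_sq z
  rw [h4, h6] at this
  simp [discriminant_ne_zero z] at this

lemma hasDerivAt_of_D {F : ℍ → ℂ} (hF : MDifferentiable 𝓘(ℂ) 𝓘(ℂ) F) (z : ℍ) :
    HasDerivAt (F ∘ ofComplex) (2 * π * Complex.I * D F z) (z : ℂ) := by
  refine (UpperHalfPlane.mdifferentiableAt_iff.mp (hF z)).hasDerivAt.congr_deriv ?_
  rw [Derivative.normalizedDerivOfComplex, mul_inv_cancel_left₀ Complex.two_pi_I_ne_zero]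

/-- The `j`-function. -/
def jFun (z : ℍ) : ℂ := E₄ z ^ 3 / Δ z

theorem hasDerivAt_jFun (z : ℍ) :
    HasDerivAt (jFun ∘ ofComplex) (-(2 * π * Complex.I) * (E₄ z ^ 2 * E₆ z) / Δ z) (z : ℂ) := by
  have h4 := hasDerivAt_of_D (ModularFormClass.holo E₄) z
  have h6 := hasDerivAt_of_D (ModularFormClass.holo E₆) z
  have heq : jFun ∘ ofComplex = fun w : ℂ => ((E₄ : ℍ → ℂ) ∘ ofComplex) w ^ 3 * 1728
      / (((E₄ : ℍ → ℂ) ∘ ofComplex) w ^ 3 - ((E₆ : ℍ → ℂ) ∘ ofComplex) w ^ 2) := by
    funext w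
    simp only [Function.comp_apply, jFun, E4_cube_sub_E6_sq]
    field_simp
  rw [heq]
  have hne : ((E₄ : ℍ → ℂ) ∘ ofComplex) (z : ℂ) ^ 3 - ((E₆ : ℍ → ℂ) ∘ ofComplex) (z : ℂ) ^ 2
      ≠ 0 := by
    simp [E4_cube_sub_E6_sq, discriminant_ne_zero]
  refine (((h4.pow 3).mul_const 1728).div ((h4.pow 3).sub (h6.pow 2)) hne).congr_deriv ?_
  simp only [Pi.pow_apply, Pi.sub_apply, Function.comp_apply, ofComplex_apply, D_E4, D_E6,
    E4_cube_sub_E6_sq]
  have := discriminant_ne_zero z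
  field_simp
  push_cast
  linear_combination (-6 * E2 z * E₄ z ^ 3) * E4_cube_sub_E6_sq z

end Fermat.Agent.Period
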