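import Fermat.Agent.Period.CuspEval
import Mathlib.LinearAlgebra.Matrix.NonsingularInverse
import Mathlib.LinearAlgebra.Matrix.ToLinearEquiv
import Mathlib.Analysis.Calculus.FDeriv.Mul

/-!
# The determinant of the evaluation matrix

Main results: `sum_genWt` (sum of the weights) and `sum_fixed_eq` (trace at a fixed point).
-/

set_option autoImplicit false

noncomputable section

namespace Fermat.Agent.Period

open UpperHalfPlane CongruenceSubgroup ModularGroup EisensteinSeries ModularForm Filter Topology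
open scoped MatrixGroups ModularForm Real Manifold

local notation "Δ" => ModularForm.discriminant

variable {N : ℕ} [NeZero N]

/-- The pairs biject with the cosets. -/
def pairEquiv : CuspPair N ≃ Coset N := Equiv.ofBijective pairCoset pairCoset_bijective

instance : Finite (CuspPair N) := Finite.of_equiv _ (pairEquiv (N := N)).symm

instance instFintypeCuspSet : Fintype (CuspSet N) := Fintype.ofFinite _

instance instDecEqCuspSet : DecidableEq (CuspSet N) := Classical.decEq _

instance instFintypeGenIdx : Fintype (GenIdx N) := Fintype.ofFinite _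

lemma nonempty_pair_gen : Nonempty (CuspPair N ≃ GenIdx N) := by
  refine ⟨pairEquiv.trans ?_⟩
  have : Fintype (Coset N) := Fintype.ofFinite _
  exact Fintype.equivOfCardEq (by
    rw [← Nat.card_eq_fintype_card, ← Nat.card_eq_fintype_card, card_genIdx])

/-- A labelling of the generators by pairs. -/
def genOf : CuspPair N ≃ GenIdx N := Classical.choice nonempty_pair_gen

/-- The evaluation matrix. -/
def evalMat (τ : ℍ) : Matrix (CuspPair N) (CuspPair N) ℂ :=
  Matrix.of fun a x => evalVec τ (genOf a) (pairCoset x)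

/-- The matrix of Fourier parts. -/
def partMat (τ : ℍ) : Matrix (CuspPair N) (CuspPair N) ℂ :=
  Matrix.of fun a x => cuspPart (2 * (genWt (genOf a) : ℤ)) (gen (genOf a)) x.1 x.2 τ

/-- The limit of `partMat`. -/
def limMat : Matrix (CuspPair N) (CuspPair N) ℂ := Matrix.of fun a x => cuspLim (genOf a) x

lemma det_evalMat_ne_zero (τ : ℍ) : (evalMat (N := N) τ).det ≠ 0 := by
  intro h
  obtain ⟨v, hv0, hv⟩ := Matrix.exists_vecMul_eq_zero_iff.mpr h
  apply hv0
  funext a
  have := eval_indep τ Finset.univ (fun i => v (genOf.symm i)) (fun q => by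
    obtain ⟨x, rfl⟩ := pairCoset_bijective.2 q
    have hx := congrFun hv x
    simp only [Matrix.vecMul, dotProduct, evalMat, Matrix.of_apply, Pi.zero_apply] at hx
    rw [← hx, ← Equiv.sum_comp genOf]
    simp) (genOf a) (Finset.mem_univ _)
  simpa using this

lemma det_limMat_ne_zero : (limMat (N := N)).det ≠ 0 := by
  intro h
  obtain ⟨v, hv0, hv⟩ := Matrix.exists_vecMul_eq_zero_iff.mpr h
  apply hv0
  funext a
  have := cuspLim_indep Finset.univ (fun i => v (genOf.symm i)) (fun x => by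
    have hx := congrFun hv x
    simp only [Matrix.vecMul, dotProduct, limMat, Matrix.of_apply, Pi.zero_apply] at hx
    rw [← hx, ← Equiv.sum_comp genOf]
    simp) (genOf a) (Finset.mem_univ _)
  simpa using this

/-- The permutation of pairs induced by `σ`. -/
def pairPerm (σ : SL(2, ℤ)) : Equiv.Perm (CuspPair N) :=
  pairEquiv.trans ((MulAction.toPerm σ).trans pairEquiv.symm)

lemma pairCoset_pairPerm (σ : SL(2, ℤ)) (x : CuspPair N) :
    pairCoset (pairPerm σ x) = σ • pairCoset x :=
  pairEquiv.apply_symm_apply _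

lemma evalMat_smul (σ : SL(2, ℤ)) (τ : ℍ) :
    evalMat (N := N) (σ • τ) = Matrix.diagonal (fun a => denom σ τ ^ (2 * genWt (genOf a)))
      * (evalMat τ).submatrix id (pairPerm σ⁻¹) := by
  ext a x
  simp only [evalMat, Matrix.of_apply, Matrix.diagonal_mul, Matrix.submatrix_apply, id]
  rw [pairCoset_pairPerm]
  exact evalVec_smul σ τ _ _

/-- The trace identity at a fixed point. -/
theorem sum_fixed_eq {σ : SL(2, ℤ)} {τ : ℍ} (h : σ • τ = τ) :
    ∑ i : GenIdx N, ((denom σ τ ^ 2)⁻¹) ^ genWt i = (fixCard N σ : ℂ) := by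
  classical
  set d : CuspPair N → ℂ := fun a => ((denom σ τ ^ 2)⁻¹) ^ genWt (genOf a) with hd
  set W := evalMat (N := N) τ with hW
  set P : Matrix (CuspPair N) (CuspPair N) ℂ :=
    Matrix.of fun x y => if x = pairPerm σ⁻¹ y then 1 else 0 with hP
  have hWP : W * P = Matrix.diagonal d * W := by
    ext a y
    rw [Matrix.diagonal_mul, Matrix.mul_apply]
    simp only [hP, Matrix.of_apply, mul_ite, mul_one, mul_zero, Finset.sum_ite_eq',
      Finset.mem_univ, if_true]
    simp only [hW, hd, evalMat, Matrix.of_apply, pairCoset_pairPerm]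
    have h1 := evalVec_smul σ τ (genOf a) (pairCoset y)
    rw [h] at h1
    conv_rhs => rw [h1]
    rw [← mul_assoc, pow_mul, ← mul_pow, inv_mul_cancel₀ (pow_ne_zero _ (denom_ne_zero _ _)),
      one_pow, one_mul]
  have hu : IsUnit W.det := isUnit_iff_ne_zero.mpr (det_evalMat_ne_zero τ)
  have htr : Matrix.trace (Matrix.diagonal d) = Matrix.trace P := by
    calc Matrix.trace (Matrix.diagonal d)
        = Matrix.trace (Matrix.diagonal d * W * W⁻¹) := by
          rw [Matrix.mul_assoc, Matrix.mul_nonsing_inv _ hu, Matrix.mul_one]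
      _ = Matrix.trace (W * P * W⁻¹) := by rw [hWP]
      _ = Matrix.trace (W⁻¹ * W * P) := by rw [Matrix.trace_mul_cycle]
      _ = Matrix.trace P := by rw [Matrix.nonsing_inv_mul _ hu, Matrix.one_mul]
  rw [Matrix.trace_diagonal, Matrix.trace] at htr
  rw [← Equiv.sum_comp genOf]
  refine htr.trans ?_
  simp only [hP, Matrix.diag_apply, Matrix.of_apply]
  rw [Finset.sum_boole, fixCard, ← Nat.card_congr (Equiv.subtypeEquiv (pairEquiv (N := N))
    (p := fun x => x = pairPerm σ⁻¹ x) (q := fun q => σ • q = q) fun x => ?_),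
    Nat.card_eq_fintype_card, Fintype.card_subtype]
  constructor
  · intro hx
    have h2 := congrArg pairCoset hx
    rw [pairCoset_pairPerm] at h2
    show σ • pairCoset x = pairCoset x
    conv_lhs => rw [h2]
    rw [smul_inv_smul]
  · intro hx
    change σ • pairCoset x = pairCoset x at hx
    apply pairCoset_bijective.1
    rw [pairCoset_pairPerm, eq_inv_smul_iff, hx]

/-- The diagonal factor. -/
def expVec (τ : ℍ) (x : CuspPair N) : ℂ :=
  expTwoPi (((x.2 : ℕ) : ℂ) * (τ : ℂ) / (width x.1 : ℕ))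

/-- The constant factor. -/
def rootMat : Matrix (CuspPair N) (CuspPair N) ℂ := Matrix.of fun x y =>
  if x.1 = y.1 then expTwoPi (-(((x.2 : ℕ) : ℂ) * ((y.2 : ℕ) : ℂ) / (width y.1 : ℕ))) else 0

lemma det_rootMat_ne_zero : (rootMat (N := N)).det ≠ 0 := by
  classical
  let Z : Matrix (CuspPair N) (CuspPair N) ℂ := Matrix.of fun y x =>
    if y.1 = x.1 then (width x.1 : ℂ)⁻¹
      * expTwoPi (((y.2 : ℕ) : ℂ) * ((x.2 : ℕ) : ℂ) / (width x.1 : ℕ)) else 0
  have h1 : rootMat * Z = 1 := by
    ext ⟨o, j⟩ ⟨o', j'⟩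
    simp only [Matrix.mul_apply, rootMat, Z, Matrix.of_apply, Fintype.sum_sigma]
    rw [Finset.sum_eq_single o (fun b _ hb => Finset.sum_eq_zero fun r _ => by
      rw [if_neg (Ne.symm hb), zero_mul]) (fun h => absurd (Finset.mem_univ o) h)]
    simp only [if_true]
    by_cases ho : o = o'
    · subst ho
      simp only [if_true]
      have hterm : ∀ r : Fin (width o),
          expTwoPi (-(((j : ℕ) : ℂ) * ((r : ℕ) : ℂ) / (width o : ℕ))) * ((width o : ℂ)⁻¹
            * expTwoPi (((r : ℕ) : ℂ) * ((j' : ℕ) : ℂ) / (width o : ℕ)))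
          = (width o : ℂ)⁻¹ * expTwoPi (((r : ℕ) : ℂ) * ((((j' : ℕ) : ℤ) - (j : ℕ) : ℤ) : ℂ) / (width o : ℕ)) := by
        intro r
        rw [mul_left_comm, ← expTwoPi_add]
        congr 2
        push_cast
        ring
      rw [Finset.sum_congr rfl fun r _ => hterm r, ← Finset.mul_sum,
        sum_expTwoPi (width_pos o) (by have := j.2; have := j'.2; omega)]
      by_cases hj : j = j'
      · subst hj
        simp [(width_pos o).ne']
      · have : ((j' : ℕ) : ℤ) - (j : ℕ) ≠ 0 := by
          intro e; exact hj (Fin.ext (by omega))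
        rw [if_neg this, mul_zero, Matrix.one_apply_ne (by simpa using hj)]
    · rw [Matrix.one_apply_ne (fun e => ho (congrArg Sigma.fst e))]
      exact Finset.sum_eq_zero fun r _ => by rw [if_neg ho, mul_zero]
  intro h
  have := congrArg Matrix.det h1
  rw [Matrix.det_mul, Matrix.det_one, h, zero_mul] at this
  exact zero_ne_one this

lemma evalMat_eq (τ : ℍ) :
    evalMat (N := N) τ = partMat τ * Matrix.diagonal (expVec τ) * rootMat := by
  classical
  ext a ⟨o, j⟩
  simp only [evalMat, Matrix.of_apply, Matrix.mul_apply, Matrix.diagonal_apply, mul_ite,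
    mul_zero, Finset.sum_ite_eq', Finset.mem_univ, if_true, partMat, rootMat, Fintype.sum_sigma]
  rw [Finset.sum_eq_single o (fun b _ hb => Finset.sum_eq_zero fun r _ => by
    rw [if_neg hb]) (fun h => absurd (Finset.mem_univ o) h)]
  simp only [if_true, evalVec]
  rw [branch_eq_sum_cuspPart]
  refine Finset.sum_congr rfl fun r _ => ?_
  rw [mul_assoc, expVec, ← expTwoPi_add]
  congr 2
  ring

lemma two_sum_fin_div (w : ℕ) (hw : 0 < w) :
    ∑ r : Fin w, 2 * ((r : ℕ) : ℂ) / (w : ℕ) = ((w - 1 : ℕ) : ℂ) := by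
  rw [Fin.sum_univ_eq_sum_range (fun r => 2 * (r : ℂ) / (w : ℕ)), ← Finset.sum_div,
    ← Finset.mul_sum, ← Nat.cast_sum,
    show (2 : ℂ) * ((∑ i ∈ Finset.range w, i : ℕ) : ℂ) = ((w * (w - 1) : ℕ) : ℂ) by
      rw [← Finset.sum_range_id_mul_two w]; push_cast; ring]
  rw [Nat.cast_mul, mul_div_cancel_left₀ _ (by exact_mod_cast hw.ne')]

lemma sum_width : ∑ o : CuspSet N, width o = Nat.card (Coset N) := by
  rw [← Nat.card_congr (pairEquiv (N := N)), Nat.card_sigma]
  simp

lemma sum_width_sub_one :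
    ∑ o : CuspSet N, (width o - 1) = Nat.card (Coset N) - Nat.card (CuspSet N) := by
  have h : ∑ o : CuspSet N, (width o - 1) + Nat.card (CuspSet N) = Nat.card (Coset N) := by
    rw [← sum_width, Nat.card_eq_fintype_card, Fintype.card_eq_sum_ones, ← Finset.sum_add_distrib]
    exact Finset.sum_congr rfl fun o _ => by have := width_pos o; omega
  omega

lemma prod_expVec_sq (τ : ℍ) :
    (∏ x : CuspPair N, expVec τ x) ^ 2
      = expTwoPi τ ^ (Nat.card (Coset N) - Nat.card (CuspSet N)) := by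
  simp only [expVec, expTwoPi, ← Complex.exp_sum, ← Complex.exp_nat_mul]
  congr 1
  rw [Fintype.sum_sigma, Finset.mul_sum]
  have h : ∀ o : CuspSet N, ((2 : ℕ) : ℂ) * ∑ r : Fin (width o),
      2 * (π : ℂ) * Complex.I * (((r : ℕ) : ℂ) * (τ : ℂ) / (width o : ℕ))
      = 2 * (π : ℂ) * Complex.I * (τ : ℂ) * ((width o - 1 : ℕ) : ℂ) := by
    intro o
    rw [← two_sum_fin_div _ (width_pos o), Finset.mul_sum, Finset.mul_sum]
    exact Finset.sum_congr rfl fun r _ => by push_cast; ring
  rw [Finset.sum_congr rfl fun o _ => h o, ← Finset.mul_sum, ← Nat.cast_sum, sum_width_sub_one]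
  ring

lemma tendsto_expTwoPi_div_discriminant :
    Tendsto (fun τ : ℍ => expTwoPi τ / Δ τ) atImInfty (𝓝 1) := by
  have h := tendsto_atImInfty_tprod_one_sub_eta_q_pow.inv₀ one_ne_zero
  rw [inv_one] at h
  refine h.congr fun τ => ?_
  rw [discriminant_eq_q_prod, ← expTwoPi_eq_qParam, ← div_div, div_self (expTwoPi_ne_zero _),
    one_div]

lemma mdifferentiable_det_evalMat :
    MDifferentiable 𝓘(ℂ) 𝓘(ℂ) (fun τ : ℍ => (evalMat (N := N) τ).det) := by
  classical
  rw [UpperHalfPlane.mdifferentiable_iff]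
  intro z hz
  refine DifferentiableAt.differentiableWithinAt ?_
  simp only [Function.comp_def, Matrix.det_apply']
  refine DifferentiableAt.fun_sum fun p _ => (DifferentiableAt.fun_finsetProd fun a _ => ?_).const_mul _
  have hb : MDifferentiable 𝓘(ℂ) 𝓘(ℂ)
      (fun τ : ℍ => evalMat (N := N) τ (p a) a) := by
    simp only [evalMat, Matrix.of_apply, evalVec, branch, ModularForm.SL_slash]
    exact (gen_mem (genOf (p a))).1.slash _ _
  exact UpperHalfPlane.mdifferentiableAt_iff.mp (hb ⟨z, hz⟩)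

lemma det_evalMat_sq_smul (σ : SL(2, ℤ)) (τ : ℍ) :
    (evalMat (N := N) (σ • τ)).det ^ 2
      = denom σ τ ^ (4 * ∑ i : GenIdx N, genWt i) * (evalMat (N := N) τ).det ^ 2 := by
  classical
  rw [evalMat_smul, Matrix.det_mul, Matrix.det_diagonal, Matrix.det_permute', Finset.prod_pow_eq_pow_sum,
    Equiv.sum_comp genOf (fun i => 2 * genWt i), ← Finset.mul_sum, mul_pow, mul_pow, ← pow_mul]
  have hs : (((Equiv.Perm.sign (pairPerm (N := N) σ⁻¹) : ℤˣ) : ℤ) : ℂ) ^ 2 = 1 := by
    rw [← Int.cast_pow, ← Units.val_pow_eq_pow_val, Int.units_sq]; simp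
  rw [hs, one_mul]
  congr 2
  ring

/-- The sum of the half weights of the generators. -/
theorem sum_genWt :
    (∑ i : GenIdx N, genWt i) = 3 * (Nat.card (Coset N) - Nat.card (CuspSet N)) := by
  classical
  set p := Nat.card (Coset N) - Nat.card (CuspSet N) with hp
  set S₀ := ∑ i : GenIdx N, genWt i with hS₀
  set F : ℍ → ℂ := fun τ => (evalMat (N := N) τ).det ^ 2 / Δ τ ^ p with hF
  set L := (limMat (N := N)).det ^ 2 * (rootMat (N := N)).det ^ 2 with hL
  have hL0 : L ≠ 0 :=
    mul_ne_zero (pow_ne_zero _ det_limMat_ne_zero) (pow_ne_zero _ det_rootMat_ne_zero)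
  have hF0 : ∀ τ, F τ ≠ 0 := fun τ =>
    div_ne_zero (pow_ne_zero _ (det_evalMat_ne_zero τ)) (pow_ne_zero _ (discriminant_ne_zero τ))
  have hlim : Tendsto F atImInfty (𝓝 L) := by
    have hG : Tendsto (fun τ : ℍ => (partMat (N := N) τ).det) atImInfty
        (𝓝 (limMat (N := N)).det) := by
      simp only [Matrix.det_apply']
      refine tendsto_finsetSum _ fun q _ => (tendsto_finsetProd _ fun a _ => ?_).const_mul _
      exact tendsto_cuspLim (genOf (q a)) a
    have h := ((hG.pow 2).mul_const ((rootMat (N := N)).det ^ 2)).mul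
      (tendsto_expTwoPi_div_discriminant.pow p)
    rw [one_pow, mul_one] at h
    refine h.congr fun τ => ?_
    simp only [hF]
    rw [evalMat_eq, Matrix.det_mul, Matrix.det_mul, Matrix.det_diagonal, mul_pow, mul_pow,
      prod_expVec_sq, div_pow]
    ring
  set k : ℤ := 4 * (S₀ : ℤ) - 12 * (p : ℤ) with hk
  have hinv : ∀ (σ : SL(2, ℤ)) (τ : ℍ), F (σ • τ) = denom σ τ ^ k * F τ := by
    intro σ τ
    have hd := denom_ne_zero (σ : GL (Fin 2) ℝ) τ
    have hΔ : Δ (σ • τ) = denom σ τ ^ (12 : ℕ) * Δ τ := by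
      have := levelOne_smul (ModularFormClass.modularForm CuspForm.discriminant) σ τ
      rw [← zpow_natCast]
      simpa using this
    simp only [hF]
    rw [det_evalMat_sq_smul, hΔ, mul_pow, ← pow_mul, hk, zpow_sub₀ hd]
    rw [show (4 * (S₀ : ℤ)) = ((4 * S₀ : ℕ) : ℤ) by push_cast; ring,
      show (12 * (p : ℤ)) = ((12 * p : ℕ) : ℤ) by push_cast; ring, zpow_natCast, zpow_natCast]
    field_simp
    rw [← hS₀]
    ring
  have hmd : MDifferentiable 𝓘(ℂ) 𝓘(ℂ) F := by
    rw [UpperHalfPlane.mdifferentiable_iff]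
    exact ((UpperHalfPlane.mdifferentiable_iff.mp mdifferentiable_det_evalMat).pow 2).div
      ((UpperHalfPlane.mdifferentiable_iff.mp Δ_mem.1).pow p) fun z _ => pow_ne_zero _ (discriminant_ne_zero _)
  have hmd' : MDifferentiable 𝓘(ℂ) 𝓘(ℂ) (fun τ => (F τ)⁻¹) := by
    rw [UpperHalfPlane.mdifferentiable_iff] at hmd ⊢
    exact hmd.inv fun z _ => hF0 _
  have hsl : ∀ σ : SL(2, ℤ), F ∣[k] σ = F := fun σ => funext fun τ => by
    rw [ModularForm.SL_slash_apply, hinv, zpow_neg]
    field_simp [zpow_ne_zero _ (denom_ne_zero _ _)]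
  have hsl' : ∀ σ : SL(2, ℤ), (fun τ => (F τ)⁻¹) ∣[-k] σ = fun τ => (F τ)⁻¹ := fun σ =>
    funext fun τ => by
      rw [ModularForm.SL_slash_apply, hinv, neg_neg, mul_inv]
      field_simp [zpow_ne_zero _ (denom_ne_zero _ _)]
  have hm : F ∈ lev k := ⟨hmd, fun σ _ => hsl σ, fun σ => by
    rw [hsl]; exact hlim.isBigO_one ℝ⟩
  have hm' : (fun τ => (F τ)⁻¹) ∈ lev (-k) := ⟨hmd', fun σ _ => hsl' σ, fun σ => by
    rw [hsl']; exact (hlim.inv₀ hL0).isBigO_one ℝ⟩
  rcases lt_trichotomy k 0 with h | h | h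
  · exact absurd (congrFun (modFun_eq_zero_of_neg h hm) UpperHalfPlane.I) (hF0 _)
  · omega
  · exact absurd (congrFun (modFun_eq_zero_of_neg (by omega) hm') UpperHalfPlane.I)
      (inv_ne_zero (hF0 _))

end Fermat.Agent.Period
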