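import Fermat.Agent.Period.Rank
import Mathlib.Dynamics.PeriodicPts.Defs
import Mathlib.Algebra.Field.GeomSum
import Mathlib.RingTheory.RootsOfUnity.Complex

/-!
# The evaluation matrix at the cusps

The branches at the cosets in one `T`-orbit are split into Fourier parts; the constant terms of these
parts give the matrix at the cusps. Main result: `cuspLim_indep`.
-/

set_option autoImplicit false

noncomputable section

namespace Fermat.Agent.Period

open UpperHalfPlane CongruenceSubgroup ModularGroup EisensteinSeries ModularForm Filter Topology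
open scoped MatrixGroups ModularForm Real Manifold

local notation "Δ" => ModularForm.discriminant

variable {N : ℕ}

/-- A chosen coset over a cusp. -/
def cuspRep (o : CuspSet N) : Coset N := Function.surjInv toCusp_surjective o

lemma toCusp_cuspRep (o : CuspSet N) : toCusp (cuspRep o) = o :=
  Function.surjInv_eq toCusp_surjective o

/-- The width of a cusp. -/
def width (o : CuspSet N) : ℕ :=
  Function.minimalPeriod (fun q : Coset N => (T : SL(2, ℤ)) • q) (cuspRep o)

lemma T_pow_width (o : CuspSet N) : (T : SL(2, ℤ)) ^ width o • cuspRep o = cuspRep o :=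
  MulAction.pow_smul_eq_iff_minimalPeriod_dvd.mpr dvd_rfl

lemma width_pos [NeZero N] (o : CuspSet N) : 0 < width o := by
  refine Function.IsPeriodicPt.minimalPeriod_pos (Nat.pos_of_ne_zero (NeZero.ne N)) ?_
  show (fun q : Coset N => (T : SL(2, ℤ)) • q)^[N] (cuspRep o) = cuspRep o
  rw [smul_iterate]
  exact T_pow_smul _

lemma toCusp_T_pow_smul (n : ℕ) (q : Coset N) : toCusp ((T : SL(2, ℤ)) ^ n • q) = toCusp q := by
  induction n with
  | zero => simp
  | succ i hi => rw [pow_succ', mul_smul, toCusp_T_smul, hi]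

variable (N)

/-- Pairs of a cusp and a residue below its width. -/
abbrev CuspPair : Type := Σ o : CuspSet N, Fin (width o)

variable {N}

/-- The coset attached to a pair. -/
def pairCoset (x : CuspPair N) : Coset N := (T : SL(2, ℤ)) ^ (x.2 : ℕ) • cuspRep x.1

lemma pairCoset_bijective [NeZero N] : Function.Bijective (pairCoset (N := N)) := by
  constructor
  · rintro ⟨o, j⟩ ⟨o', j'⟩ h
    have ho : o = o' := by
      have := congrArg toCusp h
      simpa [pairCoset, toCusp_T_pow_smul, toCusp_cuspRep] using this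
    subst ho
    have hj : (j : ℕ) = j' := by
      simp only [pairCoset] at h
      refine (Function.iterate_eq_iterate_iff_of_lt_minimalPeriod j.2 j'.2).mp ?_
      simpa [smul_iterate] using h
    rw [Fin.ext hj]
  · intro q
    have hq : toCusp q = toCusp (cuspRep (toCusp q)) := (toCusp_cuspRep _).symm
    obtain ⟨⟨g, hg⟩, hgq⟩ := Quotient.exact' hq
    obtain ⟨n, rfl⟩ := Subgroup.mem_zpowers_iff.mp hg
    change T ^ n • cuspRep (toCusp q) = q at hgq
    set w := width (toCusp q) with hw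
    have hwpos : (0 : ℤ) < w := by exact_mod_cast width_pos _
    refine ⟨⟨toCusp q, ⟨(n % (w : ℤ)).toNat, ?_⟩⟩, ?_⟩
    · have h1 := Int.emod_nonneg n hwpos.ne'
      have h2 := Int.emod_lt_of_pos n hwpos
      omega
    · simp only [pairCoset]
      rw [← zpow_natCast, Int.toNat_of_nonneg (Int.emod_nonneg n hwpos.ne')]
      refine Eq.trans ?_ hgq
      exact MulAction.zpow_smul_mod_minimalPeriod _ _ n

/-- `e (x) = exp (2 π i x)`. -/
def expTwoPi (x : ℂ) : ℂ := Complex.exp (2 * π * Complex.I * x)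

lemma expTwoPi_add (x y : ℂ) : expTwoPi (x + y) = expTwoPi x * expTwoPi y := by
  rw [expTwoPi, expTwoPi, expTwoPi, ← Complex.exp_add, mul_add]

lemma expTwoPi_int (n : ℤ) : expTwoPi n = 1 := by
  rw [expTwoPi, mul_comm (2 * (π : ℂ) * Complex.I), Complex.exp_int_mul_two_pi_mul_I]

lemma expTwoPi_ne_zero (x : ℂ) : expTwoPi x ≠ 0 := Complex.exp_ne_zero _

lemma norm_expTwoPi (x : ℂ) : ‖expTwoPi x‖ = Real.exp (-2 * π * x.im) := by
  rw [expTwoPi, Complex.norm_exp]
  congr 1
  simp

/-- Orthogonality of roots of unity. -/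
lemma sum_expTwoPi {w : ℕ} (hw : 0 < w) {a : ℤ} (ha : a.natAbs < w) :
    ∑ r : Fin w, expTwoPi ((r : ℕ) * (a : ℂ) / w) = if a = 0 then (w : ℂ) else 0 := by
  split_ifs with h
  · subst h
    simp [expTwoPi]
  · set x := expTwoPi ((a : ℂ) / w) with hx
    have hterm : ∀ n : ℕ, expTwoPi ((n : ℂ) * (a : ℂ) / w) = x ^ n := by
      intro n
      rw [hx, expTwoPi, expTwoPi, ← Complex.exp_nat_mul]
      congr 1
      ring
    rw [Fin.sum_univ_eq_sum_range (fun n => expTwoPi ((n : ℂ) * (a : ℂ) / w)) w]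
    simp only [hterm]
    have hw' : (w : ℂ) ≠ 0 := by exact_mod_cast hw.ne'
    have hxw : x ^ w = 1 := by
      rw [← hterm, mul_div_cancel_left₀ _ hw', expTwoPi_int]
    have hx1 : x ≠ 1 := by
      intro e
      rw [hx, expTwoPi, Complex.exp_eq_one_iff] at e
      obtain ⟨n, hn⟩ := e
      have h1 : (a : ℂ) = (n : ℂ) * w := by
        have := mul_left_cancel₀ Complex.two_pi_I_ne_zero (hn.trans (mul_comm _ _))
        rwa [div_eq_iff hw'] at this
      have h2 : a = n * w := by exact_mod_cast h1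
      have h3 : (w : ℕ) ∣ a.natAbs := by
        rw [h2, Int.natAbs_mul]; simp
      exact absurd (Nat.le_of_dvd (Int.natAbs_pos.mpr h) h3) (not_le.mpr ha)
    rw [geom_sum_eq hx1, hxw]
    simp

/-- The `r`-th Fourier part of the branches of `f` over the cusp `o`. -/
def cuspPart (k : ℤ) (f : ℍ → ℂ) (o : CuspSet N) (r : ℕ) (τ : ℍ) : ℂ :=
  (width o : ℂ)⁻¹ * ∑ j ∈ Finset.range (width o),
    branch k f ((T : SL(2, ℤ)) ^ j • cuspRep o) τ
      * expTwoPi (-((r : ℂ) * ((τ : ℂ) - j) / width o))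

lemma branch_T_smul {k : ℤ} {f : ℍ → ℂ} (hf : f ∈ modFun (Gamma0 N) k) (q : Coset N) (τ : ℍ) :
    branch k f ((T : SL(2, ℤ)) • q) ((1 : ℝ) +ᵥ τ) = branch k f q τ := by
  have h := congrFun (branch_slash hf ((T : SL(2, ℤ)) • q) T) τ
  rw [inv_smul_smul] at h
  have e := slash_T_zpow_apply (branch k f ((T : SL(2, ℤ)) • q)) k 1 τ
  rw [zpow_one, Int.cast_one] at e
  rw [← h, e]

lemma cuspPart_vadd_one [NeZero N] {k : ℤ} {f : ℍ → ℂ} (hf : f ∈ modFun (Gamma0 N) k)
    (o : CuspSet N) (r : ℕ) (τ : ℍ) : cuspPart k f o r ((1 : ℝ) +ᵥ τ) = cuspPart k f o r τ := by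
  unfold cuspPart
  obtain ⟨w, hw⟩ : ∃ w, width o = w + 1 := ⟨width o - 1, by have := width_pos o; omega⟩
  rw [hw]
  refine congrArg (fun t : ℂ => ((w + 1 : ℕ) : ℂ)⁻¹ * t) ?_
  rw [Finset.sum_range_succ', Finset.sum_range_succ]
  refine congrArg₂ (fun x y : ℂ => x + y) ?_ ?_
  · refine Finset.sum_congr rfl fun j _ => ?_
    rw [pow_succ', mul_smul, branch_T_smul hf]
    refine congrArg (fun t : ℂ => _ * expTwoPi t) ?_
    simp only [UpperHalfPlane.coe_vadd, Complex.ofReal_one]
    push_cast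
    ring
  · have hper : (T : SL(2, ℤ)) ^ 0 • cuspRep o = (T : SL(2, ℤ)) • T ^ w • cuspRep o := by
      rw [← mul_smul, ← pow_succ', pow_zero, one_smul, ← hw, T_pow_width]
    rw [hper, branch_T_smul hf]
    refine congrArg (fun t : ℂ => _ * t) ?_
    simp only [UpperHalfPlane.coe_vadd, Complex.ofReal_one]
    rw [show -((r : ℂ) * (1 + (τ : ℂ) - ((0 : ℕ) : ℂ)) / ((w + 1 : ℕ) : ℂ))
      = -((r : ℂ) * ((τ : ℂ) - (w : ℂ)) / ((w + 1 : ℕ) : ℂ)) + ((-(r : ℤ) : ℤ) : ℂ) by
        have : ((w + 1 : ℕ) : ℂ) ≠ 0 := by exact_mod_cast Nat.succ_ne_zero w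
        push_cast at this ⊢
        field_simp
        ring, expTwoPi_add, expTwoPi_int, mul_one]

lemma mdifferentiable_cuspPart {k : ℤ} {f : ℍ → ℂ} (hf : f ∈ modFun (Gamma0 N) k)
    (o : CuspSet N) (r : ℕ) : MDifferentiable 𝓘(ℂ) 𝓘(ℂ) (cuspPart k f o r) := by
  rw [mdifferentiable_iff]
  intro z hz
  refine DifferentiableAt.differentiableWithinAt ?_
  refine DifferentiableAt.congr_of_eventuallyEq (f := fun z : ℂ => (width o : ℂ)⁻¹ *
    ∑ j ∈ Finset.range (width o),
      (branch k f ((T : SL(2, ℤ)) ^ j • cuspRep o) ∘ ofComplex) z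
        * expTwoPi (-((r : ℂ) * (z - j) / width o))) ?_ ?_
  · refine (DifferentiableAt.fun_sum fun j _ => ?_).const_mul _
    refine DifferentiableAt.mul ?_ ?_
    · have hb : MDifferentiable 𝓘(ℂ) 𝓘(ℂ) (branch k f ((T : SL(2, ℤ)) ^ j • cuspRep o)) := by
        rw [branch, ModularForm.SL_slash]; exact hf.1.slash _ _
      exact UpperHalfPlane.mdifferentiableAt_iff.mp (hb ⟨z, hz⟩)
    · unfold expTwoPi
      fun_prop
  · filter_upwards [isOpen_upperHalfPlaneSet.mem_nhds hz] with x hx
    simp [cuspPart, ofComplex_apply_of_im_pos hx]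

lemma branch_eq_sum_cuspPart [NeZero N] (k : ℤ) (f : ℍ → ℂ) (x : CuspPair N) (τ : ℍ) :
    branch k f (pairCoset x) τ = ∑ r : Fin (width x.1),
      cuspPart k f x.1 r τ * expTwoPi (((r : ℕ) : ℂ) * ((τ : ℂ) - (x.2 : ℕ)) / width x.1) := by
  obtain ⟨o, j⟩ := x
  have hw := width_pos o
  have h1 : ∀ r : Fin (width o),
      cuspPart k f o r τ * expTwoPi (((r : ℕ) : ℂ) * ((τ : ℂ) - (j : ℕ)) / width o)
        = (width o : ℂ)⁻¹ * ∑ i ∈ Finset.range (width o),
          branch k f ((T : SL(2, ℤ)) ^ i • cuspRep o) τ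
            * expTwoPi (((r : ℕ) : ℂ) * (((i : ℤ) - (j : ℕ) : ℤ) : ℂ) / width o) := by
    intro r
    rw [cuspPart, mul_assoc, Finset.sum_mul]
    congr 1
    refine Finset.sum_congr rfl fun i _ => ?_
    rw [mul_assoc, ← expTwoPi_add]
    congr 2
    push_cast
    ring
  simp only [h1]
  rw [← Finset.mul_sum, Finset.sum_comm]
  have h2 : ∀ i ∈ Finset.range (width o), ∑ r : Fin (width o),
      branch k f ((T : SL(2, ℤ)) ^ i • cuspRep o) τ
        * expTwoPi (((r : ℕ) : ℂ) * (((i : ℤ) - (j : ℕ) : ℤ) : ℂ) / width o)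
      = if i = (j : ℕ) then (width o : ℂ) * branch k f (pairCoset ⟨o, j⟩) τ else 0 := by
    intro i hi
    have hi' := Finset.mem_range.mp hi
    have hj := j.2
    change (j : ℕ) < width o at hj
    rw [← Finset.mul_sum, sum_expTwoPi hw (by omega)]
    by_cases h : i = (j : ℕ)
    · subst h; simp [pairCoset, mul_comm]
    · have hne : ((i : ℤ) - (j : ℕ)) ≠ 0 := by omega
      rw [if_neg hne, if_neg h, mul_zero]
  rw [Finset.sum_congr rfl h2, Finset.sum_ite_eq' , if_pos (Finset.mem_range.mpr j.2),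
    ← mul_assoc, inv_mul_cancel₀ (by exact_mod_cast hw.ne'), one_mul]

lemma isBounded_cuspPart [NeZero N] {k : ℤ} {f : ℍ → ℂ} (hf : f ∈ modFun (Gamma0 N) k)
    (o : CuspSet N) (r : Fin (width o)) :
    IsZeroAtImInfty (fun τ => cuspPart k f o r τ * expTwoPi τ) := by
  have hw : 0 < width o := width_pos o
  have hwR : (0 : ℝ) < (width o) := by exact_mod_cast hw
  have hj : ∀ j ∈ Finset.range (width o), Tendsto (fun τ : ℍ =>
      branch k f ((T : SL(2, ℤ)) ^ j • cuspRep o) τ
        * expTwoPi (-(((r : ℕ) : ℂ) * ((τ : ℂ) - j) / (width o))) * expTwoPi τ) atImInfty (𝓝 0) := by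
    intro j _
    obtain ⟨C, hC⟩ := (hf.2.2 ((((T : SL(2, ℤ)) ^ j • cuspRep o).out)⁻¹)).bound
    have hlt : ((r : ℕ) : ℝ) + 1 ≤ (width o) := by exact_mod_cast Nat.succ_le_of_lt r.2
    refine squeeze_zero_norm' (a := fun τ : ℍ => C * Real.exp (-(2 * π / (width o)) * τ.im)) ?_ ?_
    · filter_upwards [hC] with τ hτ
      simp only [Pi.one_apply, norm_one, mul_one] at hτ
      rw [norm_mul, norm_mul, norm_expTwoPi, norm_expTwoPi, mul_assoc, ← Real.exp_add]
      have hC0 : 0 ≤ C := (norm_nonneg _).trans hτ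
      refine mul_le_mul hτ (Real.exp_le_exp.mpr ?_) (Real.exp_nonneg _) hC0
      have hy := τ.im_pos
      simp only [Complex.neg_im, Complex.div_natCast_im, Complex.mul_im, Complex.natCast_re,
        Complex.natCast_im, Complex.sub_im, zero_mul, add_zero, sub_zero, UpperHalfPlane.coe_im]
      rw [show -2 * π * -(((r : ℕ) : ℝ) * τ.im / (width o)) + -2 * π * τ.im
        = -(2 * π / (width o)) * (((width o) : ℝ) - r) * τ.im by field_simp; ring]
      have hp : 0 ≤ 2 * π / (width o) := by positivity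
      nlinarith [mul_nonneg hp hy.le, mul_nonneg (mul_nonneg hp hy.le) (sub_nonneg.mpr hlt)]
    · have h0 : Tendsto (fun τ : ℍ => τ.im) atImInfty atTop := tendsto_comap
      have h1 : Tendsto (fun τ : ℍ => -(2 * π / (width o)) * τ.im) atImInfty atBot :=
        h0.const_mul_atTop_of_neg (by simp only [neg_lt_zero]; positivity)
      simpa using ((Real.tendsto_exp_atBot.comp h1).const_mul C)
  have hsum := (tendsto_finsetSum _ hj).const_mul (((width o) : ℂ)⁻¹)
  rw [Finset.sum_const_zero, mul_zero] at hsum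
  refine hsum.congr fun τ => ?_
  simp only [cuspPart, Finset.sum_mul, mul_assoc]

lemma expTwoPi_eq_qParam (z : ℂ) : expTwoPi z = Function.Periodic.qParam 1 z := by
  simp [expTwoPi, Function.Periodic.qParam]

lemma cuspPart_periodic [NeZero N] {k : ℤ} {f : ℍ → ℂ} (hf : f ∈ modFun (Gamma0 N) k)
    (o : CuspSet N) (r : ℕ) :
    Function.Periodic (cuspPart k f o r ∘ ofComplex) ((1 : ℝ) : ℂ) := by
  intro z
  by_cases hz : 0 < z.im
  · have hz' : 0 < (z + ((1 : ℝ) : ℂ)).im := by simpa using hz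
    simp only [Function.comp_apply, ofComplex_apply_of_im_pos hz', ofComplex_apply_of_im_pos hz]
    rw [← cuspPart_vadd_one hf o r ⟨z, hz⟩]
    congr 1
    ext
    simp [add_comm]
  · have hz' : (z + ((1 : ℝ) : ℂ)).im ≤ 0 := by simpa using hz
    simp only [Function.comp_apply]
    rw [ofComplex_apply_eq_of_im_nonpos hz' (le_of_not_gt hz)]

lemma exists_tendsto_cuspPart [NeZero N] {k : ℤ} {f : ℍ → ℂ} (hf : f ∈ modFun (Gamma0 N) k)
    (o : CuspSet N) (r : Fin (width o)) :
    ∃ L, Tendsto (cuspPart k f o r) atImInfty (𝓝 L) := by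
  set K : ℍ → ℂ := fun τ => cuspPart k f o r τ * expTwoPi τ with hK
  have hd : MDifferentiable 𝓘(ℂ) 𝓘(ℂ) K := by
    refine (mdifferentiable_cuspPart hf o r).mul ?_
    rw [mdifferentiable_iff]
    intro z hz
    refine DifferentiableAt.differentiableWithinAt ?_
    refine DifferentiableAt.congr_of_eventuallyEq (f := expTwoPi) (by unfold expTwoPi; fun_prop) ?_
    filter_upwards [isOpen_upperHalfPlaneSet.mem_nhds hz] with x hx
    simp [ofComplex_apply_of_im_pos hx]
  have hz0 : IsZeroAtImInfty K := isBounded_cuspPart hf o r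
  have hper : Function.Periodic (K ∘ ofComplex) ((1 : ℝ) : ℂ) := by
    intro z
    by_cases hz : 0 < z.im
    · have hz' : 0 < (z + ((1 : ℝ) : ℂ)).im := by simpa using hz
      have h1 := cuspPart_periodic hf o r z
      simp only [hK, Function.comp_apply, ofComplex_apply_of_im_pos hz',
        ofComplex_apply_of_im_pos hz] at h1 ⊢
      rw [h1]
      congr 1
      rw [expTwoPi_add, show (((1 : ℝ) : ℂ)) = ((1 : ℤ) : ℂ) by norm_num, expTwoPi_int, mul_one]
    · have hz' : (z + ((1 : ℝ) : ℂ)).im ≤ 0 := by simpa using hz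
      simp only [Function.comp_apply]
      rw [ofComplex_apply_eq_of_im_nonpos hz' (le_of_not_gt hz)]
  have han := analyticAt_cuspFunction_zero one_pos hper hd hz0.isBoundedAtImInfty
  have h0 : cuspFunction 1 K 0 = 0 := hz0.cuspFunction_apply_zero one_pos
  refine ⟨deriv (cuspFunction 1 K) 0, ?_⟩
  have hslope := hasDerivAt_iff_tendsto_slope.mp han.differentiableAt.hasDerivAt
  have hq : Tendsto (fun τ : ℍ => Function.Periodic.qParam 1 (τ : ℂ)) atImInfty (𝓝[≠] 0) :=
    (Function.Periodic.qParam_tendsto one_pos).comp tendsto_coe_atImInfty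
  refine (hslope.comp hq).congr fun τ => ?_
  simp only [Function.comp_apply, slope_def_field, h0, sub_zero,
    eq_cuspFunction τ one_ne_zero hper]
  simp only [hK]
  rw [expTwoPi_eq_qParam, mul_div_assoc, div_self (Function.Periodic.qParam_ne_zero _),
    mul_one]

/-- The entry of the evaluation matrix at the cusps. -/
def cuspLim (i : GenIdx N) (x : CuspPair N) : ℂ :=
  limUnder atImInfty (cuspPart (2 * (genWt i : ℤ)) (gen i) x.1 x.2)

lemma tendsto_cuspLim [NeZero N] (i : GenIdx N) (x : CuspPair N) :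
    Tendsto (cuspPart (2 * (genWt i : ℤ)) (gen i) x.1 x.2) atImInfty (𝓝 (cuspLim i x)) :=
  tendsto_nhds_limUnder (exists_tendsto_cuspPart (gen_mem i) x.1 x.2)

lemma cuspPart_sum [NeZero N] {K : ℤ} (s : Finset (GenIdx N)) (P : GenIdx N → ℍ → ℂ)
    (hP : ∀ i ∈ s, P i ∈ lev (2 * (K - genWt i))) (o : CuspSet N) (r : ℕ) (τ : ℍ) :
    cuspPart (2 * K) (∑ i ∈ s, P i * gen i) o r τ
      = ∑ i ∈ s, P i τ * cuspPart (2 * (genWt i : ℤ)) (gen i) o r τ := by
  have hb : ∀ q : Coset N, branch (2 * K) (∑ i ∈ s, P i * gen i) q τ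
      = ∑ i ∈ s, P i τ * branch (2 * (genWt i : ℤ)) (gen i) q τ := by
    intro q
    rw [branch, SlashAction.sum_slash, Finset.sum_apply]
    refine Finset.sum_congr rfl fun i hi => ?_
    rw [show 2 * K = 2 * (K - genWt i) + 2 * (genWt i : ℤ) by ring,
      ModularForm.mul_slash_SL2, lev.slash_eq (hP i hi)]
    rfl
  simp only [cuspPart, hb, Finset.mul_sum, Finset.sum_mul]
  rw [Finset.sum_comm]
  exact Finset.sum_congr rfl fun i _ => Finset.sum_congr rfl fun j _ => by ring

/-- The rows of the evaluation matrix at the cusps are independent. -/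
theorem cuspLim_indep [NeZero N] (s : Finset (GenIdx N)) (a : GenIdx N → ℂ)
    (h : ∀ x : CuspPair N, ∑ i ∈ s, a i * cuspLim i x = 0) : ∀ i ∈ s, a i = 0 := by
  classical
  set M := s.sup genWt with hM
  set K : ℤ := (M : ℤ) + 2 with hK
  have hmono : ∀ i, ∃ P ∈ lev (2 * (K - genWt i)),
      (i ∈ s → Tendsto P atImInfty (𝓝 (a i))) := by
    intro i
    by_cases hi : i ∈ s
    · have hle : genWt i ≤ M := Finset.le_sup hi
      obtain ⟨u, v, huv⟩ : ∃ u v : ℕ, (2 * u + 3 * v : ℤ) = K - genWt i := by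
        rcases Nat.even_or_odd (M + 2 - genWt i) with ⟨w, hw⟩ | ⟨w, hw⟩
        · exact ⟨w, 0, by omega⟩
        · exact ⟨w - 1, 1, by omega⟩
      refine ⟨a i • ((E₄ : ℍ → ℂ) ^ u * (E₆ : ℍ → ℂ) ^ v), Submodule.smul_mem _ _
        (modFun_weight (by linarith [huv]) (modFun_mul (modFun_pow E4_mem u) (modFun_pow E6_mem v))),
        fun _ => ?_⟩
      simpa [Pi.mul_def, Pi.pow_def, Pi.smul_def] using
        ((tendsto_E4.pow u).mul (tendsto_E6.pow v)).const_mul (a i)
    · exact ⟨0, zero_mem _, fun h => absurd h hi⟩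
  choose P hP hPlim using hmono
  set f := ∑ i ∈ s, P i * gen i with hf
  have hfm : f ∈ evForms N K := sum_mem fun i _ => mul_gen_mem (hP i)
  have hzero : ∀ x : CuspPair N, IsZeroAtImInfty (cuspPart (2 * K) f x.1 x.2) := by
    intro x
    have h1 : Tendsto (fun τ => ∑ i ∈ s, P i τ * cuspPart (2 * (genWt i : ℤ)) (gen i) x.1 x.2 τ)
        atImInfty (𝓝 (∑ i ∈ s, a i * cuspLim i x)) :=
      tendsto_finsetSum _ fun i hi => (hPlim i hi).mul (tendsto_cuspLim i x)
    rw [h x] at h1
    exact h1.congr fun τ => (cuspPart_sum s P (fun i _ => hP i) x.1 x.2 τ).symm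
  have hbound : ∀ δ : SL(2, ℤ), IsBoundedAtImInfty (fun τ => (f ∣[2 * K] δ) τ / Δ τ) := by
    intro δ
    obtain ⟨x, hx⟩ := pairCoset_bijective.2 (((δ⁻¹ : SL(2, ℤ))) : Coset N)
    rw [slash_eq_branch hfm, ← hx]
    have hsum : ∀ r : Fin (width x.1), IsBoundedAtImInfty (fun τ : ℍ =>
        cuspPart (2 * K) f x.1 r τ / Δ τ
          * expTwoPi (((r : ℕ) : ℂ) * ((τ : ℂ) - (x.2 : ℕ)) / width x.1)) := by
      intro r
      refine (isBounded_div_discriminant (cuspPart_periodic hfm x.1 r)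
        (mdifferentiable_cuspPart hfm x.1 r) (hzero ⟨x.1, r⟩)).mul (g := fun τ : ℍ =>
          expTwoPi (((r : ℕ) : ℂ) * ((τ : ℂ) - (x.2 : ℕ)) / width x.1)) ?_
      refine Asymptotics.IsBigO.of_bound 1 (Eventually.of_forall fun τ => ?_)
      simp only [Pi.one_apply, norm_one, mul_one, norm_expTwoPi]
      rw [Real.exp_le_one_iff]
      simp only [Complex.div_natCast_im, Complex.mul_im, Complex.natCast_re, Complex.natCast_im,
        Complex.sub_im, zero_mul, add_zero, sub_zero, UpperHalfPlane.coe_im]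
      have : 0 ≤ ((r : ℕ) : ℝ) * τ.im / (width x.1 : ℝ) := by
        have := τ.im_pos; positivity
      nlinarith [Real.pi_pos]
    have : (fun τ => branch (2 * K) f (pairCoset x) τ / Δ τ) = fun τ : ℍ => ∑ r : Fin (width x.1),
        cuspPart (2 * K) f x.1 r τ / Δ τ
          * expTwoPi (((r : ℕ) : ℂ) * ((τ : ℂ) - (x.2 : ℕ)) / width x.1) := by
      funext τ
      rw [branch_eq_sum_cuspPart (2 * K) f x τ, Finset.sum_div]
      exact Finset.sum_congr rfl fun r _ => by ring
    rw [this]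
    exact Asymptotics.IsBigO.fun_sum fun r _ => hsum r
  obtain ⟨u, S', hS', hSout, hgsum⟩ := exists_sum_gen (K := K - 6)
    (modFun_weight (by ring) (div_discriminant_mem hfm hbound))
  have hfg : f = Δ * ∑ i ∈ u, S' i * gen i := by
    rw [← hgsum]
    funext τ
    rw [Pi.mul_apply, mul_div_cancel₀ _ (discriminant_ne_zero τ)]
  have hres := gen_indep (K := K) (s ∪ u) (fun i => (if i ∈ s then P i else 0) - Δ * S' i)
    (fun i _ => sub_mem (by split_ifs with hi
                            · exact hP i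
                            · exact zero_mem _)
      (modFun_weight (by ring) (modFun_mul Δ_mem (hS' i)))) (by
      simp only [sub_mul, Finset.sum_sub_distrib, mul_assoc, ← Finset.mul_sum]
      rw [← Finset.sum_subset Finset.subset_union_left
          (f := fun i => (if i ∈ s then P i else 0) * gen i) (fun i _ hi => by simp [hi]),
        ← Finset.sum_subset Finset.subset_union_right (f := fun i => S' i * gen i)
          (fun i _ hi => by simp [hSout i hi]), ← hfg, sub_eq_zero, hf]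
      exact Finset.sum_congr rfl fun i hi => by rw [if_pos hi])
  intro i hi
  have h1 := hres i (Finset.mem_union_left _ hi)
  rw [if_pos hi, sub_eq_zero] at h1
  obtain ⟨b, hb⟩ := tendsto_lev (hS' i)
  have h2 : Tendsto (Δ * S' i) atImInfty (𝓝 (0 * b)) :=
    (show Tendsto Δ atImInfty (𝓝 0) from discriminant_isZeroAtImInfty).mul hb
  rw [← h1, zero_mul] at h2
  exact tendsto_nhds_unique (hPlim i hi) h2

end Fermat.Agent.Period
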