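import Fermat.Agent.Period.GradedBasis
import Fermat.Agent.Period.JInjective
import Fermat.Agent.Period.Coset

/-!
# The evaluation matrix of the generators

Main results: `evalVec_smul`, `eval_indep`, `genIdx_finite`, `card_genIdx_le`.
-/

set_option autoImplicit false

noncomputable section

namespace Fermat.Agent.Period

open UpperHalfPlane CongruenceSubgroup ModularGroup EisensteinSeries ModularForm Filter Topology
open scoped MatrixGroups ModularForm Real Manifold

local notation "Δ" => ModularForm.discriminant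

variable {N : ℕ}

/-- The branch of a form attached to a coset. -/
def branch (k : ℤ) (f : ℍ → ℂ) (q : Coset N) : ℍ → ℂ := f ∣[k] (q.out⁻¹)

lemma slash_eq_branch {k : ℤ} {f : ℍ → ℂ} (hf : f ∈ modFun (Gamma0 N) k) (δ : SL(2, ℤ)) :
    f ∣[k] δ = branch k f (((δ⁻¹ : SL(2, ℤ))) : Coset N) := by
  obtain ⟨γ, hγ⟩ := QuotientGroup.mk_out_eq_mul (Gamma0 N) δ⁻¹
  rw [branch, hγ, mul_inv_rev, inv_inv, SlashAction.slash_mul,
    modFun.slash_eq hf ((Gamma0 N).inv_mem γ.2)]

lemma branch_slash {k : ℤ} {f : ℍ → ℂ} (hf : f ∈ modFun (Gamma0 N) k) (q : Coset N)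
    (σ : SL(2, ℤ)) : (branch k f q) ∣[k] σ = branch k f (σ⁻¹ • q) := by
  rw [branch, ← SlashAction.slash_mul, slash_eq_branch hf, mul_inv_rev, inv_inv]
  congr 1
  conv_rhs => rw [← QuotientGroup.out_eq' q, MulAction.Quotient.smul_mk]
  rfl

/-- The row of evaluations of a generator. -/
def evalVec (τ : ℍ) (i : GenIdx N) (q : Coset N) : ℂ :=
  branch (2 * (genWt i : ℤ)) (gen i) q τ

lemma evalVec_smul (σ : SL(2, ℤ)) (τ : ℍ) (i : GenIdx N) (q : Coset N) :
    evalVec (σ • τ) i q = denom σ τ ^ (2 * genWt i) * evalVec τ i (σ⁻¹ • q) := by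
  have h := congrFun (branch_slash (gen_mem i) q σ) τ
  rw [ModularForm.SL_slash_apply] at h
  simp only [evalVec]
  rw [← h, show (2 * (genWt i : ℤ)) = ((2 * genWt i : ℕ) : ℤ) by push_cast; ring, zpow_neg,
    zpow_natCast]
  field_simp [denom_ne_zero]

variable [NeZero N]

/-- Core step: a relation at `τ₀` forces divisibility by a level one form vanishing there. -/
lemma eval_core {τ₀ : ℍ} {l K : ℤ} {L : ℍ → ℂ} (hL : L ∈ lev (2 * l))
    (hlim : Tendsto L atImInfty (𝓝 1))
    (hs : ∀ z : ℍ, L z = 0 → deriv (L ∘ ofComplex) (z : ℂ) ≠ 0)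
    (hL0 : L τ₀ = 0) (hz : ∀ z : ℍ, L z = 0 → ∃ σ : SL(2, ℤ), σ • τ₀ = z)
    (s : Finset (GenIdx N)) (P : GenIdx N → ℍ → ℂ)
    (hP : ∀ i ∈ s, P i ∈ lev (2 * (K - genWt i)))
    (h : ∀ q : Coset N, ∑ i ∈ s, P i τ₀ * evalVec τ₀ i q = 0) :
    ∀ i ∈ s, P i τ₀ = 0 := by
  classical
  set f := ∑ i ∈ s, P i * gen i with hf
  have hfm : f ∈ evForms N K := sum_mem fun i hi => mul_gen_mem (hP i hi)
  have hv : ∀ z : ℍ, L z = 0 → f z = 0 := by
    intro z hz0
    obtain ⟨σ, rfl⟩ := hz z hz0
    have h1 : ∀ i ∈ s, (P i * gen i) (σ • τ₀)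
        = denom σ τ₀ ^ (2 * K) * (P i τ₀ * evalVec τ₀ i (((σ⁻¹ : SL(2, ℤ))) : Coset N)) := by
      intro i hi
      have e : (P i * gen i) ∣[2 * K] σ
          = P i * branch (2 * (genWt i : ℤ)) (gen i) (((σ⁻¹ : SL(2, ℤ))) : Coset N) := by
        rw [show 2 * K = 2 * (K - genWt i) + 2 * (genWt i : ℤ) by ring,
          ModularForm.mul_slash_SL2, lev.slash_eq (hP i hi), slash_eq_branch (gen_mem i)]
      have e' := congrFun e τ₀
      rw [ModularForm.SL_slash_apply, zpow_neg] at e'
      simp only [Pi.mul_apply, evalVec] at e' ⊢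
      rw [← e']
      field_simp [zpow_ne_zero _ (denom_ne_zero _ _)]
    rw [hf, Finset.sum_apply, Finset.sum_congr rfl h1, ← Finset.mul_sum, h, mul_zero]
  obtain ⟨g, hg, hfg⟩ := modFun_div hfm hL hlim hs hv
  obtain ⟨u, S', hS', hSout, hgsum⟩ := exists_sum_gen (K := K - l) (modFun_weight (by ring) hg)
  have hzero := gen_indep (K := K) (s ∪ u) (fun i => (if i ∈ s then P i else 0) - L * S' i)
    (fun i _ => sub_mem (by split_ifs with hi
                            · exact hP i hi
                            · exact zero_mem _)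
      (modFun_weight (by ring) (modFun_mul hL (hS' i)))) (by
      simp only [sub_mul, Finset.sum_sub_distrib, mul_assoc, ← Finset.mul_sum]
      rw [← Finset.sum_subset Finset.subset_union_left (f := fun i => (if i ∈ s then P i else 0) * gen i)
        (fun i _ hi => by simp [hi]),
        ← Finset.sum_subset Finset.subset_union_right (f := fun i => S' i * gen i)
        (fun i _ hi => by simp [hSout i hi]), ← hgsum, ← hfg, sub_eq_zero, hf]
      exact Finset.sum_congr rfl fun i hi => by rw [if_pos hi])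
  intro i hi
  have := congrFun (hzero i (Finset.mem_union_left _ hi)) τ₀
  simpa [hi, hL0] using this

/-- Simple zeros of `E₄³ - cΔ` away from the elliptic values. -/
lemma eval_indep_generic {τ₀ : ℍ} (h4 : E₄ τ₀ ≠ 0) (h6 : E₆ τ₀ ≠ 0) (s : Finset (GenIdx N))
    (a : GenIdx N → ℂ) (h : ∀ q : Coset N, ∑ i ∈ s, a i * evalVec τ₀ i q = 0) :
    ∀ i ∈ s, a i = 0 := by
  set c := jFun τ₀ with hc
  set L : ℍ → ℂ := fun z => E₄ z ^ 3 - c * Δ z with hLdef
  have hLj : ∀ z, L z = (jFun z - c) * Δ z := fun z => by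
    simp only [hLdef, jFun]
    field_simp [discriminant_ne_zero z]
  have hL : L ∈ lev (2 * 6) := by
    have h1 : (E₄ : ℍ → ℂ) ^ 3 - c • Δ ∈ lev (2 * 6) :=
      sub_mem (modFun_weight (by norm_num) (modFun_pow E4_mem 3))
        (Submodule.smul_mem _ _ (modFun_weight (by norm_num) Δ_mem))
    exact h1
  have hlim : Tendsto L atImInfty (𝓝 1) := by
    have h0 : Tendsto Δ atImInfty (𝓝 0) := discriminant_isZeroAtImInfty
    simpa [hLdef] using (tendsto_E4.pow 3).sub (h0.const_mul c)
  have hj : ∀ z, L z = 0 → jFun z = c := fun z hz => by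
    rw [hLj] at hz
    exact sub_eq_zero.mp ((mul_eq_zero.mp hz).resolve_right (discriminant_ne_zero z))
  have hs : ∀ z : ℍ, L z = 0 → deriv (L ∘ ofComplex) (z : ℂ) ≠ 0 := by
    intro z hz
    have hjz := hj z hz
    have heq : (L ∘ ofComplex) = fun w => ((jFun ∘ ofComplex) w - c) * (Δ ∘ ofComplex) w :=
      funext fun w => by simp [hLj]
    have hΔd : DifferentiableAt ℂ (Δ ∘ ofComplex) (z : ℂ) :=
      UpperHalfPlane.mdifferentiableAt_iff.mp (Δ_mem.1 z)
    have hder : HasDerivAt (fun w : ℂ => ((jFun ∘ ofComplex) w - c) * (Δ ∘ ofComplex) w) _ (z : ℂ) :=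
      ((hasDerivAt_jFun z).sub_const c).mul hΔd.hasDerivAt
    rw [heq, hder.deriv]
    simp only [Function.comp_apply, ofComplex_apply, hjz, sub_self, zero_mul, add_zero]
    have e4 : E₄ z ≠ 0 := by
      intro e
      have hc0 : c = 0 := by rw [← hjz]; simp [jFun, e]
      have := hc0
      simp [hc, jFun, h4, discriminant_ne_zero] at this
    have e6 : E₆ z ≠ 0 := by
      intro e
      have hz4 := E4_cube_sub_E6_sq z
      rw [e] at hz4
      have hc1 : c = 1728 := by
        rw [← hjz, jFun, div_eq_iff (discriminant_ne_zero z)]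
        linear_combination hz4
      have h0 := E4_cube_sub_E6_sq τ₀
      rw [hc, jFun, div_eq_iff (discriminant_ne_zero τ₀)] at hc1
      exact h6 (pow_eq_zero_iff (n := 2) (by norm_num) |>.mp (by linear_combination hc1 - h0))
    exact mul_ne_zero (div_ne_zero (mul_ne_zero (neg_ne_zero.mpr Complex.two_pi_I_ne_zero)
      (mul_ne_zero (pow_ne_zero _ e4) e6)) (discriminant_ne_zero z)) (discriminant_ne_zero z)
  set M := s.sup genWt with hM
  have hmono : ∀ i ∈ s, ∃ P ∈ lev (2 * (((M : ℕ) : ℤ) + 2 - genWt i)), P τ₀ = a i := by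
    intro i hi
    have hle : genWt i ≤ M := Finset.le_sup hi
    obtain ⟨u, v, huv⟩ : ∃ u v : ℕ, 2 * u + 3 * v = M + 2 - genWt i := by
      rcases Nat.even_or_odd (M + 2 - genWt i) with ⟨w, hw⟩ | ⟨w, hw⟩
      · exact ⟨w, 0, by omega⟩
      · exact ⟨w - 1, 1, by omega⟩
    refine ⟨(a i / (E₄ τ₀ ^ u * E₆ τ₀ ^ v)) • ((E₄ : ℍ → ℂ) ^ u * (E₆ : ℍ → ℂ) ^ v),
      Submodule.smul_mem _ _ (modFun_weight ?_ (modFun_mul (modFun_pow E4_mem u)
        (modFun_pow E6_mem v))), ?_⟩
    · have : ((2 * u + 3 * v : ℕ) : ℤ) = ((M : ℕ) : ℤ) + 2 - genWt i := by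
        rw [huv]; omega
      push_cast at this
      linarith
    · simp only [Pi.smul_apply, Pi.mul_apply, Pi.pow_apply, smul_eq_mul]
      rw [div_mul_cancel₀]
      exact mul_ne_zero (pow_ne_zero _ h4) (pow_ne_zero _ h6)
  classical
  choose P hP hPv using hmono
  have hres := eval_core hL hlim hs (by simp [hLj, hc])
    (fun z hz => jFun_eq_iff.mp (hj z hz).symm) s
    (fun i => if hi : i ∈ s then P i hi else 0) (fun i hi => by simpa [hi] using hP i hi)
    (fun q => by
      rw [← h q]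
      exact Finset.sum_congr rfl fun i hi => by simp [hi, hPv i hi])
  intro i hi
  simpa [hi, hPv i hi] using hres i hi

lemma ρ_cube : (ρ : ℂ) ^ 3 = 1 := by
  linear_combination ((ρ : ℂ) - 1) * ρ_sq

lemma eval_indep_ρ (s : Finset (GenIdx N)) (a : GenIdx N → ℂ)
    (h : ∀ q : Coset N, ∑ i ∈ s, a i * evalVec ρ i q = 0) : ∀ i ∈ s, a i = 0 := by
  classical
  intro i₀ hi₀
  have hfix : (ellU : SL(2, ℤ)) • ρ = ρ := ellU_smul_ρ
  have hd : denom (ellU : SL(2, ℤ)) ρ = (ρ : ℂ) + 1 := by
    rw [ModularGroup.denom_apply, coe_ellU]; simp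
  have hrot : ∀ (i : GenIdx N) (q : Coset N),
      evalVec ρ i (ellU⁻¹ • q) = (ρ : ℂ) ^ (2 * genWt i) * evalVec ρ i q := by
    intro i q
    have h1 := evalVec_smul ellU ρ i q
    rw [hfix, hd] at h1
    have h2 : ((ρ : ℂ) + 1) ^ 2 = (ρ : ℂ) := by linear_combination ρ_sq
    rw [pow_mul, h2] at h1
    rw [h1, pow_mul, ← mul_assoc, ← mul_pow, show (ρ : ℂ) ^ 2 * ρ = 1 by rw [← ρ_cube]; ring,
      one_pow, one_mul]
  set r := genWt i₀ with hr
  set x : GenIdx N → ℂ := fun i => (ρ : ℂ) ^ (r + 2 * genWt i) with hx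
  have hclass : ∀ q, ∑ i ∈ s, a i * (1 + x i + x i ^ 2) * evalVec ρ i q = 0 := by
    intro q
    have h1 : ∑ i ∈ s, a i * x i * evalVec ρ i q = 0 := by
      have := congrArg (fun t => (ρ : ℂ) ^ r * t) (h (ellU⁻¹ • q))
      simp only [hrot, Finset.mul_sum, mul_zero] at this
      rw [← this]
      exact Finset.sum_congr rfl fun i _ => by simp only [hx, pow_add]; ring
    have h2 : ∑ i ∈ s, a i * x i ^ 2 * evalVec ρ i q = 0 := by
      have := congrArg (fun t => (ρ : ℂ) ^ (2 * r) * t) (h (ellU⁻¹ • ellU⁻¹ • q))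
      simp only [hrot, Finset.mul_sum, mul_zero] at this
      rw [← this]
      exact Finset.sum_congr rfl fun i _ => by simp only [hx, pow_add]; ring
    simp only [mul_add, add_mul, mul_one, Finset.sum_add_distrib, h q, h1, h2, add_zero]
  have hxval : ∀ i, (1 + x i + x i ^ 2) = if 3 ∣ (r + 2 * genWt i) then 3 else 0 := by
    intro i
    have hdm := Nat.div_add_mod (r + 2 * genWt i) 3
    have hxi : x i = (ρ : ℂ) ^ ((r + 2 * genWt i) % 3) := by
      rw [hx]; dsimp only
      conv_lhs => rw [← hdm]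
      rw [pow_add, pow_mul, ρ_cube, one_pow, one_mul]
    have hlt := Nat.mod_lt (r + 2 * genWt i) (by norm_num : 3 > 0)
    rw [hxi]
    by_cases hdv : 3 ∣ r + 2 * genWt i
    · rw [if_pos hdv, Nat.dvd_iff_mod_eq_zero.mp hdv]; norm_num
    · rw [if_neg hdv]
      have hne : (r + 2 * genWt i) % 3 ≠ 0 := fun e => hdv (Nat.dvd_of_mod_eq_zero e)
      interval_cases h3 : (r + 2 * genWt i) % 3
      · exact absurd rfl hne
      · linear_combination ρ_sq
      · linear_combination ρ_sq + (ρ : ℂ) * ρ_cube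
  set cl := s.filter (fun i => 3 ∣ r + 2 * genWt i) with hcl
  set K : ℕ := r + 3 * s.sup genWt with hK
  have h6 : E₆ ρ ≠ 0 := not_common_zero ρ E4_ρ
  have hcore := eval_core (l := 2) (K := (K : ℤ)) (modFun_weight (by norm_num) E4_mem) tendsto_E4
    (fun z hz => by
      rw [(hasDerivAt_of_D (ModularFormClass.holo E₄) z).deriv, D_E4, hz]
      refine mul_ne_zero Complex.two_pi_I_ne_zero ?_
      simp [not_common_zero z hz])
    E4_ρ (fun z hz => exists_smul_eq_of_E4_eq_zero hz) cl
    (fun i => (a i / E₆ ρ ^ ((K - genWt i) / 3)) • ((E₆ : ℍ → ℂ) ^ ((K - genWt i) / 3)))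
    (fun i hi => by
      obtain ⟨hi1, hi2⟩ := Finset.mem_filter.mp hi
      have hle : genWt i ≤ s.sup genWt := Finset.le_sup hi1
      refine Submodule.smul_mem _ _ (modFun_weight ?_ (modFun_pow E6_mem _))
      have : 3 * ((K - genWt i) / 3) = K - genWt i := Nat.mul_div_cancel' (by omega)
      have hle' : genWt i ≤ K := by omega
      have : (3 : ℤ) * (((K - genWt i) / 3 : ℕ) : ℤ) = (K : ℤ) - genWt i := by
        rw [← Nat.cast_sub hle']; exact_mod_cast this
      linarith)
    (fun q => by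
      have hval : ∀ i, ((a i / E₆ ρ ^ ((K - genWt i) / 3))
          • ((E₆ : ℍ → ℂ) ^ ((K - genWt i) / 3))) ρ = a i := fun i => by
        simp only [Pi.smul_apply, Pi.pow_apply, smul_eq_mul]
        exact div_mul_cancel₀ _ (pow_ne_zero _ h6)
      simp only [hval]
      have := hclass q
      simp only [hxval, mul_ite, ite_mul, mul_zero, zero_mul] at this
      rw [← Finset.sum_filter, ← hcl] at this
      simp only [mul_right_comm (_ : ℂ) (3 : ℂ)] at this
      rw [← Finset.sum_mul] at this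
      simpa using this)
  have := hcore i₀ (Finset.mem_filter.mpr ⟨hi₀, ⟨genWt i₀, by omega⟩⟩)
  simp only [Pi.smul_apply, Pi.pow_apply, smul_eq_mul, div_mul_cancel₀ _ (pow_ne_zero _ h6)] at this
  exact this

lemma eval_indep_I (s : Finset (GenIdx N)) (a : GenIdx N → ℂ)
    (h : ∀ q : Coset N, ∑ i ∈ s, a i * evalVec UpperHalfPlane.I i q = 0) :
    ∀ i ∈ s, a i = 0 := by
  classical
  intro i₀ hi₀
  have hfix : (S : SL(2, ℤ)) • UpperHalfPlane.I = UpperHalfPlane.I := by
    rw [modular_S_smul]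
    apply UpperHalfPlane.ext
    simp [Complex.inv_I]
  have hrot : ∀ (i : GenIdx N) (q : Coset N),
      evalVec UpperHalfPlane.I i (S⁻¹ • q) = (-1) ^ genWt i * evalVec UpperHalfPlane.I i q := by
    intro i q
    have h1 := evalVec_smul S UpperHalfPlane.I i q
    rw [hfix, denom_S, UpperHalfPlane.coe_I, pow_mul, Complex.I_sq] at h1
    rw [h1, ← mul_assoc, ← mul_pow]
    norm_num
  set r := genWt i₀ with hr
  have hclass : ∀ q, ∑ i ∈ s, a i * (if 2 ∣ r + genWt i then 2 else 0)
      * evalVec UpperHalfPlane.I i q = 0 := by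
    intro q
    have h1 := congrArg (fun t => (-1 : ℂ) ^ r * t) (h (S⁻¹ • q))
    simp only [hrot, Finset.mul_sum, mul_zero] at h1
    have h2 : ∀ i ∈ s, a i * (if 2 ∣ r + genWt i then 2 else 0) * evalVec UpperHalfPlane.I i q
        = a i * evalVec UpperHalfPlane.I i q
          + (-1) ^ r * (a i * ((-1) ^ genWt i * evalVec UpperHalfPlane.I i q)) := by
      intro i _
      by_cases hdv : 2 ∣ r + genWt i
      · have : ((-1 : ℂ)) ^ (r + genWt i) = 1 := (even_iff_two_dvd.mpr hdv).neg_one_pow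
        rw [if_pos hdv]
        linear_combination -(a i * evalVec UpperHalfPlane.I i q) *
          ((pow_add (-1 : ℂ) r (genWt i)).symm.trans this)
      · have : ((-1 : ℂ)) ^ (r + genWt i) = -1 :=
          (Nat.not_even_iff_odd.mp (fun e => hdv (even_iff_two_dvd.mp e))).neg_one_pow
        rw [if_neg hdv]
        linear_combination -(a i * evalVec UpperHalfPlane.I i q) *
          ((pow_add (-1 : ℂ) r (genWt i)).symm.trans this)
    rw [Finset.sum_congr rfl h2, Finset.sum_add_distrib, h q, zero_add]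
    exact h1
  set cl := s.filter (fun i => 2 ∣ r + genWt i) with hcl
  set K : ℕ := r + 2 * s.sup genWt with hK
  have h4 : E₄ UpperHalfPlane.I ≠ 0 := fun e => not_common_zero _ e E6_I
  have hcore := eval_core (l := 3) (K := (K : ℤ)) (modFun_weight (by norm_num) E6_mem) tendsto_E6
    (fun z hz => by
      rw [(hasDerivAt_of_D (ModularFormClass.holo E₆) z).deriv, D_E6, hz]
      refine mul_ne_zero Complex.two_pi_I_ne_zero ?_
      have : E₄ z ≠ 0 := fun e => not_common_zero z e hz
      simp [this])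
    E6_I (fun z hz => exists_smul_eq_of_E6_eq_zero hz) cl
    (fun i => (a i / E₄ UpperHalfPlane.I ^ ((K - genWt i) / 2))
      • ((E₄ : ℍ → ℂ) ^ ((K - genWt i) / 2)))
    (fun i hi => by
      obtain ⟨hi1, hi2⟩ := Finset.mem_filter.mp hi
      have hle : genWt i ≤ s.sup genWt := Finset.le_sup hi1
      refine Submodule.smul_mem _ _ (modFun_weight ?_ (modFun_pow E4_mem _))
      have : 2 * ((K - genWt i) / 2) = K - genWt i := Nat.mul_div_cancel' (by omega)
      have hle' : genWt i ≤ K := by omega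
      have : (2 : ℤ) * (((K - genWt i) / 2 : ℕ) : ℤ) = (K : ℤ) - genWt i := by
        rw [← Nat.cast_sub hle']; exact_mod_cast this
      linarith)
    (fun q => by
      have hval : ∀ i, ((a i / E₄ UpperHalfPlane.I ^ ((K - genWt i) / 2))
          • ((E₄ : ℍ → ℂ) ^ ((K - genWt i) / 2))) UpperHalfPlane.I = a i := fun i => by
        simp only [Pi.smul_apply, Pi.pow_apply, smul_eq_mul]
        exact div_mul_cancel₀ _ (pow_ne_zero _ h4)
      simp only [hval]
      have := hclass q
      simp only [mul_ite, ite_mul, mul_zero, zero_mul] at this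
      rw [← Finset.sum_filter, ← hcl] at this
      simp only [mul_right_comm (_ : ℂ) (2 : ℂ)] at this
      rw [← Finset.sum_mul] at this
      simpa using this)
  have := hcore i₀ (Finset.mem_filter.mpr ⟨hi₀, ⟨genWt i₀, by omega⟩⟩)
  simp only [Pi.smul_apply, Pi.pow_apply, smul_eq_mul, div_mul_cancel₀ _ (pow_ne_zero _ h4)] at this
  exact this

/-- At every point the evaluation vectors of the generators are linearly independent. -/
theorem eval_indep (τ : ℍ) (s : Finset (GenIdx N)) (a : GenIdx N → ℂ)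
    (h : ∀ q : Coset N, ∑ i ∈ s, a i * evalVec τ i q = 0) : ∀ i ∈ s, a i = 0 := by
  have transport : ∀ (τ₀ : ℍ), (∀ b : GenIdx N → ℂ,
      (∀ q : Coset N, ∑ i ∈ s, b i * evalVec τ₀ i q = 0) → ∀ i ∈ s, b i = 0) →
      ∀ σ : SL(2, ℤ), σ • τ₀ = τ → ∀ i ∈ s, a i = 0 := by
    intro τ₀ h0 σ hσ i hi
    subst hσ
    have := h0 (fun i => a i * denom σ τ₀ ^ (2 * genWt i)) (fun q => by
      have := h (σ • q)
      simp only [evalVec_smul, inv_smul_smul] at this
      rw [← this]
      exact Finset.sum_congr rfl fun i _ => by ring) i hi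
    exact (mul_eq_zero.mp this).resolve_right (pow_ne_zero _ (denom_ne_zero _ _))
  by_cases h4 : E₄ τ = 0
  · obtain ⟨σ, hσ⟩ := exists_smul_eq_of_E4_eq_zero h4
    exact transport _ (fun b => eval_indep_ρ s b) σ hσ
  by_cases h6 : E₆ τ = 0
  · obtain ⟨σ, hσ⟩ := exists_smul_eq_of_E6_eq_zero h6
    exact transport _ (fun b => eval_indep_I s b) σ hσ
  exact eval_indep_generic h4 h6 s a h

theorem linearIndependent_evalVec (τ : ℍ) :
    LinearIndependent ℂ (fun i : GenIdx N => evalVec τ i) := by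
  rw [linearIndependent_iff']
  intro s a hsum
  exact eval_indep τ s a fun q => by
    have := congrFun hsum q
    simpa [Finset.sum_apply] using this

instance genIdx_finite : Finite (GenIdx N) :=
  (linearIndependent_evalVec (N := N) UpperHalfPlane.I).finite

lemma card_genIdx_le : Nat.card (GenIdx N) ≤ Nat.card (Coset N) := by
  have : Fintype (GenIdx N) := Fintype.ofFinite _
  have : Fintype (Coset N) := Fintype.ofFinite _
  rw [Nat.card_eq_fintype_card, Nat.card_eq_fintype_card]
  refine le_of_le_of_eq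
    (linearIndependent_evalVec (N := N) UpperHalfPlane.I).fintype_card_le_finrank ?_
  exact Module.finrank_fintype_fun_eq_card ℂ

end Fermat.Agent.Period
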