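import Fermat.Agent.Period.ModFun
import Mathlib.LinearAlgebra.Basis.VectorSpace
import Mathlib.LinearAlgebra.Finsupp.LinearCombination

/-!
# A free basis of the modular forms on Γ₀(N) over ℂ[E₄, E₆]

Main results: `gen_mem`, `exists_sum_gen`, `gen_indep`.
-/

set_option autoImplicit false

noncomputable section

namespace Fermat.Agent.Period

open UpperHalfPlane CongruenceSubgroup EisensteinSeries ModularForm
open scoped MatrixGroups ModularForm

variable (N : ℕ)

/-- Modular forms of weight `2m` on `Γ₀(N)`. -/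
abbrev evForms (m : ℤ) : Submodule ℂ (ℍ → ℂ) := modFun (Gamma0 N) (2 * m)

/-- The part of weight `2m` coming from lower weights. -/
def decomposable (m : ℕ) : Submodule ℂ (evForms N m) :=
  (((evForms N ((m : ℤ) - 2)).map (LinearMap.mulLeft ℂ (E₄ : ℍ → ℂ))) ⊔
    ((evForms N ((m : ℤ) - 3)).map (LinearMap.mulLeft ℂ (E₆ : ℍ → ℂ)))).comap (evForms N m).subtype

/-- A complement of the decomposable part. -/
def primitivePart (m : ℕ) : Submodule ℂ (evForms N m) :=
  (exists_isCompl (decomposable N m)).choose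

lemma isCompl_primitivePart (m : ℕ) : IsCompl (decomposable N m) (primitivePart N m) :=
  (exists_isCompl (decomposable N m)).choose_spec

/-- Index type of the free generators; the first component is half the weight. -/
def GenIdx : Type := Σ m : ℕ, Module.Basis.ofVectorSpaceIndex ℂ (primitivePart N m)

variable {N}

/-- Half the weight of a generator. -/
def genWt (i : GenIdx N) : ℕ := i.1

/-- The generator as a function. -/
def gen (i : GenIdx N) : ℍ → ℂ :=
  (((Module.Basis.ofVectorSpace ℂ (primitivePart N i.1) i.2) : evForms N i.1) : ℍ → ℂ)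

lemma gen_mem (i : GenIdx N) : gen i ∈ evForms N (genWt i) := Subtype.mem _

lemma mul_gen_mem {K : ℤ} {i : GenIdx N} {P : ℍ → ℂ} (hP : P ∈ lev (2 * (K - genWt i))) :
    P * gen i ∈ evForms N K :=
  modFun_weight (by ring) (modFun_mul (lev_le hP) (gen_mem i))

lemma E4_mul_mem {K : ℤ} {P : ℍ → ℂ} {Γ : Subgroup SL(2, ℤ)}
    (hP : P ∈ modFun Γ (2 * (K - 2))) : (E₄ : ℍ → ℂ) * P ∈ modFun Γ (2 * K) :=
  modFun_weight (by ring) (modFun_mul (lev_le E4_mem) hP)

lemma E6_mul_mem {K : ℤ} {P : ℍ → ℂ} {Γ : Subgroup SL(2, ℤ)}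
    (hP : P ∈ modFun Γ (2 * (K - 3))) : (E₆ : ℍ → ℂ) * P ∈ modFun Γ (2 * K) :=
  modFun_weight (by ring) (modFun_mul (lev_le E6_mem) hP)

variable (N)

/-- The span of the generators in weight `2K`. -/
def genSpan (K : ℤ) : Submodule ℂ (ℍ → ℂ) :=
  ⨆ i : GenIdx N, (lev (2 * (K - genWt i))).map (LinearMap.mulRight ℂ (gen i))

variable {N}

lemma genSpan_mul (L : ℍ → ℂ) {K K' : ℤ} (hL : ∀ {J : ℤ} {P : ℍ → ℂ},
      P ∈ lev (2 * J) → L * P ∈ lev (2 * (J + (K - K')))) {f : ℍ → ℂ} (hf : f ∈ genSpan N K') :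
    L * f ∈ genSpan N K := by
  suffices genSpan N K' ≤ (genSpan N K).comap (LinearMap.mulLeft ℂ L) from this hf
  refine iSup_le fun i => ?_
  rintro _ ⟨P, hP, rfl⟩
  refine Submodule.mem_iSup_of_mem i ⟨L * P, modFun_weight (by ring) (hL hP), ?_⟩
  simp [mul_assoc]

theorem evForms_le_genSpan [NeZero N] (K : ℤ) : evForms N K ≤ genSpan N K := by
  suffices ∀ (n : ℕ) (K : ℤ), K < n → evForms N K ≤ genSpan N K from
    this (K + 1).toNat.succ K (by omega)
  intro n
  induction n with
  | zero =>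
    intro K hK f hf
    rw [modFun_eq_zero_of_neg (by omega) hf]
    exact zero_mem _
  | succ n ih =>
    intro K hK
    rcases lt_or_ge K 0 with h | h
    · intro f hf
      rw [modFun_eq_zero_of_neg (by omega) hf]
      exact zero_mem _
    obtain ⟨m, rfl⟩ : ∃ m : ℕ, K = m := ⟨K.toNat, by omega⟩
    intro f hf
    have htop := (isCompl_primitivePart N m).sup_eq_top
    have hmem : (⟨f, hf⟩ : evForms N m) ∈ decomposable N m ⊔ primitivePart N m :=
      htop ▸ Submodule.mem_top
    obtain ⟨x, hx, y, hy, hxy⟩ := Submodule.mem_sup.mp hmem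
    have hf' : f = (x : ℍ → ℂ) + (y : ℍ → ℂ) := (congrArg Subtype.val hxy).symm
    rw [hf']
    refine add_mem ?_ ?_
    · obtain ⟨_, ⟨a, ha, rfl⟩, _, ⟨b, hb, rfl⟩, hab⟩ := Submodule.mem_sup.mp
        (show (x : ℍ → ℂ) ∈ _ from hx)
      rw [← hab]
      refine add_mem ?_ ?_
      · exact genSpan_mul (E₄ : ℍ → ℂ) (fun {J P} hP => modFun_weight (by ring)
          (modFun_mul E4_mem hP)) (ih _ (by omega) ha)
      · exact genSpan_mul (E₆ : ℍ → ℂ) (fun {J P} hP => modFun_weight (by ring)
          (modFun_mul E6_mem hP)) (ih _ (by omega) hb)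
    · have hspan : (⟨y, hy⟩ : primitivePart N m) ∈
          Submodule.span ℂ (Set.range (Module.Basis.ofVectorSpace ℂ (primitivePart N m))) := by
        rw [Module.Basis.span_eq]; exact Submodule.mem_top
      have hall : ∀ z ∈ Submodule.span ℂ
          (Set.range (Module.Basis.ofVectorSpace ℂ (primitivePart N m))),
          ((z : evForms N m) : ℍ → ℂ) ∈ genSpan N m := by
        intro z hz
        induction hz using Submodule.span_induction with
        | mem z hz =>
          obtain ⟨b, rfl⟩ := hz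
          refine Submodule.mem_iSup_of_mem ⟨m, b⟩ ⟨fun _ => 1, modFun_weight ?_ (const_mem_lev 1), ?_⟩
          · simp [genWt]
          · funext τ; simp [gen]
        | zero => simp
        | add u v _ _ hu hv => exact add_mem hu hv
        | smul c u _ hu => exact Submodule.smul_mem _ c hu
      exact hall ⟨y, hy⟩ hspan

/-- Every form is a combination of the generators. -/
theorem exists_sum_gen [NeZero N] {K : ℤ} {f : ℍ → ℂ} (hf : f ∈ evForms N K) :
    ∃ (s : Finset (GenIdx N)) (P : GenIdx N → ℍ → ℂ),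
      (∀ i, P i ∈ lev (2 * (K - genWt i))) ∧ (∀ i ∉ s, P i = 0) ∧
        f = ∑ i ∈ s, P i * gen i := by
  classical
  obtain ⟨c, hc, hsum⟩ := (Submodule.mem_iSup_iff_exists_finsupp _ _).mp (evForms_le_genSpan K hf)
  choose P hP hPc using hc
  refine ⟨c.support, fun i => if i ∈ c.support then P i else 0, fun i => ?_,
    fun i hi => if_neg hi, ?_⟩
  · dsimp only
    by_cases h : i ∈ c.support
    · rw [if_pos h]; exact hP i
    · rw [if_neg h]; exact zero_mem _
  · rw [← hsum, Finsupp.sum]
    exact Finset.sum_congr rfl fun i hi => by dsimp only; rw [if_pos hi, ← hPc i]; rfl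

/-- The generators are independent over level one forms. -/
theorem gen_indep [NeZero N] {K : ℤ} (s : Finset (GenIdx N)) (P : GenIdx N → ℍ → ℂ)
    (hP : ∀ i ∈ s, P i ∈ lev (2 * (K - genWt i))) (h : ∑ i ∈ s, P i * gen i = 0) :
    ∀ i ∈ s, P i = 0 := by
  classical
  suffices ∀ (n : ℕ) (K : ℤ), K < n → ∀ (s : Finset (GenIdx N)) (P : GenIdx N → ℍ → ℂ),
      (∀ i ∈ s, P i ∈ lev (2 * (K - genWt i))) → ∑ i ∈ s, P i * gen i = 0 → ∀ i ∈ s, P i = 0 from
    this (K + 1).toNat.succ K (by omega) s P hP h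
  clear hP h P s K
  intro n
  induction n with
  | zero =>
    intro K hK s P hP _ i hi
    exact modFun_eq_zero_of_neg (by omega) (hP i hi)
  | succ n ih =>
    intro K hK s P hP h
    rcases lt_or_ge K 0 with hneg | hnn
    · exact fun i hi => modFun_eq_zero_of_neg (by omega) (hP i hi)
    obtain ⟨m, rfl⟩ : ∃ m : ℕ, K = m := ⟨K.toNat, by omega⟩
    -- decompose each coefficient
    have hdec : ∀ i, ∃ (b : ℂ) (Q R : ℍ → ℂ), Q ∈ lev (2 * ((m : ℤ) - 2 - genWt i)) ∧
        R ∈ lev (2 * ((m : ℤ) - 3 - genWt i)) ∧ (genWt i ≠ m → b = 0) ∧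
        (i ∈ s → P i = (fun _ => b) + ((E₄ : ℍ → ℂ) * Q + (E₆ : ℍ → ℂ) * R)) := by
      intro i
      by_cases hi : i ∈ s
      · rcases eq_or_ne (genWt i) m with e | e
        · obtain ⟨b, hb⟩ := lev_weight_zero (modFun_weight (by rw [e]; ring) (hP i hi))
          exact ⟨b, 0, 0, zero_mem _, zero_mem _, fun h => absurd e h,
            fun _ => by simp [hb]⟩
        · obtain ⟨Q, hQ, R, hR, hQR⟩ := lev_decomp (m := (m : ℤ) - genWt i)
            (by omega) (hP i hi)
          exact ⟨0, Q, R, modFun_weight (by ring) hQ, modFun_weight (by ring) hR, fun _ => rfl,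
            fun _ => by rw [hQR]; funext τ; simp⟩
      · exact ⟨0, 0, 0, zero_mem _, zero_mem _, fun _ => rfl, fun h => absurd h hi⟩
    choose b Q R hQ hR hb hPeq using hdec
    set A := ∑ i ∈ s, Q i * gen i with hA
    set B := ∑ i ∈ s, R i * gen i with hB
    have hAm : A ∈ evForms N ((m : ℤ) - 2) := sum_mem fun i _ => mul_gen_mem (hQ i)
    have hBm : B ∈ evForms N ((m : ℤ) - 3) := sum_mem fun i _ => mul_gen_mem (hR i)
    have hsplit : ∑ i ∈ s, b i • gen i + ((E₄ : ℍ → ℂ) * A + (E₆ : ℍ → ℂ) * B) = 0 := by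
      rw [← h, hA, hB, Finset.mul_sum, Finset.mul_sum, ← Finset.sum_add_distrib,
        ← Finset.sum_add_distrib]
      refine Finset.sum_congr rfl fun i hi => ?_
      rw [hPeq i hi]
      funext τ
      simp only [Pi.add_apply, Pi.mul_apply, Pi.smul_apply, smul_eq_mul]
      ring
    -- the constants vanish
    set emb : primitivePart N m →ₗ[ℂ] (ℍ → ℂ) :=
      (evForms N m).subtype ∘ₗ (primitivePart N m).subtype with hemb
    set t := s.preimage (fun b' => (⟨m, b'⟩ : GenIdx N)) (by
      intro x _ y _ hxy; exact eq_of_heq (Sigma.mk.inj_iff.mp hxy).2) with ht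
    set v : primitivePart N m :=
      ∑ b' ∈ t, b ⟨m, b'⟩ • Module.Basis.ofVectorSpace ℂ (primitivePart N m) b' with hv
    have hsum : ∑ i ∈ s, b i • gen i = emb v := by
      rw [hv, map_sum, ← Finset.sum_filter_of_ne (p := fun i => genWt i = m)]
      · refine Finset.sum_bij' (fun i hi => (Finset.mem_filter.mp hi).2 ▸ i.2)
          (fun b' _ => (⟨m, b'⟩ : GenIdx N)) ?_ ?_ ?_ ?_ ?_
        · rintro ⟨k, x⟩ hi
          obtain ⟨hi1, rfl : k = m⟩ := Finset.mem_filter.mp hi
          exact Finset.mem_preimage.mpr hi1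
        · intro b' hb'
          exact Finset.mem_filter.mpr ⟨Finset.mem_preimage.mp hb', rfl⟩
        · rintro ⟨k, x⟩ hi
          obtain ⟨hi1, rfl : k = m⟩ := Finset.mem_filter.mp hi
          rfl
        · intro b' hb'; rfl
        · rintro ⟨k, x⟩ hi
          obtain ⟨hi1, rfl : k = m⟩ := Finset.mem_filter.mp hi
          simp [hemb, gen]
      · intro i _ hne
        by_contra hh
        exact hne (by rw [hb i hh, zero_smul])
    have hvdec : (v : evForms N m) ∈ decomposable N m := by
      rw [decomposable, Submodule.mem_comap]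
      show emb v ∈ _
      rw [← hsum, eq_neg_of_add_eq_zero_left hsplit]
      exact neg_mem (Submodule.add_mem_sup ⟨A, hAm, rfl⟩ ⟨B, hBm, rfl⟩)
    have hv0 : v = 0 := by
      apply Subtype.ext
      exact (Submodule.mem_bot ℂ).mp
        ((isCompl_primitivePart N m).inf_eq_bot ▸ ⟨hvdec, v.2⟩)
    have hb0 : ∀ i ∈ s, b i = 0 := by
      intro i hi
      by_cases e : genWt i = m
      · obtain ⟨k, x⟩ := i
        obtain rfl : k = m := e
        exact linearIndependent_iff'.mp (Module.Basis.ofVectorSpace ℂ (primitivePart N k)).linearIndependent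
          t (fun b' => b ⟨k, b'⟩) (hv ▸ hv0) x (Finset.mem_preimage.mpr hi)
      · exact hb i e
    have hAB : (E₄ : ℍ → ℂ) * A + (E₆ : ℍ → ℂ) * B = 0 := by
      rwa [Finset.sum_eq_zero fun i hi => by rw [hb0 i hi, zero_smul], zero_add] at hsplit
    obtain ⟨H, hH, hAH, hBH⟩ := modFun_regular (k := 2 * (m : ℤ)) (modFun_weight (by ring) hAm)
      (modFun_weight (by ring) hBm) hAB
    obtain ⟨u, S', hS', hSout, hHsum⟩ := exists_sum_gen (K := (m : ℤ) - 5)
      (modFun_weight (by ring) hH)
    have hext : ∀ (F : GenIdx N → ℍ → ℂ),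
        ∑ i ∈ s ∪ u, (if i ∈ s then F i else 0) * gen i = ∑ i ∈ s, F i * gen i := by
      intro F
      rw [← Finset.sum_subset Finset.subset_union_left]
      · exact Finset.sum_congr rfl fun i hi => by rw [if_pos hi]
      · intro i _ hi; rw [if_neg hi, zero_mul]
    have hHsum' : H = ∑ i ∈ s ∪ u, S' i * gen i := by
      rw [hHsum]
      exact Finset.sum_subset Finset.subset_union_right fun i _ hi => by rw [hSout i hi, zero_mul]
    have hQ' : ∀ i ∈ s ∪ u, (if i ∈ s then Q i else 0) - (E₆ : ℍ → ℂ) * S' i = 0 := by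
      refine ih ((m : ℤ) - 2) (by omega) _ _ (fun i _ => sub_mem ?_ ?_) ?_
      · split_ifs
        · exact hQ i
        · exact zero_mem _
      · exact modFun_weight (by ring) (modFun_mul E6_mem (hS' i))
      · simp only [sub_mul, Finset.sum_sub_distrib, hext, mul_assoc, ← Finset.mul_sum, ← hHsum',
          ← hA, hAH, sub_self]
    have hR' : ∀ i ∈ s ∪ u, (if i ∈ s then R i else 0) + (E₄ : ℍ → ℂ) * S' i = 0 := by
      refine ih ((m : ℤ) - 3) (by omega) _ _ (fun i _ => add_mem ?_ ?_) ?_
      · split_ifs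
        · exact hR i
        · exact zero_mem _
      · exact modFun_weight (by ring) (modFun_mul E4_mem (hS' i))
      · simp only [add_mul, Finset.sum_add_distrib, hext, mul_assoc, ← Finset.mul_sum, ← hHsum',
          ← hB, hBH, neg_add_cancel]
    intro i hi
    have h1 := hQ' i (Finset.mem_union_left _ hi)
    have h2 := hR' i (Finset.mem_union_left _ hi)
    rw [if_pos hi, sub_eq_zero] at h1
    rw [if_pos hi, add_eq_zero_iff_eq_neg] at h2
    rw [hPeq i hi, hb0 i hi, h1, h2]
    funext τ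
    simp only [Pi.add_apply, Pi.mul_apply, Pi.neg_apply, Pi.zero_apply]
    ring

end Fermat.Agent.Period
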