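import Fermat.Agent.Period.LevelOne
import Fermat.Agent.Period.Primitive
import Mathlib.NumberTheory.ModularForms.NormTrace

/-!
# Modular forms as functions

`modFun Γ k` is the space of weight `k` modular forms on `Γ ≤ SL(2,ℤ)` as a submodule of `ℍ → ℂ`;
`lev k` is level one. Main results: `modFun_eq_zero_of_neg`, `lev_decomp`, `modFun_div`,
`modFun_regular`.
-/

set_option autoImplicit false

noncomputable section

namespace Fermat.Agent.Period

open UpperHalfPlane Filter Topology ModularGroup EisensteinSeries ModularForm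
open scoped MatrixGroups ModularForm Real Manifold

local notation "Δ" => ModularForm.discriminant

lemma SL_smul_slash' (k : ℤ) (γ : SL(2, ℤ)) (c : ℂ) (f : ℍ → ℂ) :
    (c • f) ∣[k] γ = c • (f ∣[k] γ) := by
  ext τ
  simp [ModularForm.SL_slash_apply, mul_assoc]

/-- Modular forms of weight `k` on `Γ`, as functions. -/
def modFun (Γ : Subgroup SL(2, ℤ)) (k : ℤ) : Submodule ℂ (ℍ → ℂ) where
  carrier := {f | MDifferentiable 𝓘(ℂ) 𝓘(ℂ) f ∧ (∀ γ ∈ Γ, f ∣[k] γ = f) ∧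
    ∀ δ : SL(2, ℤ), IsBoundedAtImInfty (f ∣[k] δ)}
  zero_mem' := ⟨mdifferentiable_const, fun γ _ => SlashAction.zero_slash k γ, fun δ => by
    rw [SlashAction.zero_slash]; exact Filter.const_boundedAtFilter _ (0 : ℂ)⟩
  add_mem' := by
    rintro f g ⟨hf1, hf2, hf3⟩ ⟨hg1, hg2, hg3⟩
    refine ⟨hf1.add hg1, fun γ hγ => ?_, fun δ => ?_⟩
    · rw [SlashAction.add_slash, hf2 γ hγ, hg2 γ hγ]
    · rw [SlashAction.add_slash]; exact (hf3 δ).add (hg3 δ)
  smul_mem' := by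
    rintro c f ⟨hf1, hf2, hf3⟩
    refine ⟨hf1.const_smul c, fun γ hγ => ?_, fun δ => ?_⟩
    · rw [SL_smul_slash', hf2 γ hγ]
    · rw [SL_smul_slash']; exact (hf3 δ).smul c

/-- Level one modular forms, as functions. -/
abbrev lev (k : ℤ) : Submodule ℂ (ℍ → ℂ) := modFun ⊤ k

variable {Γ : Subgroup SL(2, ℤ)}

lemma modFun.holo {k : ℤ} {f : ℍ → ℂ} (hf : f ∈ modFun Γ k) : MDifferentiable 𝓘(ℂ) 𝓘(ℂ) f := hf.1

lemma modFun.slash_eq {k : ℤ} {f : ℍ → ℂ} (hf : f ∈ modFun Γ k) {γ : SL(2, ℤ)} (hγ : γ ∈ Γ) :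
    f ∣[k] γ = f := hf.2.1 γ hγ

lemma modFun.bdd {k : ℤ} {f : ℍ → ℂ} (hf : f ∈ modFun Γ k) (δ : SL(2, ℤ)) :
    IsBoundedAtImInfty (f ∣[k] δ) := hf.2.2 δ

lemma lev.slash_eq {k : ℤ} {f : ℍ → ℂ} (hf : f ∈ lev k) (γ : SL(2, ℤ)) : f ∣[k] γ = f :=
  modFun.slash_eq hf (Subgroup.mem_top γ)

lemma lev_le {k : ℤ} : lev k ≤ modFun Γ k :=
  fun _ hf => ⟨hf.1, fun γ _ => hf.2.1 γ (Subgroup.mem_top γ), hf.2.2⟩

lemma modFun_weight {k l : ℤ} (h : k = l) {f : ℍ → ℂ} (hf : f ∈ modFun Γ k) : f ∈ modFun Γ l :=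
  h ▸ hf

lemma modFun_mul {k l : ℤ} {f g : ℍ → ℂ} (hf : f ∈ modFun Γ k) (hg : g ∈ modFun Γ l) :
    f * g ∈ modFun Γ (k + l) := by
  refine ⟨hf.1.mul hg.1, fun γ hγ => ?_, fun δ => ?_⟩
  · rw [ModularForm.mul_slash_SL2, hf.2.1 γ hγ, hg.2.1 γ hγ]
  · rw [ModularForm.mul_slash_SL2]; exact (hf.2.2 δ).mul (hg.2.2 δ)

lemma const_mem_lev (c : ℂ) : (fun _ => c) ∈ lev 0 := by
  refine ⟨mdifferentiable_const, fun γ _ => ModularForm.is_invariant_const γ c, fun δ => ?_⟩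
  have h : ((fun _ => c) : ℍ → ℂ) ∣[(0 : ℤ)] δ = fun _ => c := ModularForm.is_invariant_const δ c
  rw [h]
  exact Filter.const_boundedAtFilter _ c

lemma modFun_pow {k : ℤ} {f : ℍ → ℂ} (hf : f ∈ lev k) (n : ℕ) : f ^ n ∈ lev (n * k) := by
  induction n with
  | zero => exact modFun_weight (by simp) (const_mem_lev 1)
  | succ i hi => rw [pow_succ]; exact modFun_weight (by push_cast; ring) (modFun_mul hi hf)

lemma levelOne_mem_lev {k : ℤ} (f : ModularForm 𝒮ℒ k) : (f : ℍ → ℂ) ∈ lev k :=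
  ⟨ModularFormClass.holo f, fun γ _ => slash_SL_levelOne f γ,
    fun δ => by rw [slash_SL_levelOne f δ]
                exact (tendsto_atImInfty_of_coeff_zero f).isBigO_one ℝ⟩

lemma E4_mem : (E₄ : ℍ → ℂ) ∈ lev 4 := levelOne_mem_lev E₄

lemma E6_mem : (E₆ : ℍ → ℂ) ∈ lev 6 := levelOne_mem_lev E₆

lemma Δ_mem : Δ ∈ lev 12 := by
  simpa using levelOne_mem_lev (ModularFormClass.modularForm CuspForm.discriminant)

/-- Package an element of `modFun` as a `ModularForm`. -/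
def toModularForm (Γ : Subgroup SL(2, ℤ)) [Γ.FiniteIndex] {k : ℤ} {f : ℍ → ℂ}
    (hf : f ∈ modFun Γ k) : ModularForm (Γ : Subgroup (GL (Fin 2) ℝ)) k where
  toFun := f
  slash_action_eq' A hA := by
    obtain ⟨γ, hγ, rfl⟩ := Subgroup.mem_map.mp hA
    exact hf.2.1 γ hγ
  holo' := hf.1
  bdd_at_cusps' hc := by
    rw [Subgroup.IsArithmetic.isCusp_iff_isCusp_SL2Z] at hc
    rw [OnePoint.isBoundedAt_iff_forall_SL2Z hc]
    exact fun γ _ => hf.2.2 γ

lemma modFun_eq_zero_of_neg [Γ.FiniteIndex] {k : ℤ} (hk : k < 0) {f : ℍ → ℂ}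
    (hf : f ∈ modFun Γ k) : f = 0 :=
  congrArg DFunLike.coe (ModularForm.isZero_of_neg_weight hk (toModularForm Γ hf))

lemma lev_weight_two {f : ℍ → ℂ} (hf : f ∈ lev 2) : f = 0 := by
  let F : ModularForm 𝒮ℒ 2 :=
    { toFun := f
      slash_action_eq' := fun A hA => by
        obtain ⟨γ, rfl⟩ := hA
        exact lev.slash_eq hf γ
      holo' := hf.1
      bdd_at_cusps' := fun hc => by
        rw [Subgroup.IsArithmetic.isCusp_iff_isCusp_SL2Z] at hc
        rw [OnePoint.isBoundedAt_iff_forall_SL2Z hc]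
        exact fun γ _ => hf.2.2 γ }
  exact congrArg DFunLike.coe (rank_zero_iff_forall_zero.mp levelOne_weight_two_rank_zero F)

lemma lev_weight_zero {f : ℍ → ℂ} (hf : f ∈ lev 0) : ∃ c : ℂ, f = fun _ => c := by
  let F : ModularForm 𝒮ℒ 0 :=
    { toFun := f
      slash_action_eq' := fun A hA => by
        obtain ⟨γ, rfl⟩ := hA
        exact lev.slash_eq hf γ
      holo' := hf.1
      bdd_at_cusps' := fun hc => by
        rw [Subgroup.IsArithmetic.isCusp_iff_isCusp_SL2Z] at hc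
        rw [OnePoint.isBoundedAt_iff_forall_SL2Z hc]
        exact fun γ _ => hf.2.2 γ }
  obtain ⟨c, hc⟩ := ModularFormClass.levelOne_weight_zero_const F
  exact ⟨c, hc⟩

lemma periodic_of_slash_T {k : ℤ} {g : ℍ → ℂ} (h : g ∣[k] T = g) :
    Function.Periodic (g ∘ ofComplex) ((1 : ℝ) : ℂ) := by
  have := periodic_comp_ofComplex_of_slash_T (n := 1) (by simpa using h)
  simpa using this

lemma lev_periodic {k : ℤ} {f : ℍ → ℂ} (hf : f ∈ lev k) :
    Function.Periodic (f ∘ ofComplex) ((1 : ℝ) : ℂ) :=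
  periodic_of_slash_T (lev.slash_eq hf T)

lemma tendsto_lev {k : ℤ} {f : ℍ → ℂ} (hf : f ∈ lev k) :
    ∃ a, Tendsto f atImInfty (𝓝 a) := by
  have hb : IsBoundedAtImInfty f := by simpa using hf.2.2 1
  have han := analyticAt_cuspFunction_zero one_pos (lev_periodic hf) hf.1 hb
  refine ⟨cuspFunction 1 f 0,
    (han.continuousAt.tendsto.comp (qParam_tendsto_atImInfty one_pos)).congr fun τ => ?_⟩
  exact eq_cuspFunction τ one_ne_zero (lev_periodic hf)

/-- A periodic function vanishing at `∞` is bounded by `Δ`. -/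
lemma isBounded_div_discriminant {g : ℍ → ℂ} (hper : Function.Periodic (g ∘ ofComplex) ((1 : ℝ) : ℂ))
    (hd : MDifferentiable 𝓘(ℂ) 𝓘(ℂ) g) (h0 : IsZeroAtImInfty g) :
    IsBoundedAtImInfty (fun τ => g τ / Δ τ) := by
  have h1 := h0.exp_decay_atImInfty one_pos hper hd h0.isBoundedAtImInfty
  simp only [div_one] at h1
  have h2 : g =O[atImInfty] Δ := h1.trans exp_isBigO_discriminant
  obtain ⟨C, hC⟩ := h2.bound
  refine Asymptotics.IsBigO.of_bound C ?_
  filter_upwards [hC] with τ hτ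
  rw [Pi.one_apply, norm_one, mul_one, norm_div, div_le_iff₀ (norm_pos_iff.mpr (discriminant_ne_zero τ))]
  exact hτ

lemma mdifferentiable_div_discriminant {g : ℍ → ℂ} (hd : MDifferentiable 𝓘(ℂ) 𝓘(ℂ) g) :
    MDifferentiable 𝓘(ℂ) 𝓘(ℂ) (fun τ => g τ / Δ τ) := by
  rw [mdifferentiable_iff] at hd ⊢
  exact hd.div (mdifferentiable_iff.mp Δ_mem.1) (fun z hz => discriminant_ne_zero _)

lemma div_discriminant_slash {k : ℤ} (g : ℍ → ℂ) (δ : SL(2, ℤ)) :
    (fun τ => g τ / Δ τ) ∣[k - 12] δ = fun τ => (g ∣[k] δ) τ / Δ τ := by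
  have h := ModularForm.mul_slash_SL2 (k - 12) 12 δ (fun τ => g τ / Δ τ) Δ
  have hg : (fun τ => g τ / Δ τ) * Δ = g := funext fun τ => by
    simp [discriminant_ne_zero τ]
  rw [hg, show k - 12 + 12 = k by ring, lev.slash_eq Δ_mem δ] at h
  funext τ
  rw [h, Pi.mul_apply, mul_div_assoc, div_self (discriminant_ne_zero τ), mul_one]

lemma div_discriminant_mem {k : ℤ} {f : ℍ → ℂ} (hf : f ∈ modFun Γ k)
    (hb : ∀ δ : SL(2, ℤ), IsBoundedAtImInfty (fun τ => (f ∣[k] δ) τ / Δ τ)) :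
    (fun τ => f τ / Δ τ) ∈ modFun Γ (k - 12) := by
  refine ⟨mdifferentiable_div_discriminant hf.1, fun γ hγ => ?_, fun δ => ?_⟩
  · rw [div_discriminant_slash, hf.2.1 γ hγ]
  · rw [div_discriminant_slash]; exact hb δ

lemma discriminant_apply (z : ℍ) : Δ z = (E₄ z ^ 3 - E₆ z ^ 2) / 1728 :=
  discriminant_eq_E₄_cube_sub_E₆_sq z

/-- Level one forms of weight `2m`, `m ≠ 0`, lie in the ideal generated by `E₄, E₆`. -/
lemma lev_decomp {m : ℤ} (hm : m ≠ 0) {f : ℍ → ℂ} (hf : f ∈ lev (2 * m)) :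
    ∃ Q ∈ lev (2 * (m - 2)), ∃ R ∈ lev (2 * (m - 3)),
      f = (E₄ : ℍ → ℂ) * Q + (E₆ : ℍ → ℂ) * R := by
  rcases lt_or_gt_of_ne hm with h | h
  · have : f = 0 := modFun_eq_zero_of_neg (by omega) hf
    exact ⟨0, zero_mem _, 0, zero_mem _, by simp [this]⟩
  rcases eq_or_lt_of_le (show (1 : ℤ) ≤ m by omega) with rfl | h2
  · have : f = 0 := lev_weight_two (modFun_weight (by norm_num) hf)
    exact ⟨0, zero_mem _, 0, zero_mem _, by simp [this]⟩
  obtain ⟨a, b, hab⟩ : ∃ a b : ℕ, (2 * a + 3 * b : ℤ) = m := by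
    obtain ⟨n, hn⟩ : ∃ n : ℕ, m = n := ⟨m.toNat, by omega⟩
    rcases Nat.even_or_odd n with ⟨i, hi⟩ | ⟨i, hi⟩
    · exact ⟨i, 0, by omega⟩
    · exact ⟨i - 1, 1, by omega⟩
  obtain ⟨c, hc⟩ := tendsto_lev hf
  set M : ℍ → ℂ := (E₄ : ℍ → ℂ) ^ a * (E₆ : ℍ → ℂ) ^ b with hM
  have hMmem : M ∈ lev (2 * m) :=
    modFun_weight (by linarith [hab]) (modFun_mul (modFun_pow E4_mem a) (modFun_pow E6_mem b))
  have hMt : Tendsto M atImInfty (𝓝 1) := by
    simpa [hM, Pi.mul_def, Pi.pow_def] using (tendsto_E4.pow a).mul (tendsto_E6.pow b)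
  set g := f - c • M with hg
  have hgmem : g ∈ lev (2 * m) := sub_mem hf (Submodule.smul_mem _ c hMmem)
  have hg0 : IsZeroAtImInfty g := by
    have h1 := hc.sub (hMt.const_mul c)
    rw [mul_one, sub_self] at h1
    exact h1
  have hGmem : (fun τ => g τ / Δ τ) ∈ lev (2 * m - 12) := by
    refine div_discriminant_mem hgmem fun δ => ?_
    rw [lev.slash_eq hgmem δ]
    exact isBounded_div_discriminant (lev_periodic hgmem) hgmem.1 hg0
  set G : ℍ → ℂ := fun τ => g τ / Δ τ with hG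
  have hfeq : ∀ τ, f τ = c * M τ + (E₄ τ ^ 3 - E₆ τ ^ 2) / 1728 * G τ := by
    intro τ
    rw [← discriminant_apply, hG]
    simp only [hg, Pi.sub_apply, Pi.smul_apply, smul_eq_mul]
    field_simp [discriminant_ne_zero τ]
    ring
  have hQ : (1728⁻¹ : ℂ) • ((E₄ : ℍ → ℂ) ^ 2 * G) ∈ lev (2 * (m - 2)) :=
    Submodule.smul_mem _ _ (modFun_weight (by push_cast; ring)
      (modFun_mul (modFun_pow E4_mem 2) hGmem))
  have hR : (-(1728⁻¹ : ℂ)) • ((E₆ : ℍ → ℂ) * G) ∈ lev (2 * (m - 3)) :=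
    Submodule.smul_mem _ _ (modFun_weight (by ring) (modFun_mul E6_mem hGmem))
  rcases a with _ | a
  · obtain ⟨b', rfl⟩ : ∃ b', b = b' + 1 := ⟨b - 1, by omega⟩
    refine ⟨_, hQ, c • (E₆ : ℍ → ℂ) ^ b' + (-(1728⁻¹ : ℂ)) • ((E₆ : ℍ → ℂ) * G),
      add_mem (Submodule.smul_mem _ _ (modFun_weight (by push_cast at hab ⊢; linarith)
        (modFun_pow E6_mem b'))) hR, funext fun τ => ?_⟩
    simp only [Pi.add_apply, Pi.mul_apply, Pi.smul_apply, Pi.pow_apply, smul_eq_mul, hfeq τ, hM]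
    ring
  · refine ⟨c • ((E₄ : ℍ → ℂ) ^ a * (E₆ : ℍ → ℂ) ^ b) + (1728⁻¹ : ℂ) • ((E₄ : ℍ → ℂ) ^ 2 * G),
      add_mem (Submodule.smul_mem _ _ (modFun_weight (by push_cast at hab ⊢; linarith)
        (modFun_mul (modFun_pow E4_mem a) (modFun_pow E6_mem b)))) hQ, _, hR,
      funext fun τ => ?_⟩
    simp only [Pi.add_apply, Pi.mul_apply, Pi.smul_apply, Pi.pow_apply, smul_eq_mul, hfeq τ, hM]
    ring

lemma continuousAt_of_holo {f : ℍ → ℂ} (hf : MDifferentiable 𝓘(ℂ) 𝓘(ℂ) f) (z : ℍ) :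
    ContinuousAt f z := hf.continuous.continuousAt

/-- Division of a modular form by a level one form with simple zeros. -/
theorem modFun_div {k l : ℤ} {f L : ℍ → ℂ} (hf : f ∈ modFun Γ k) (hL : L ∈ lev l)
    (hlim : Tendsto L atImInfty (𝓝 1))
    (hs : ∀ z : ℍ, L z = 0 → deriv (L ∘ ofComplex) (z : ℂ) ≠ 0)
    (hv : ∀ z : ℍ, L z = 0 → f z = 0) :
    ∃ h ∈ modFun Γ (k - l), f = L * h := by
  classical
  set h : ℍ → ℂ := fun z => if L z = 0 then deriv (f ∘ ofComplex) (z : ℂ) / deriv (L ∘ ofComplex) (z : ℂ)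
    else f z / L z with hh
  have hfeq : f = L * h := funext fun z => by
    by_cases hz : L z = 0
    · simp [hh, hz, hv z hz]
    · simp [hh, hz]
      field_simp
  have hdiff : MDifferentiable 𝓘(ℂ) 𝓘(ℂ) h := by
    rw [mdifferentiable_iff]
    intro w hw
    have hfd : DifferentiableOn ℂ (f ∘ ofComplex) upperHalfPlaneSet := mdifferentiable_iff.mp hf.1
    have hLd : DifferentiableOn ℂ (L ∘ ofComplex) upperHalfPlaneSet := mdifferentiable_iff.mp hL.1
    have hnb := isOpen_upperHalfPlaneSet.mem_nhds hw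
    by_cases hz : L ⟨w, hw⟩ = 0
    · have hfw : (f ∘ ofComplex) w = 0 := by
        simpa [ofComplex_apply_of_im_pos hw] using hv _ hz
      have hLw : (L ∘ ofComplex) w = 0 := by simpa [ofComplex_apply_of_im_pos hw] using hz
      have h1 := (Complex.differentiableOn_dslope hnb).mpr hfd
      have h2 := (Complex.differentiableOn_dslope hnb).mpr hLd
      have hne : dslope (L ∘ ofComplex) w w ≠ 0 := by
        rw [dslope_same]; exact hs ⟨w, hw⟩ hz
      have hcont : ContinuousAt (dslope (L ∘ ofComplex) w) w :=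
        (h2.differentiableAt hnb).continuousAt
      refine DifferentiableAt.differentiableWithinAt ?_
      refine ((h1.differentiableAt hnb).div (h2.differentiableAt hnb) hne).congr_of_eventuallyEq ?_
      filter_upwards [hcont.eventually_ne hne, hnb] with x hx hxU
      rcases eq_or_ne x w with rfl | hxw
      · simp [hh, Function.comp_apply, ofComplex_apply_of_im_pos hw, hz, dslope_same]
      · simp only [dslope_of_ne _ hxw, slope_def_field, hLw, sub_zero] at hx ⊢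
        simp only [Function.comp_apply, ofComplex_apply_of_im_pos hxU] at hx ⊢
        have hLx : L ⟨x, hxU⟩ ≠ 0 := fun e => hx (by simp [e])
        simp only [hh, hLx, ↓reduceIte]
        rw [Pi.div_apply, dslope_of_ne _ hxw, dslope_of_ne _ hxw, slope_def_field, slope_def_field, hfw, hLw,
          sub_zero, sub_zero]
        simp only [Function.comp_apply, ofComplex_apply_of_im_pos hxU]
        have : x - w ≠ 0 := sub_ne_zero.mpr hxw
        field_simp
    · refine DifferentiableAt.differentiableWithinAt ?_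
      refine ((hfd.differentiableAt hnb).div (hLd.differentiableAt hnb)
        (by simpa [ofComplex_apply_of_im_pos hw] using hz)).congr_of_eventuallyEq ?_
      have hc : ContinuousAt (L ∘ ofComplex) w := (hLd.differentiableAt hnb).continuousAt
      filter_upwards [hc.eventually_ne (by simpa [ofComplex_apply_of_im_pos hw] using hz)] with x hx
      simp only [Function.comp_apply] at hx
      simp [hh, hx, Function.comp_apply]
  refine ⟨h, ⟨hdiff, fun γ hγ => ?_, fun δ => ?_⟩, hfeq⟩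
  · have h1 : L * (h ∣[k - l] γ) = L * h := by
      rw [← hfeq]
      conv_lhs => rw [← lev.slash_eq hL γ]
      rw [← ModularForm.mul_slash_SL2, ← hfeq, show l + (k - l) = k by ring, hf.2.1 γ hγ]
    funext z
    have hd : MDifferentiable 𝓘(ℂ) 𝓘(ℂ) ((h ∣[k - l] γ) - h) := by
      refine MDifferentiable.sub ?_ hdiff
      rw [ModularForm.SL_slash]
      exact hdiff.slash _ _
    have h2 : L * ((h ∣[k - l] γ) - h) = 0 := by rw [mul_sub, h1, sub_self]
    have hL0 : L ≠ 0 := fun e => by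
      rw [e] at hlim
      exact zero_ne_one (tendsto_nhds_unique tendsto_const_nhds hlim)
    have := ((UpperHalfPlane.mul_eq_zero_iff hL.1 hd).mp h2).resolve_left hL0
    exact sub_eq_zero.mp (congrFun this z)
  · have h1 : f ∣[k] δ = L * (h ∣[k - l] δ) := by
      conv_lhs => rw [hfeq, show k = l + (k - l) by ring]
      rw [ModularForm.mul_slash_SL2, lev.slash_eq hL δ]
    obtain ⟨C, hC⟩ := (hf.2.2 δ).bound
    refine Asymptotics.IsBigO.of_bound (2 * C) ?_
    filter_upwards [hC, hlim.norm.eventually_const_lt (u := 1 / 2) (by norm_num)] with τ hτ hLτ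
    rw [h1, Pi.mul_apply, norm_mul] at hτ
    simp only [Pi.one_apply, norm_one, mul_one] at hτ ⊢
    nlinarith [norm_nonneg ((h ∣[k - l] δ) τ)]

/-- `E₄, E₆` form a regular sequence on modular forms. -/
theorem modFun_regular {k : ℤ} {A B : ℍ → ℂ} (hA : A ∈ modFun Γ (k - 4))
    (hB : B ∈ modFun Γ (k - 6)) (h : (E₄ : ℍ → ℂ) * A + (E₆ : ℍ → ℂ) * B = 0) :
    ∃ H ∈ modFun Γ (k - 10), A = (E₆ : ℍ → ℂ) * H ∧ B = -((E₄ : ℍ → ℂ) * H) := by
  have hs : ∀ z : ℍ, (E₆ : ℍ → ℂ) z = 0 → deriv ((E₆ : ℍ → ℂ) ∘ ofComplex) (z : ℂ) ≠ 0 := by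
    intro z hz
    rw [(hasDerivAt_of_D (ModularFormClass.holo E₆) z).deriv, D_E6, hz]
    refine mul_ne_zero Complex.two_pi_I_ne_zero ?_
    have h4 : E₄ z ≠ 0 := fun e => not_common_zero z e hz
    simp [h4]
  have hv : ∀ z : ℍ, (E₆ : ℍ → ℂ) z = 0 → A z = 0 := by
    intro z hz
    have h' := congrFun h z
    simp only [Pi.add_apply, Pi.mul_apply, hz, zero_mul, add_zero, Pi.zero_apply] at h'
    exact (mul_eq_zero.mp h').resolve_left fun e => not_common_zero z e hz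
  obtain ⟨H, hH, hAH⟩ := modFun_div hA E6_mem tendsto_E6 hs hv
  refine ⟨H, modFun_weight (by ring) hH, hAH, ?_⟩
  have h1 : (E₆ : ℍ → ℂ) * (B + (E₄ : ℍ → ℂ) * H) = 0 := by
    rw [hAH] at h
    rw [← h]; ring
  have hd : MDifferentiable 𝓘(ℂ) 𝓘(ℂ) (B + (E₄ : ℍ → ℂ) * H) :=
    hB.1.add ((ModularFormClass.holo E₄).mul hH.1)
  have h60 : (E₆ : ℍ → ℂ) ≠ 0 := fun e => by
    have := tendsto_E6
    rw [e] at this
    exact zero_ne_one (tendsto_nhds_unique tendsto_const_nhds this)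
  exact eq_neg_of_add_eq_zero_left
    (((UpperHalfPlane.mul_eq_zero_iff (ModularFormClass.holo E₆) hd).mp h1).resolve_left h60)

end Fermat.Agent.Period
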