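import Fermat.Agent.Period.Evaluation
import Mathlib.LinearAlgebra.Vandermonde
import Mathlib.NumberTheory.Real.Irrational
import Mathlib.LinearAlgebra.Matrix.NonsingularInverse

/-!
# The rank of the module of modular forms equals the index

Main results: `scaleGL`, `slash_scaleGL_mem`, `card_genIdx`.
-/

set_option autoImplicit false

noncomputable section

namespace Fermat.Agent.Period

open UpperHalfPlane CongruenceSubgroup ModularGroup EisensteinSeries ModularForm Filter Topology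
open scoped MatrixGroups ModularForm Real Manifold

local notation "Δ" => ModularForm.discriminant

/-- The matrix `diag (N, 1)`. -/
def scaleGL (N : ℕ) [NeZero N] : GL (Fin 2) ℝ :=
  .mkOfDetNeZero !![(N : ℝ), 0; 0, 1] (by simp [NeZero.ne N])

variable {N : ℕ} [NeZero N]

@[simp] lemma coe_scaleGL : ((scaleGL N : GL (Fin 2) ℝ) : Matrix (Fin 2) (Fin 2) ℝ)
    = !![(N : ℝ), 0; 0, 1] := rfl

lemma coe_scaleGL_smul (z : ℍ) : ((scaleGL N • z : ℍ) : ℂ) = (N : ℂ) * z := by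
  rw [coe_smul_of_det_pos (by simp [scaleGL, Nat.pos_of_ne_zero (NeZero.ne N)])]
  simp [num, denom]

lemma scaleGL_conj {γ : SL(2, ℤ)} (hγ : γ ∈ Gamma0 N) :
    ∃ γ' : SL(2, ℤ), scaleGL N * (γ : GL (Fin 2) ℝ) = (γ' : GL (Fin 2) ℝ) * scaleGL N := by
  rw [Gamma0_mem, ZMod.intCast_zmod_eq_zero_iff_dvd] at hγ
  obtain ⟨c, hc⟩ := hγ
  have hdet : γ 0 0 * γ 1 1 - γ 0 1 * γ 1 0 = 1 := by
    rw [← Matrix.det_fin_two (γ : Matrix (Fin 2) (Fin 2) ℤ)]; exact γ.det_coe
  obtain ⟨γ', e00, e01, e10, e11⟩ : ∃ γ' : SL(2, ℤ), γ' 0 0 = γ 0 0 ∧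
      γ' 0 1 = (N : ℤ) * γ 0 1 ∧ γ' 1 0 = c ∧ γ' 1 1 = γ 1 1 := by
    refine ⟨⟨!![γ 0 0, (N : ℤ) * γ 0 1; c, γ 1 1], ?_⟩, rfl, rfl, rfl, rfl⟩
    rw [Matrix.det_fin_two_of]
    rw [hc] at hdet
    linear_combination hdet
  refine ⟨γ', ?_⟩
  apply Units.ext
  ext i j
  fin_cases i <;> fin_cases j <;>
    simp [Matrix.mul_apply, Fin.sum_univ_two, hc, e00, e01, e10, e11,
      mul_comm]

lemma exists_upper_scaleGL (δ : SL(2, ℤ)) : ∃ σ : SL(2, ℤ),
    (((σ⁻¹ : SL(2, ℤ)) : GL (Fin 2) ℝ) * (scaleGL N * (δ : GL (Fin 2) ℝ))) 1 0 = 0 := by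
  have hne : (N : ℤ) * δ 0 0 ≠ 0 ∨ δ 1 0 ≠ 0 := by
    by_contra h
    push Not at h
    have hdet : δ 0 0 * δ 1 1 - δ 0 1 * δ 1 0 = 1 := by
      rw [← Matrix.det_fin_two (δ : Matrix (Fin 2) (Fin 2) ℤ)]; exact δ.det_coe
    have h0 : δ 0 0 = 0 := (mul_eq_zero.mp h.1).resolve_left (by exact_mod_cast NeZero.ne N)
    rw [h0, h.2] at hdet
    simp at hdet
  obtain ⟨g, p, q, hg, hco, hp, hq⟩ := Int.exists_gcd_one' (m := (N : ℤ) * δ 0 0) (n := δ 1 0)
    (by rcases hne with h | h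
        · exact Int.gcd_pos_of_ne_zero_left _ h
        · exact Int.gcd_pos_of_ne_zero_right _ h)
  obtain ⟨u, v, huv⟩ := (Int.isCoprime_iff_gcd_eq_one.mpr hco : IsCoprime p q)
  obtain ⟨σ, s0, s1⟩ : ∃ σ : SL(2, ℤ), σ 0 0 = p ∧ σ 1 0 = q :=
    ⟨⟨!![p, -v; q, u], by rw [Matrix.det_fin_two_of]; linarith⟩, rfl, rfl⟩
  refine ⟨σ, ?_⟩
  have i10 : (σ⁻¹ : SL(2, ℤ)) 1 0 = -q := by
    simp [Matrix.SpecialLinearGroup.coe_inv, Matrix.adjugate_fin_two, s1]
  have i11 : (σ⁻¹ : SL(2, ℤ)) 1 1 = p := by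
    simp [Matrix.SpecialLinearGroup.coe_inv, Matrix.adjugate_fin_two, s0]
  have h1 : (N : ℝ) * ((δ 0 0 : ℤ) : ℝ) = (p : ℝ) * (g : ℝ) := by exact_mod_cast hp
  have h2 : ((δ 1 0 : ℤ) : ℝ) = (q : ℝ) * (g : ℝ) := by exact_mod_cast hq
  obtain ⟨σ', hσ'⟩ : ∃ x : SL(2, ℤ), σ⁻¹ = x := ⟨_, rfl⟩
  rw [hσ'] at i10 i11 ⊢
  simp [Matrix.mul_apply, Fin.sum_univ_two, Matrix.vecMul, dotProduct, i10, i11]
  linear_combination (-(q : ℝ)) * h1 + (p : ℝ) * h2

lemma slash_scaleGL_mem {k : ℤ} {f : ℍ → ℂ} (hf : f ∈ lev k) :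
    f ∣[k] (scaleGL N) ∈ modFun (Gamma0 N) k := by
  refine ⟨hf.1.slash _ _, fun γ hγ => ?_, fun δ => ?_⟩
  · obtain ⟨γ', hγ'⟩ := scaleGL_conj hγ
    rw [ModularForm.SL_slash, ← SlashAction.slash_mul, hγ', SlashAction.slash_mul,
      ← ModularForm.SL_slash, lev.slash_eq hf]
  · obtain ⟨σ, hσ⟩ := exists_upper_scaleGL (N := N) δ
    rw [ModularForm.SL_slash, ← SlashAction.slash_mul,
      show scaleGL N * (δ : GL (Fin 2) ℝ) = (σ : GL (Fin 2) ℝ)
        * (((σ⁻¹ : SL(2, ℤ)) : GL (Fin 2) ℝ) * (scaleGL N * (δ : GL (Fin 2) ℝ))) by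
        simp [← mul_assoc],
      SlashAction.slash_mul, ← ModularForm.SL_slash, lev.slash_eq hf]
    exact IsBoundedAtImInfty.slash _ hσ (by simpa using hf.2.2 1)

lemma modFun_pow' {Γ : Subgroup SL(2, ℤ)} {k : ℤ} {f : ℍ → ℂ} (hf : f ∈ modFun Γ k) (n : ℕ) :
    f ^ n ∈ modFun Γ (n * k) := by
  induction n with
  | zero => exact modFun_weight (by simp) (lev_le (const_mem_lev 1))
  | succ i hi => rw [pow_succ]; exact modFun_weight (by push_cast; ring) (modFun_mul hi hf)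

/-- A point fixed by no nonscalar rational matrix. -/
def genericPoint : ℍ :=
  ⟨Complex.I * (Real.sqrt (Real.sqrt 2) : ℝ), by
    simp only [Complex.mul_im, Complex.I_re, Complex.I_im, Complex.ofReal_re, Complex.ofReal_im, zero_mul, one_mul, zero_add]; exact Real.sqrt_pos.mpr (Real.sqrt_pos.mpr two_pos)⟩

lemma genericPoint_quadratic {A B C : ℤ}
    (h : (A : ℂ) * (genericPoint : ℂ) ^ 2 + (B : ℂ) * genericPoint + (C : ℂ) = 0) :
    A = 0 ∧ B = 0 ∧ C = 0 := by
  set t := Real.sqrt (Real.sqrt 2) with ht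
  have htpos : 0 < t := Real.sqrt_pos.mpr (Real.sqrt_pos.mpr two_pos)
  have ht2 : t ^ 2 = Real.sqrt 2 := Real.sq_sqrt (Real.sqrt_nonneg 2)
  have h' : ((-(A : ℝ) * t ^ 2 + C : ℝ) : ℂ) + (((B : ℝ) * t : ℝ) : ℂ) * Complex.I = 0 := by
    rw [← h]
    simp only [genericPoint, mul_pow, Complex.I_sq]
    push_cast
    ring
  rw [ht2] at h'
  have hre := congrArg Complex.re h'
  have him := congrArg Complex.im h'
  simp [Complex.add_re, Complex.add_im] at hre him
  have hB : B = 0 := by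
    rcases him with h0 | h0
    · exact_mod_cast h0
    · exact absurd h0 htpos.ne'
  have hA : A = 0 := by
    by_contra hA
    have h2 : Real.sqrt 2 * (A : ℝ) = (C : ℝ) := by linarith
    exact (irrational_sqrt_two.mul_intCast hA).ne_int C h2
  refine ⟨hA, hB, ?_⟩
  rw [hA] at hre
  simpa using hre

lemma jFun_scale_injective {δ δ' : SL(2, ℤ)}
    (h : jFun (scaleGL N • δ • genericPoint) = jFun (scaleGL N • δ' • genericPoint)) :
    δ' * δ⁻¹ ∈ Gamma0 N := by
  obtain ⟨σ, hσ⟩ := jFun_eq_iff.mp h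
  have h1 := congrArg (fun z : ℍ => (z : ℂ)) hσ
  simp only [coe_scaleGL_smul, coe_specialLinearGroup_apply] at h1
  set τ : ℂ := (genericPoint : ℂ) with hτ
  set a := δ 0 0
  set b := δ 0 1
  set c := δ 1 0
  set d := δ 1 1
  set a' := δ' 0 0
  set b' := δ' 0 1
  set c' := δ' 1 0
  set d' := δ' 1 1
  have hnz : (c : ℂ) * τ + d ≠ 0 := by
    have := denom_ne_zero (δ : GL (Fin 2) ℝ) genericPoint
    rwa [ModularGroup.denom_apply] at this
  have hnz' : (c' : ℂ) * τ + d' ≠ 0 := by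
    have := denom_ne_zero (δ' : GL (Fin 2) ℝ) genericPoint
    rwa [ModularGroup.denom_apply] at this
  set p1 := σ 0 0 * ((N : ℤ) * a) + σ 0 1 * c with hp1
  set p0 := σ 0 0 * ((N : ℤ) * b) + σ 0 1 * d with hp0
  set q1 := σ 1 0 * ((N : ℤ) * a) + σ 1 1 * c with hq1
  set q0 := σ 1 0 * ((N : ℤ) * b) + σ 1 1 * d with hq0
  have hnz2 : (q1 : ℂ) * τ + q0 ≠ 0 := by
    have := denom_ne_zero (σ : GL (Fin 2) ℝ) (scaleGL N • δ • genericPoint)
    rw [ModularGroup.denom_apply, coe_scaleGL_smul, coe_specialLinearGroup_apply] at this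
    intro e
    apply this
    simp only [algebraMap_int_eq, Int.coe_castRingHom, Complex.ofReal_intCast] at *
    rw [← hτ]
    have hcd : ((δ 1 0 : ℤ) : ℂ) * τ + ((δ 1 1 : ℤ) : ℂ) ≠ 0 := hnz
    rw [mul_div, mul_div, div_add' _ _ _ hcd, div_eq_zero_iff]
    left
    simp only [hq1, hq0, a, b, c, d] at e
    push_cast at e
    linear_combination e
  have key : ((p1 : ℂ) * τ + p0) * ((c' : ℂ) * τ + d')
      = ((q1 : ℂ) * τ + q0) * ((N : ℂ) * ((a' : ℂ) * τ + b')) := by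
    have e1 : ((p1 : ℂ) * τ + p0) / ((q1 : ℂ) * τ + q0)
        = (N : ℂ) * (((a' : ℂ) * τ + b') / ((c' : ℂ) * τ + d')) := by
      simp only [algebraMap_int_eq, Int.coe_castRingHom, Complex.ofReal_intCast] at h1
      rw [← h1, hp1, hp0, hq1, hq0]
      push_cast
      have hnz3 : ((σ 1 0 : ℤ) : ℂ) * ((N : ℂ) * ((a : ℂ) * τ + b)) + ((σ 1 1 : ℤ) : ℂ) * ((c : ℂ) * τ + d) ≠ 0 := by
        intro e
        apply hnz2
        rw [hq1, hq0]; push_cast
        linear_combination e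
      field_simp
      ring
    rw [← mul_div_assoc, div_eq_div_iff hnz2 hnz'] at e1
    linear_combination e1
  obtain ⟨hA, hB, hC⟩ := genericPoint_quadratic (A := p1 * c' - (N : ℤ) * q1 * a')
    (B := p1 * d' + p0 * c' - (N : ℤ) * (q1 * b' + q0 * a')) (C := p0 * d' - (N : ℤ) * q0 * b')
    (by rw [← hτ]; push_cast; linear_combination key)
  have hdet : a * d - b * c = 1 := by
    simp only [a, b, c, d]
    rw [← Matrix.det_fin_two (δ : Matrix (Fin 2) (Fin 2) ℤ)]; exact δ.det_coe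
  have hdet' : a' * d' - b' * c' = 1 := by
    simp only [a', b', c', d']
    rw [← Matrix.det_fin_two (δ' : Matrix (Fin 2) (Fin 2) ℤ)]; exact δ'.det_coe
  have hdσ : σ 0 0 * σ 1 1 - σ 0 1 * σ 1 0 = 1 := by
    rw [← Matrix.det_fin_two (σ : Matrix (Fin 2) (Fin 2) ℤ)]; exact σ.det_coe
  have hN : (N : ℤ) ≠ 0 := by exact_mod_cast NeZero.ne N
  have hq : q1 * d' = q0 * c' := by
    refine sub_eq_zero.mp ((mul_eq_zero.mp (?_ : (N : ℤ) * (q1 * d' - q0 * c') = 0)).resolve_left hN)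
    linear_combination (-(d' ^ 2)) * hA + (c' * d') * hB - c' ^ 2 * hC
      - (N : ℤ) * (q1 * d' - q0 * c') * hdet'
  set lam := q0 * a' - q1 * b' with hlam
  have e1 : q1 = lam * c' := by rw [hlam]; linear_combination (-q1) * hdet' + a' * hq
  have e0 : q0 = lam * d' := by rw [hlam]; linear_combination (-q0) * hdet' + b' * hq
  have hX : p1 - (N : ℤ) * lam * a' = 0 := by
    have x1 : (p1 - (N : ℤ) * lam * a') * c' = 0 := by
      rw [e1] at hA; linear_combination hA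
    have x0 : (p0 - (N : ℤ) * lam * b') * d' = 0 := by
      rw [e0] at hC; linear_combination hC
    have x2 : (p1 - (N : ℤ) * lam * a') * d' + (p0 - (N : ℤ) * lam * b') * c' = 0 := by
      rw [e1, e0] at hB; linear_combination hB
    have x3 : (p1 - (N : ℤ) * lam * a') * d' = 0 := by
      have : ((p1 - (N : ℤ) * lam * a') * d') ^ 2 = 0 := by
        linear_combination ((p1 - (N : ℤ) * lam * a') * d') * x2
          - (p1 - (N : ℤ) * lam * a') * c' * x0
      exact pow_eq_zero_iff (n := 2) (by norm_num) |>.mp this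
    linear_combination a' * x3 - b' * x1 - (p1 - (N : ℤ) * lam * a') * hdet'
  have hY : p0 - (N : ℤ) * lam * b' = 0 := by
    have x0 : (p0 - (N : ℤ) * lam * b') * d' = 0 := by
      rw [e0] at hC; linear_combination hC
    have x2 : (p0 - (N : ℤ) * lam * b') * c' = 0 := by
      rw [e1, e0] at hB; linear_combination hB - d' * hX
    linear_combination a' * x0 - b' * x2 - (p0 - (N : ℤ) * lam * b') * hdet'
  have hlam2 : lam ^ 2 = 1 := by
    refine mul_left_cancel₀ hN ?_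
    have hd1 : p1 * q0 - p0 * q1 = (N : ℤ) := by
      rw [hp1, hp0, hq1, hq0]
      linear_combination ((N : ℤ) * (a * d - b * c)) * hdσ + (N : ℤ) * hdet
    rw [e1, e0] at hd1
    linear_combination hd1 - (N : ℤ) * lam ^ 2 * hdet' - lam * d' * hX + lam * c' * hY
  rw [Gamma0_mem, ZMod.intCast_zmod_eq_zero_iff_dvd,
    show (δ' * δ⁻¹) 1 0 = c' * d - d' * c by
      simp [Matrix.SpecialLinearGroup.coe_inv, Matrix.adjugate_fin_two, Matrix.mul_apply,
        Fin.sum_univ_two, c', d', c, d]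
      ring]
  refine ⟨lam * σ 1 0, ?_⟩
  linear_combination lam * (c * (-1 : ℤ)) * (e0.symm.trans hq0) + lam * d * (e1.symm.trans hq1)
    - (c' * d - d' * c) * hlam2 + lam * (N : ℤ) * σ 1 0 * hdet

theorem card_genIdx : Nat.card (GenIdx N) = Nat.card (Coset N) := by
  classical
  refine le_antisymm card_genIdx_le ?_
  have : Fintype (GenIdx N) := Fintype.ofFinite _
  have : Fintype (Coset N) := Fintype.ofFinite _
  set n := Fintype.card (Coset N) with hn
  obtain ⟨e⟩ : Nonempty (Fin n ≃ Coset N) := ⟨(Fintype.equivFin _).symm⟩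
  set τ₀ := genericPoint
  set A : ℍ → ℂ := ((E₄ : ℍ → ℂ) ^ 3) ∣[(12 : ℤ)] scaleGL N with hA
  set B : ℍ → ℂ := Δ ∣[(12 : ℤ)] scaleGL N with hB
  have hAm : A ∈ modFun (Gamma0 N) 12 :=
    slash_scaleGL_mem (modFun_weight (by norm_num) (modFun_pow E4_mem 3))
  have hBm : B ∈ modFun (Gamma0 N) 12 := slash_scaleGL_mem Δ_mem
  set β : Coset N → ℂ := fun q => branch 12 B q τ₀ with hβ
  set φ : Coset N → ℂ := fun q => jFun (scaleGL N • q.out⁻¹ • τ₀) with hφ
  have hab : ∀ q, branch 12 A q τ₀ = φ q * β q := by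
    intro q
    simp only [hβ, hφ, branch, hA, hB, ModularForm.SL_slash_apply, ModularForm.slash_apply]
    have hσ : ∀ x : ℂ, UpperHalfPlane.σ (scaleGL N) x = x := fun x => by
      simp [UpperHalfPlane.σ, scaleGL, Nat.pos_of_ne_zero (NeZero.ne N)]
    simp only [hσ, Pi.pow_apply, jFun]
    field_simp [discriminant_ne_zero]
  have hβ0 : ∀ q, β q ≠ 0 := by
    intro q
    have hσ : ∀ x : ℂ, UpperHalfPlane.σ (scaleGL N) x = x := fun x => by
      simp [UpperHalfPlane.σ, scaleGL, Nat.pos_of_ne_zero (NeZero.ne N)]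
    simp only [hβ, branch, hB, ModularForm.SL_slash_apply, ModularForm.slash_apply, hσ]
    refine mul_ne_zero (mul_ne_zero (mul_ne_zero (discriminant_ne_zero _) ?_) ?_) ?_
    · exact zpow_ne_zero _ (Complex.ofReal_ne_zero.mpr (abs_ne_zero.mpr
        (Units.ne_zero (scaleGL N).det)))
    · exact zpow_ne_zero _ (denom_ne_zero _ _)
    · exact zpow_ne_zero _ (denom_ne_zero _ _)
  have hφinj : Function.Injective φ := by
    intro q q' h
    have h1 := jFun_scale_injective h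
    rw [← QuotientGroup.out_eq' q, ← QuotientGroup.out_eq' q', QuotientGroup.eq]
    have h2 := (Gamma0 N).inv_mem h1
    simpa using h2
  set rows : Fin n → (Coset N → ℂ) := fun r q =>
    φ q ^ (r : ℕ) * β q ^ (n - 1) with hrows
  set V : Submodule ℂ (Coset N → ℂ) :=
    Submodule.span ℂ (Set.range (fun i : GenIdx N => evalVec τ₀ i)) with hV
  have hmem : ∀ r, rows r ∈ V := by
    intro r
    set F := A ^ (r : ℕ) * B ^ (n - 1 - (r : ℕ)) with hF
    have hr : (r : ℕ) ≤ n - 1 := by have := r.2; omega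
    have hFm : F ∈ evForms N (6 * ((n - 1 : ℕ) : ℤ)) := by
      refine modFun_weight ?_ (modFun_mul (modFun_pow' hAm _) (modFun_pow' hBm _))
      push_cast [Nat.cast_sub hr]
      ring
    obtain ⟨s, P, hP, -, hsum⟩ := exists_sum_gen hFm
    have hrow : rows r = ∑ i ∈ s, P i τ₀ • evalVec τ₀ i := by
      funext q
      have hpw : ∀ (G : ℍ → ℂ) (j : ℕ), (G ^ j) ∣[((j : ℤ) * 12)] (q.out⁻¹)
          = (G ∣[(12 : ℤ)] (q.out⁻¹)) ^ j := by
        intro G j
        induction j with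
        | zero => simpa using ModularForm.is_invariant_one (q.out⁻¹)
        | succ j hj =>
          rw [pow_succ, pow_succ, show ((j + 1 : ℕ) : ℤ) * 12 = (j : ℤ) * 12 + 12 by push_cast; ring,
            ModularForm.mul_slash_SL2, hj]
      have e1 : branch (2 * (6 * ((n - 1 : ℕ) : ℤ))) F q τ₀ = rows r q := by
        rw [branch, hF, show 2 * (6 * ((n - 1 : ℕ) : ℤ))
          = ((r : ℕ) : ℤ) * 12 + ((n - 1 - (r : ℕ) : ℕ) : ℤ) * 12 by
          push_cast [Nat.cast_sub hr]; ring, ModularForm.mul_slash_SL2, hpw, hpw]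
        show (branch 12 A q τ₀) ^ (r : ℕ) * (branch 12 B q τ₀) ^ (n - 1 - (r : ℕ)) = _
        simp only [hab, hrows, mul_pow, mul_assoc]
        rw [← pow_add, Nat.add_sub_cancel' hr]
      rw [← e1, branch, hsum, SlashAction.sum_slash, Finset.sum_apply, Finset.sum_apply]
      refine Finset.sum_congr rfl fun i _ => ?_
      rw [show 2 * (6 * ((n - 1 : ℕ) : ℤ))
        = 2 * (6 * ((n - 1 : ℕ) : ℤ) - genWt i) + 2 * (genWt i : ℤ) by ring,
        ModularForm.mul_slash_SL2, lev.slash_eq (hP i)]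
      rfl
    rw [hrow]
    exact Submodule.sum_mem _ fun i _ => Submodule.smul_mem _ _ (Submodule.subset_span ⟨i, rfl⟩)
  have hli : LinearIndependent ℂ rows := by
    rw [Fintype.linearIndependent_iff]
    intro g hg
    have hv : Matrix.mulVec (Matrix.vandermonde (fun j => φ (e j))) g = 0 := by
      funext j
      have h := congrFun hg (e j)
      simp only [hrows, Finset.sum_apply, Pi.smul_apply, smul_eq_mul, Pi.zero_apply,
        ← mul_assoc] at h
      rw [← Finset.sum_mul] at h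
      have h' := (mul_eq_zero.mp h).resolve_right (pow_ne_zero _ (hβ0 _))
      simpa [Matrix.mulVec, dotProduct, Matrix.vandermonde, mul_comm] using h'
    have hdet : (Matrix.vandermonde (fun j => φ (e j))).det ≠ 0 :=
      Matrix.det_vandermonde_ne_zero_iff.mpr (hφinj.comp e.injective)
    exact congrFun (Matrix.eq_zero_of_mulVec_eq_zero hdet hv)
  have h1 : Fintype.card (Fin n) ≤ Module.finrank ℂ V := by
    have hli' : LinearIndependent ℂ (fun r => (⟨rows r, hmem r⟩ : V)) :=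
      LinearIndependent.of_comp V.subtype hli
    exact hli'.fintype_card_le_finrank
  rw [Fintype.card_fin] at h1
  rw [Nat.card_eq_fintype_card, Nat.card_eq_fintype_card, ← hn]
  exact h1.trans (finrank_range_le_card (R := ℂ) (fun i : GenIdx N => evalVec τ₀ i))

end Fermat.Agent.Period
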